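import Fermat.Agent.HuaSquares.CompleteSum
import Fermat.Agent.WaringAsymptotic.Local

/-!
# The complete sums over units, `k`-th powers

`∑ e (a x ^ k / q)` over the `x` prime to `q` is multiplicative, vanishes modulo the prime powers
`p ^ l` with `l > γ (p)`, and is `O (√p)` modulo a prime; here `γ (p) = v_p k + 1`, one more for
`p = 2` and even `k`.
-/

set_option autoImplicit false

noncomputable section

namespace FA.WaringGoldbach

open Finset FA.ThreePrimes FA.WaringAsymptotic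

/-- `∑ e (a r ^ k / q)` over the residues prime to `q`. -/
def unitSum (k q : ℕ) (a : ℤ) : ℂ :=
  ∑ r ∈ unitResidues q, eAdd ((a : ℝ) * (r : ℝ) ^ k / q)

/-- The normalised sum. -/
def unitFactor (k q : ℕ) (a : ℤ) : ℂ := unitSum k q a / q.totient

/-- The exponent of `p` in the modulus which decides the solubility. -/
def localExp (k p : ℕ) : ℕ := padicValNat p k + if p = 2 ∧ 2 ∣ k then 2 else 1

theorem one_le_localExp (k p : ℕ) : 1 ≤ localExp k p := by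
  unfold localExp
  split_ifs <;> omega

theorem localExp_of_not_dvd {k p : ℕ} (hp : ¬p ∣ k) : localExp k p = 1 := by
  rw [localExp, padicValNat.eq_zero_of_not_dvd hp, if_neg]
  rintro ⟨rfl, h⟩
  exact hp h

theorem eAdd_pow_eq_char {k q : ℕ} [NeZero q] (a : ℤ) (r : ℕ) :
    eAdd ((a : ℝ) * (r : ℝ) ^ k / q) = ZMod.stdAddChar ((a : ZMod q) * (r : ZMod q) ^ k) := by
  have h := eAdd_div_eq_char (q := q) (a * (r : ℤ) ^ k)
  push_cast at h
  exact h

theorem unitSum_eq (k q : ℕ) [NeZero q] (a : ℤ) :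
    unitSum k q a = ∑ u : (ZMod q)ˣ, ZMod.stdAddChar ((a : ZMod q) * (u : ZMod q) ^ k) := by
  rw [unitSum, ← HuaSquares.sum_unitResidues_eq_units
    fun x : ZMod q => ZMod.stdAddChar ((a : ZMod q) * x ^ k)]
  exact sum_congr rfl fun r _ => eAdd_pow_eq_char a r

theorem norm_unitSum_le (k q : ℕ) (a : ℤ) : ‖unitSum k q a‖ ≤ q.totient := by
  refine (norm_sum_le _ _).trans ?_
  simp [norm_eAdd, card_unitResidues]

theorem norm_unitFactor_le_one (k q : ℕ) (a : ℤ) : ‖unitFactor k q a‖ ≤ 1 := by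
  rw [unitFactor, norm_div, Complex.norm_natCast]
  exact div_le_one_of_le₀ (norm_unitSum_le k q a) (Nat.cast_nonneg _)

/-- **Multiplicativity.** -/
theorem unitSum_crt (k : ℕ) {q₁ q₂ : ℕ} (hco : q₁.Coprime q₂) (h₁ : 0 < q₁) (h₂ : 0 < q₂)
    (r₁ r₂ : ℕ) : unitSum k (q₁ * q₂) (crtResidue q₁ q₂ r₁ r₂ : ℕ) =
      unitSum k q₁ r₁ * unitSum k q₂ r₂ := by
  have : NeZero q₁ := ⟨h₁.ne'⟩
  have : NeZero q₂ := ⟨h₂.ne'⟩
  obtain ⟨hinj, himg⟩ := HuaSquares.crtResidue_bijOn hco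
  obtain ⟨G₁, hG₁⟩ : ∃ G : ZMod q₁ → ℂ,
      G = fun x => ZMod.stdAddChar (((r₁ : ℤ) : ZMod q₁) * x ^ k) := ⟨_, rfl⟩
  obtain ⟨G₂, hG₂⟩ : ∃ G : ZMod q₂ → ℂ,
      G = fun x => ZMod.stdAddChar (((r₂ : ℤ) : ZMod q₂) * x ^ k) := ⟨_, rfl⟩
  have key : ∀ z ∈ unitResidues q₁ ×ˢ unitResidues q₂,
      eAdd ((((crtResidue q₁ q₂ r₁ r₂ : ℕ) : ℤ) : ℝ) *
        ((crtResidue q₁ q₂ z.1 z.2 : ℕ) : ℝ) ^ k / (q₁ * q₂ : ℕ)) =
      G₁ ((z.1 : ZMod q₁) * (q₂ : ZMod q₁)) * G₂ ((z.2 : ZMod q₂) * (q₁ : ZMod q₂)) := by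
    intro z _
    obtain ⟨x, hx⟩ : ∃ x, x = crtResidue q₁ q₂ z.1 z.2 := ⟨_, rfl⟩
    rw [← crtResidue_cast_left q₁ q₂ z.1 z.2, ← crtResidue_cast_right q₁ q₂ z.1 z.2, ← hx, hG₁,
      hG₂]
    simp only
    rw [← eAdd_pow_eq_char, ← eAdd_pow_eq_char, Int.cast_natCast, Int.cast_natCast,
      Int.cast_natCast]
    have h := HuaSquares.eAdd_crt_split h₁ h₂ r₁ r₂ ((x : ℤ) ^ k)
    push_cast at h ⊢
    rw [mul_comm ((crtResidue q₁ q₂ r₁ r₂ : ℕ) : ℝ), h, mul_comm ((x : ℝ) ^ k),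
      mul_comm ((x : ℝ) ^ k)]
  rw [unitSum, ← himg, sum_image hinj, sum_congr rfl key, sum_product]
  simp only
  rw [← sum_mul_sum]
  have hperm : ∀ (q : ℕ) [NeZero q] (G : ZMod q → ℂ) (w : (ZMod q)ˣ),
      ∑ u : (ZMod q)ˣ, G ((u : ZMod q) * w) = ∑ u : (ZMod q)ˣ, G u := fun q _ G w =>
    Fintype.sum_equiv (Equiv.mulRight w) _ _ fun u => by simp
  rw [HuaSquares.sum_unitResidues_eq_units (fun x => G₁ (x * (q₂ : ZMod q₁))),
    HuaSquares.sum_unitResidues_eq_units (fun x => G₂ (x * (q₁ : ZMod q₂))),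
    ← IsUnit.unit_spec ((ZMod.isUnit_iff_coprime q₂ q₁).2 hco.symm),
    ← IsUnit.unit_spec ((ZMod.isUnit_iff_coprime q₁ q₂).2 hco), hperm, hperm,
    unitSum_eq, unitSum_eq, hG₁, hG₂]

/-- **The descent**: a nilpotent `π` with `(1 + t π) ^ k = 1 + k t π` and `k π ≠ 0` kills the
sum. -/
theorem unitSum_eq_zero {k q : ℕ} [NeZero q] {π : ZMod q}
    (hπ : ∀ t : ZMod q, (1 + t * π) ^ k = 1 + (k : ZMod q) * (t * π)) (hnil : IsNilpotent π)
    (hkπ : (k : ZMod q) * π ≠ 0) {a : ℤ} (ha : IsUnit (a : ZMod q)) : unitSum k q a = 0 := by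
  rw [unitSum_eq]
  obtain ⟨S, hS⟩ : ∃ S, S = ∑ u : (ZMod q)ˣ, ZMod.stdAddChar ((a : ZMod q) * (u : ZMod q) ^ k) :=
    ⟨_, rfl⟩
  rw [← hS]
  have hshift : ∀ t : ZMod q, S = ∑ u : (ZMod q)ˣ,
      ZMod.stdAddChar ((a : ZMod q) * (u : ZMod q) ^ k) *
        ZMod.stdAddChar (t * ((a : ZMod q) * (u : ZMod q) ^ k * ((k : ZMod q) * π))) := by
    intro t
    obtain ⟨w, hw⟩ : IsUnit (1 + t * π) :=
      ((Commute.all t π).isNilpotent_mul_left hnil).isUnit_one_add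
    rw [hS]
    refine (Fintype.sum_equiv (Equiv.mulRight w) _ _ fun u => ?_).symm
    rw [← AddChar.map_add_eq_mul]
    simp only [Equiv.coe_mulRight, Units.val_mul, hw, mul_pow, hπ]
    ring_nf
  have h0 : (q : ℂ) * S = 0 := by
    rw [show (q : ℂ) * S = ∑ t : ZMod q, S by simp, sum_congr rfl fun t _ => hshift t, sum_comm]
    refine sum_eq_zero fun u _ => ?_
    rw [← mul_sum, AddChar.sum_mulShift _ (ZMod.isPrimitive_stdAddChar q), if_neg, Nat.cast_zero,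
      mul_zero]
    intro h
    exact hkπ ((ha.mul (u.isUnit.pow k)).mul_left_cancel (h.trans (mul_zero _).symm))
  exact (mul_eq_zero.1 h0).resolve_left (Nat.cast_ne_zero.2 (NeZero.ne q))

/-- **Beyond `γ (p)` the sums vanish.** -/
theorem unitSum_primePow {k p l : ℕ} (hk : 1 ≤ k) (hp : p.Prime) (hl : localExp k p < l) {a : ℤ}
    (ha : IsUnit (a : ZMod (p ^ l))) : unitSum k (p ^ l) a = 0 := by
  have : NeZero (p ^ l) := ⟨pow_ne_zero _ hp.ne_zero⟩
  have : Fact p.Prime := ⟨hp⟩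
  obtain ⟨τ, hτ⟩ : ∃ τ, τ = padicValNat p k := ⟨_, rfl⟩
  rw [localExp, ← hτ] at hl
  obtain ⟨e, he⟩ : ∃ e, l = τ + e + 1 := ⟨l - τ - 1, by split_ifs at hl <;> omega⟩
  have he1 : 1 ≤ e := by split_ifs at hl <;> omega
  have he2 : τ = 0 ∨ p ≠ 2 ∨ 2 ≤ e := by
    rcases Nat.eq_zero_or_pos τ with h | h
    · exact Or.inl h
    by_cases h2 : p = 2
    · have hk2 : 2 ∣ k := by
        subst h2
        exact (dvd_pow_self 2 h.ne').trans (hτ ▸ pow_padicValNat_dvd)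
      rw [if_pos ⟨h2, hk2⟩] at hl
      exact Or.inr (Or.inr (by omega))
    · exact Or.inr (Or.inl h2)
  have hτk : p ^ τ ∣ k := hτ ▸ pow_padicValNat_dvd
  refine unitSum_eq_zero (π := ((p ^ e : ℕ) : ZMod (p ^ l))) (fun t => ?_) ⟨l, ?_⟩ ?_ ha
  · have h := pow_add_congr hp hk hτk he1 he2 1 (t.val : ℤ)
    rw [← he, ← Int.natCast_pow p l, ← ZMod.intCast_zmod_eq_zero_iff_dvd] at h
    push_cast at h ⊢
    rw [ZMod.natCast_zmod_val, one_pow, one_pow, mul_one] at h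
    linear_combination h
  · rw [← Nat.cast_pow, ← pow_mul, ZMod.natCast_eq_zero_iff]
    exact pow_dvd_pow p (Nat.le_mul_of_pos_left l he1)
  · rw [← Nat.cast_mul, Ne, ZMod.natCast_eq_zero_iff]
    intro h
    refine pow_succ_padicValNat_not_dvd (p := p) (n := k) (by omega) ?_
    rw [← hτ]
    rw [he, show τ + e + 1 = τ + 1 + e by ring, pow_add] at h
    exact Nat.dvd_of_mul_dvd_mul_right (pow_pos hp.pos e) h

/-- **Modulo a prime.** -/
theorem norm_unitSum_prime_le {k p : ℕ} (hk : 1 ≤ k) (hp : p.Prime) {a : ℤ}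
    (ha : IsUnit (a : ZMod p)) : ‖unitSum k p a‖ ≤ (2 * k + 1) * √(p : ℝ) := by
  have h := norm_completeSum_prime_le hp hk ha
  have e : completeSum k p a = unitSum k p a + 1 := by
    have : unitResidues p = (range p).erase 0 := by
      ext r
      rw [unitResidues, mem_filter, mem_range, mem_erase, mem_range, hp.coprime_iff_not_dvd]
      constructor
      · rintro ⟨h1, h2⟩
        exact ⟨fun h0 => h2 (h0 ▸ dvd_zero p), h1⟩
      · rintro ⟨h1, h2⟩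
        exact ⟨h2, fun hd => absurd (Nat.le_of_dvd (by omega) hd) (by omega)⟩
    rw [completeSum, unitSum, this, ← sum_erase_add _ _ (mem_range.2 hp.pos)]
    simp [zero_pow (show k ≠ 0 by omega)]
  have h1 : (1 : ℝ) ≤ √(p : ℝ) := Real.one_le_sqrt.2 (by exact_mod_cast hp.one_le)
  rw [show unitSum k p a = completeSum k p a - 1 by rw [e]; ring]
  refine (norm_sub_le _ _).trans ?_
  rw [norm_one]
  linarith

/-- The descent from `p ^ (L + 1)` to `p ^ L`. -/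
theorem unitSum_mul_left {k p : ℕ} (hp : p.Prime) (L : ℕ) (hL : 1 ≤ L) (a : ℤ) :
    unitSum k (p ^ (L + 1)) ((p : ℤ) * a) = (p : ℂ) * unitSum k (p ^ L) a := by
  obtain ⟨n, hn⟩ : ∃ n, n = p ^ L := ⟨_, rfl⟩
  have hn0 : 0 < n := hn ▸ pow_pos hp.pos L
  have hpn : p ∣ n := hn ▸ dvd_pow_self p (by omega)
  obtain ⟨g, hg⟩ : ∃ g : ℕ → ℂ, g = fun y : ℕ =>
      if p ∣ y then 0 else eAdd ((a : ℝ) * (y : ℝ) ^ k / n) := ⟨_, rfl⟩
  have hper : ∀ j y : ℕ, g (j * n + y) = g y := fun j y => by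
    have : NeZero n := ⟨hn0.ne'⟩
    have h1 := eAdd_pow_eq_char (k := k) (q := n) a (j * n + y)
    have h2 := eAdd_pow_eq_char (k := k) (q := n) a y
    rw [hg]
    simp only [h1, h2, (Nat.dvd_add_right (hpn.mul_left j) : p ∣ j * n + y ↔ p ∣ y)]
    simp
  have hblk : ∀ j : ℕ, ∑ y ∈ range (j * n), g y = (j : ℂ) * ∑ y ∈ range n, g y := fun j => by
    induction j with
    | zero => simp
    | succ j ih =>
      rw [add_mul, one_mul, sum_range_add, ih, sum_congr rfl fun y _ => hper j y]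
      push_cast
      ring
  have hunit : ∀ m, 1 ≤ m →
      unitResidues (p ^ m) = (range (p ^ m)).filter fun y => ¬p ∣ y := fun m hm => by
    rw [unitResidues]
    refine filter_congr fun y _ => ?_
    rw [Nat.coprime_pow_left_iff hm, hp.coprime_iff_not_dvd]
  have h := hblk p
  rw [hg] at h
  simp only [← ite_not (p ∣ _), ← sum_filter] at h
  rw [unitSum, unitSum, hunit _ (by omega), hunit _ hL, pow_succ', ← hn, ← h]
  refine sum_congr rfl fun y _ => ?_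
  congr 1
  have : (p : ℝ) ≠ 0 := Nat.cast_ne_zero.2 hp.ne_zero
  push_cast
  field_simp

end FA.WaringGoldbach
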