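import Fermat.Agent.WaringAsymptotic.Main

/-!
# The moment above the critical exponent

`∑ x i ^ k = ∑ y i ^ k` has `O (P ^ (2 t - k))` solutions with `2 t` variables up to `P` once
`2 t > k (k + 1)`: the circle method, with Weyl's inequality and the main conjecture in the mean
value theorem off the major arcs, and the mean square of the weights on them.
-/

set_option autoImplicit false

noncomputable section

namespace FA.WaringGoldbach

open Finset FA.ThreePrimes FA.WaringAsymptotic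

theorem sum_biUnion_le {ι κ : Type*} [DecidableEq κ] (s : Finset ι) (A : ι → Finset κ) {f :
    κ → ℝ}
    (hf : ∀ i, 0 ≤ f i) : ∑ i ∈ s.biUnion A, f i ≤ ∑ z ∈ s, ∑ i ∈ A z, f i := by
  classical
  induction s using Finset.induction with
  | empty => simp
  | insert a s ha ih =>
    rw [biUnion_insert, sum_insert ha]
    refine (le_of_le_of_eq (le_add_of_nonneg_right
      (sum_nonneg fun i _ => hf i)) sum_union_inter).trans (add_le_add le_rfl ih)

/-- **The weights on a translate of the grid.** -/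
theorem exists_sum_weightSum_pow_le {c : ℝ} (hc : 0 < c) {t : ℕ} (ht : 2 ≤ (t : ℝ) * c) :
    ∃ C : ℝ, 0 < C ∧ ∀ (N M : ℕ) (θ : ℝ), c ≤ 1 → 1 ≤ N → t * N < M →
      ∑ h ∈ range M, ‖weightSum c N ((h : ℝ) / M + θ)‖ ^ (2 * t) ≤
        C * M * (N : ℝ) ^ (2 * (t : ℝ) * c - 1) := by
  obtain ⟨K, hK, hconv⟩ := exists_weightConv_asymptotic hc ht
  have ht1 : 1 ≤ t := by
    by_contra h
    rw [show t = 0 by omega] at ht
    norm_num at ht
  obtain ⟨G, hG⟩ : ∃ G : ℝ, G = Real.Gamma (1 + c) ^ t / Real.Gamma ((t : ℝ) * c) := ⟨_, rfl⟩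
  have hG0 : 0 < G := hG ▸ div_pos (pow_pos (Real.Gamma_pos_of_pos (by linarith)) t)
    (Real.Gamma_pos_of_pos (by linarith))
  obtain ⟨Y, hY⟩ : ∃ Y : ℝ, Y = (t : ℝ) * c - 1 := ⟨_, rfl⟩
  refine ⟨(G + K) * (t : ℝ) ^ Y, by positivity, fun N M θ hc1 hN hM => ?_⟩
  have hN1 : (1 : ℝ) ≤ N := by exact_mod_cast hN
  have ht1' : (1 : ℝ) ≤ t := by exact_mod_cast ht1
  obtain ⟨A, hA⟩ : ∃ A : ℕ → Finset (Fin t → ℕ), A = fun n =>
      (Fintype.piFinset fun _ : Fin t => Ioc 0 N).filter fun z => ∑ i, z i = n := ⟨_, rfl⟩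
  obtain ⟨f, hf⟩ : ∃ f : ℕ → ℝ, f = fun n => ∑ z ∈ A n, ∏ i, weight c (z i) := ⟨_, rfl⟩
  have hrange : ∀ z ∈ Fintype.piFinset (fun _ : Fin t => Ioc 0 N),
      ∑ i, z i ∈ Icc 1 (t * N) := fun z hz => by
    rw [mem_Icc]
    have hb := fun i => mem_Ioc.1 (Fintype.mem_piFinset.1 hz i)
    exact ⟨ht1.trans (le_trans (by simp)
        (card_nsmul_le_sum univ z 1 fun i _ => (hb i).1)),
      (sum_le_card_nsmul univ z N fun i _ => (hb i).2).trans (by simp)⟩
  have hsum : ∀ x : ℝ, weightSum c N x ^ t = ∑ n ∈ Icc 1 (t * N), (f n : ℂ) * eAdd (n * x) := by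
    intro x
    have h := sum_eAdd_pow (Ioc 0 N) (fun m => (weight c m : ℂ)) (fun m => m) t x
    rw [weightSum, h, ← sum_fiberwise_of_maps_to hrange]
    refine sum_congr rfl fun n _ => ?_
    rw [hf, hA, Complex.ofReal_sum, sum_mul]
    refine sum_congr rfl fun z hz => ?_
    rw [Complex.ofReal_prod, (mem_filter.1 hz).2]
  have hf0 : ∀ n, 0 ≤ f n := fun n => by
    rw [hf]
    exact sum_nonneg fun z _ => prod_nonneg fun i _ => weight_nonneg hc.le _
  have hfmax : ∀ n ∈ Icc 1 (t * N), f n ≤ (G + K) * (t : ℝ) ^ Y * (N : ℝ) ^ Y := by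
    intro n hn
    rw [mem_Icc] at hn
    have hn1 : (1 : ℝ) ≤ n := by exact_mod_cast hn.1
    have h1 : f n ≤ weightConv c t n := by
      rw [hf, hA, weightConv]
      refine sum_le_sum_of_subset_of_nonneg (fun z hz => ?_)
        fun z _ _ => prod_nonneg fun i _ => weight_nonneg hc.le _
      rw [mem_filter, Fintype.mem_piFinset] at hz ⊢
      exact ⟨fun i => mem_Ioc.2 ⟨(mem_Ioc.1 (hz.1 i)).1,
        (single_le_sum (fun j _ => Nat.zero_le (z j)) (mem_univ i)).trans hz.2.le⟩, hz.2⟩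
    have h2 := (abs_le.1 (hconv n hn.1)).2
    rw [← hG, show (t : ℝ) * c - 2 = Y - 1 by linarith, ← hY] at h2
    have h3 : (n : ℝ) ^ (Y - 1) ≤ (n : ℝ) ^ Y :=
      Real.rpow_le_rpow_of_exponent_le hn1 (by linarith)
    have h4 : (n : ℝ) ^ Y ≤ (t : ℝ) ^ Y * (N : ℝ) ^ Y := by
      rw [← Real.mul_rpow (by linarith) (by linarith)]
      exact Real.rpow_le_rpow (by linarith) (by exact_mod_cast hn.2) (by linarith)
    have h5 := mul_le_mul_of_nonneg_left h4 (show 0 ≤ G + K by linarith)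
    have h6 := mul_le_mul_of_nonneg_left h3 hK.le
    rw [mul_assoc]
    linarith
  have hftot : ∑ n ∈ Icc 1 (t * N), f n ≤ (N : ℝ) ^ ((t : ℝ) * c) := by
    rw [hf, hA, sum_fiberwise_of_maps_to hrange, ← prod_univ_sum (fun _ : Fin t => Ioc 0 N)
      (fun _ m => weight c m), prod_const, card_univ, Fintype.card_fin, mul_comm (t : ℝ),
      Real.rpow_mul (Nat.cast_nonneg N), Real.rpow_natCast]
    exact pow_le_pow_left₀ (sum_nonneg fun m _ => weight_nonneg hc.le m)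
      (abs_sum_weight_sub_le hc hc1 N).2 t
  have e : ∀ h : ℕ, ‖weightSum c N ((h : ℝ) / M + θ)‖ ^ (2 * t) =
      ‖trigSum (fun n => (f n : ℂ) * eAdd (n * θ)) (t * N) ((h : ℝ) / M)‖ ^ 2 := fun h => by
    rw [mul_comm 2 t, pow_mul, ← norm_pow, hsum, trigSum]
    refine congrArg (fun z : ℂ => ‖z‖ ^ 2) (sum_congr rfl fun n _ => ?_)
    rw [mul_assoc, ← eAdd_add]
    ring_nf
  rw [sum_congr rfl fun h _ => e h, sum_norm_sq_grid _ hM]
  refine le_trans (mul_le_mul_of_nonneg_left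
    (sum_le_sum (g := fun n => (G + K) * (t : ℝ) ^ Y * (N : ℝ) ^ Y * f n) fun n hn => ?_)
    (Nat.cast_nonneg M)) ?_
  · rw [norm_mul, norm_eAdd, mul_one, Complex.norm_real, Real.norm_eq_abs, abs_of_nonneg (hf0 n),
      sq]
    exact mul_le_mul_of_nonneg_right (hfmax n hn) (hf0 n)
  rw [← mul_sum]
  refine (mul_le_mul_of_nonneg_left (mul_le_mul_of_nonneg_left hftot (by positivity))
    (Nat.cast_nonneg M)).trans (le_of_eq ?_)
  rw [show 2 * (t : ℝ) * c - 1 = Y + (t : ℝ) * c by rw [hY]; ring, Real.rpow_add (by linarith)]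
  ring

theorem rootFloor_pow {k P : ℕ} (hk : 1 ≤ k) (hP : 1 ≤ P) : rootFloor k (P ^ k) = P := by
  obtain ⟨-, h2, h3⟩ := rootFloor_spec hk (Nat.one_le_pow k P hP)
  rw [Nat.pow_le_pow_iff_left (by omega)] at h2
  rw [Nat.pow_lt_pow_iff_left (by omega)] at h3
  omega

/-- **The moment above the critical exponent.** -/
theorem exists_powerDiagonal_le {k t : ℕ} (hk : 2 ≤ k) (ht : k * (k + 1) < 2 * t) : ∃ C : ℝ,
    0 < C ∧ ∀ P : ℕ, 1 ≤ P → (powerDiagonal k t P : ℝ) ≤ C * (P : ℝ) ^ (2 * (t : ℝ) - k) := by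
  obtain ⟨n, hn⟩ : ∃ n, 2 * t = n + 1 := ⟨2 * t - 1, by omega⟩
  have hk0 : (0 : ℝ) < k := by exact_mod_cast (show 0 < k by omega)
  have hk1 : 1 / (k : ℝ) ≤ 1 := by
    rw [div_le_one hk0]; exact_mod_cast (show 1 ≤ k by omega)
  have h2k : 2 * k ≤ t := by
    rcases Nat.lt_or_ge k 3 with h | h
    · obtain rfl : k = 2 := by omega
      omega
    · have : k * 4 ≤ k * (k + 1) := Nat.mul_le_mul_left k (by omega)
      omega
  have htc : 2 ≤ (t : ℝ) * (1 / (k : ℝ)) := by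
    rw [mul_one_div, le_div_iff₀ hk0]
    exact_mod_cast h2k
  obtain ⟨C₁, hC₁, hmin⟩ := exists_minor_sum hk ht
  obtain ⟨C₂, hC₂, harc⟩ := exists_arc_error hk n
  obtain ⟨C₃, hC₃, hW⟩ := exists_sum_weightSum_pow_le (c := 1 / (k : ℝ)) (by positivity) htc
  obtain ⟨C₄, hC₄, hterm⟩ := exists_singularTerm_le hk (three_mul_le_of_lt hk ht)
  obtain ⟨Z, hZ⟩ : ∃ Z, Z = C₄ * ∑' q : ℕ, (q : ℝ) ^ (-(7 / 5) : ℝ) := ⟨_, rfl⟩
  have hZ0 : 0 ≤ Z := hZ ▸ mul_nonneg (by linarith) (tsum_nonneg fun q => by positivity)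
  refine ⟨C₁ + C₂ + Z * C₃, by positivity, fun P hP => ?_⟩
  obtain ⟨N, hN⟩ : ∃ N, N = P ^ k := ⟨_, rfl⟩
  have hN1 : 1 ≤ N := hN ▸ Nat.one_le_pow k P hP
  have hroot : P = rootFloor k N := by rw [hN, rootFloor_pow (by omega) hP]
  obtain ⟨M, hM⟩ : ∃ M, M = 2 * t * N := ⟨_, rfl⟩
  have htM : t * N < M := hM ▸ Nat.mul_lt_mul_of_pos_right (by omega) hN1
  have hM0 : (0 : ℝ) < M := Nat.cast_pos.2 (by omega)
  have hPr : (1 : ℝ) ≤ P := by exact_mod_cast hP
  have hNr : (N : ℝ) = (P : ℝ) ^ (k : ℝ) := by rw [hN, Real.rpow_natCast]; norm_num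
  obtain ⟨Q, hQ⟩ : ∃ Q, Q = ⌊(P : ℝ) ^ (1 / 10 : ℝ)⌋₊ := ⟨_, rfl⟩
  obtain ⟨δ, hδ⟩ : ∃ δ, δ = (P : ℝ) ^ (1 / 10 : ℝ) / (N : ℝ) := ⟨_, rfl⟩
  obtain ⟨F, hF⟩ : ∃ F : ℕ → ℝ, F = fun h : ℕ => ‖waringSum k P ((h : ℝ) / M)‖ ^ (2 * t) :=
    ⟨_, rfl⟩
  have hF0 : ∀ h, 0 ≤ F h := fun h => by rw [hF]; positivity
  obtain ⟨E, hE⟩ : ∃ E : ℝ, E = (P : ℝ) ^ (2 * (t : ℝ) - k) := ⟨_, rfl⟩
  refine le_of_mul_le_mul_left ?_ hM0
  rw [← sum_norm_waringSum_pow (hN ▸ htM), ← hE]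
  have hsub : range M ⊆ minorSet M P N ∪ (arcCentres Q).biUnion (arc M δ) := by
    rw [minorSet, ← hQ, ← hδ, sdiff_union_self_eq_union]
    exact subset_union_left
  have hunion : ∑ h ∈ range M, F h ≤
      ∑ h ∈ minorSet M P N, F h + ∑ z ∈ arcCentres Q, ∑ h ∈ arc M δ z, F h := by
    refine (sum_le_sum_of_subset_of_nonneg hsub fun i _ _ => hF0 i).trans ?_
    refine (le_of_le_of_eq (le_add_of_nonneg_right
      (sum_nonneg fun i _ => hF0 i)) sum_union_inter).trans (add_le_add le_rfl ?_)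
    exact sum_biUnion_le _ _ fun i => hF0 i
  have p1 : ∑ h ∈ minorSet M P N, F h ≤ M * (C₁ * E) := by
    rw [hF]
    refine (hmin N P M hP hN.ge ?_ hM.ge).trans ?_
    · rw [hN]
      exact Nat.pow_lt_pow_left P.lt_succ_self (by omega)
    · rw [hE, mul_left_comm, mul_assoc]
      refine mul_le_mul_of_nonneg_left (mul_le_mul_of_nonneg_left ?_ hM0.le) hC₁.le
      refine Real.rpow_le_rpow_of_exponent_le hPr ?_
      push_cast
      linarith [weylSaving_pos k]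
  have p2 : ∀ z ∈ arcCentres Q, ∑ h ∈ arc M δ z, F h ≤
      C₂ * (P : ℝ) ^ ((n : ℝ) + 4 / 10) + ‖arcCoef k (2 * t) N z‖ * (C₃ * M * E) := by
    intro z hz
    have h1 := harc N P M hroot hN1 (by rw [hM, hn]) z (hQ ▸ hz)
    rw [← hδ, ← hn] at h1
    refine (sum_le_sum (g := fun h : ℕ =>
      ‖waringSum k P ((h : ℝ) / M) ^ (2 * t) * eAdd (-((N : ℝ) * ((h : ℝ) / M))) -
        arcCoef k (2 * t) N z * WaringAsymptotic.mainTerm k (2 * t) N ((h : ℝ) / M + -centre z)‖ +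
      ‖arcCoef k (2 * t) N z‖ * ‖weightSum (1 / (k : ℝ)) N ((h : ℝ) / M + -centre z)‖ ^ (2 * t))
      fun h _ => ?_).trans ?_
    · have e : F h = ‖waringSum k P ((h : ℝ) / M) ^ (2 * t) *
          eAdd (-((N : ℝ) * ((h : ℝ) / M)))‖ := by
        rw [hF, norm_mul, norm_eAdd, mul_one, norm_pow]
      rw [e]
      refine (norm_le_norm_sub_add _ (arcCoef k (2 * t) N z *
        WaringAsymptotic.mainTerm k (2 * t) N ((h : ℝ) / M + -centre z))).trans (le_of_eq ?_)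
      congr 1
      rw [norm_mul, WaringAsymptotic.mainTerm, norm_mul, norm_eAdd, mul_one, norm_pow]
    rw [sum_add_distrib, ← mul_sum]
    refine add_le_add h1 (mul_le_mul_of_nonneg_left ?_ (norm_nonneg _))
    refine (sum_le_sum_of_subset_of_nonneg (filter_subset _ _) fun i _ _ => by positivity).trans
      ((hW N M _ hk1 hN1 htM).trans (le_of_eq ?_))
    rw [hE, hNr, ← Real.rpow_mul (by linarith)]
    congr 2
    field_simp
  have hcard : ((arcCentres Q).card : ℝ) ≤ (P : ℝ) ^ (2 / 10 : ℝ) := by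
    have h1 : (arcCentres Q).card ≤ Q * Q := by
      rw [arcCentres, card_sigma]
      refine (sum_le_card_nsmul _ _ Q fun q hq => ?_).trans (le_of_eq ?_)
      · rw [card_unitResidues]
        exact (Nat.totient_le q).trans (mem_Icc.1 hq).2
      · simp
    have hQP : (Q : ℝ) ≤ (P : ℝ) ^ (1 / 10 : ℝ) := hQ ▸ Nat.floor_le (by positivity)
    refine (Nat.cast_le.2 h1).trans ?_
    push_cast
    refine (mul_le_mul hQP hQP (Nat.cast_nonneg _) (by positivity)).trans (le_of_eq ?_)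
    rw [← Real.rpow_add (by linarith)]
    norm_num
  have hZsum : ∑ z ∈ arcCentres Q, ‖arcCoef k (2 * t) N z‖ ≤ Z := by
    rw [arcCentres, sum_sigma, hZ, ← tsum_mul_left]
    refine le_trans (sum_le_sum fun q _ => le_trans (le_of_eq (sum_congr rfl fun r _ => ?_))
      (hterm q).1) (Summable.sum_le_tsum _ (fun i _ => by positivity)
        ((Real.summable_nat_rpow.2 (by norm_num)).mul_left C₄))
    rw [arcCoef, norm_mul, norm_pow, norm_eAdd, mul_one]
  have p3 : ∑ z ∈ arcCentres Q, ∑ h ∈ arc M δ z, F h ≤ M * ((C₂ + Z * C₃) * E) := by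
    refine (sum_le_sum p2).trans ?_
    rw [sum_add_distrib, sum_const, nsmul_eq_mul, ← sum_mul]
    have hNM : (P : ℝ) ^ (k : ℝ) ≤ M := by
      rw [← hNr]; exact_mod_cast (hM ▸ Nat.le_mul_of_pos_left N (by omega) : N ≤ M)
    have hn' : (n : ℝ) + 1 = 2 * (t : ℝ) := by exact_mod_cast hn.symm
    have h1 : (P : ℝ) ^ (2 / 10 : ℝ) * (P : ℝ) ^ ((n : ℝ) + 4 / 10) ≤ (M : ℝ) * E := by
      rw [← Real.rpow_add (by linarith)]
      refine le_trans ?_ (mul_le_mul_of_nonneg_right hNM (by rw [hE]; positivity))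
      rw [hE, ← Real.rpow_add (by linarith)]
      exact Real.rpow_le_rpow_of_exponent_le hPr (by linarith)
    have h2 := mul_le_mul_of_nonneg_left h1 hC₂.le
    have h3 := mul_le_mul_of_nonneg_right hcard
      (show 0 ≤ C₂ * (P : ℝ) ^ ((n : ℝ) + 4 / 10) by positivity)
    have h4 := mul_le_mul_of_nonneg_right hZsum
      (show 0 ≤ C₃ * (M : ℝ) * E by rw [hE]; positivity)
    linarith
  rw [hF] at hunion
  linarith [hF ▸ p1, hF ▸ p3]

end FA.WaringGoldbach
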