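import Fermat.Agent.WaringGoldbach.Weyl

/-!
# The blocks and the sums with one short variable

`∑_{L < m ≤ 2 L} f m ∑_{n ≤ P / m} g n e (α (m n) ^ k)` by Hölder's inequality, the moment above
the critical exponent and the Weyl bounds on average.
-/

set_option autoImplicit false

noncomputable section

namespace FA.WaringGoldbach

open Finset FA.ThreePrimes FA.WaringAsymptotic
open scoped ComplexConjugate

/-- `1/q + 1/U + q/P^k`. -/
def powSaving (k U q P : ℕ) : ℝ := 1 / (q : ℝ) + 1 / (U : ℝ) + (q : ℝ) / (P : ℝ) ^ k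

theorem powSaving_nonneg (k U q P : ℕ) : 0 ≤ powSaving k U q P := by
  unfold powSaving
  positivity

/-- `∑_{n ≤ P/m} g n e (α (m n) ^ k)`. -/
def powInner (k : ℕ) (α : ℝ) (g : ℕ → ℝ) (P m : ℕ) : ℂ :=
  ∑ n ∈ Ioc 0 (P / m), (g n : ℂ) * eAdd (α * ((m : ℝ) * n) ^ k)

/-- The frequency of a pair of tuples. -/
def tupleVal {t : ℕ} (k : ℕ) (z : (Fin t → ℕ) × (Fin t → ℕ)) : ℤ :=
  ∑ i, (z.1 i : ℤ) ^ k - ∑ i, (z.2 i : ℤ) ^ k

/-- The pairs of tuples from `(L, 2 L]`. -/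
def tuples (t L : ℕ) : Finset ((Fin t → ℕ) × (Fin t → ℕ)) :=
  (Fintype.piFinset fun _ : Fin t => Ioc L (2 * L)) ×ˢ
    Fintype.piFinset fun _ : Fin t => Ioc L (2 * L)

/-- The largest of the sums up to `M`. -/
def sumBound (k : ℕ) (α : ℝ) (M : ℕ) (D : ℤ) : ℝ :=
  (range (M + 1)).sup' nonempty_range_add_one fun n => ‖waringSum k n (α * D)‖

theorem norm_waringSum_le_sumBound {k n M : ℕ} (hn : n ≤ M) (α : ℝ) (D : ℤ) :
    ‖waringSum k n (α * D)‖ ≤ sumBound k α M D :=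
  le_sup' (fun n => ‖waringSum k n (α * D)‖) (mem_range.2 (Nat.lt_succ_of_le hn))

theorem sumBound_nonneg (k : ℕ) (α : ℝ) (M : ℕ) (D : ℤ) : 0 ≤ sumBound k α M D :=
  (norm_nonneg _).trans (norm_waringSum_le_sumBound (Nat.zero_le M) α D)

theorem sumBound_pow_le (j : ℕ) (α : ℝ) (M : ℕ) (D : ℤ) :
    sumBound (j + 1) α M D ^ 2 ^ j ≤
      (2 * (M : ℝ)) ^ (2 ^ j - (j + 1)) * diffSum j α M D := by
  obtain ⟨n, hn, e⟩ := exists_mem_eq_sup' (s := range (M + 1)) nonempty_range_add_one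
    fun n => ‖waringSum (j + 1) n (α * D)‖
  rw [sumBound, e]
  exact norm_waringSum_pow_le (Nat.lt_succ_iff.1 (mem_range.1 hn)) α D

/-- The coefficient at `m` of the inner sum for `n`. -/
def blockCoef (f : ℕ → ℝ) (P n m : ℕ) : ℂ := if n ≤ P / m then (f m : ℂ) else 0

/-- The inner sum over a block. -/
def blockSum (k : ℕ) (α : ℝ) (f : ℕ → ℝ) (P L n : ℕ) : ℂ :=
  ∑ m ∈ Ioc L (2 * L), blockCoef f P n m * eAdd (((m ^ k : ℕ) : ℝ) * (α * (n : ℝ) ^ k))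

theorem sum_blockSum_pow_le {k : ℕ} (α : ℝ) (f : ℕ → ℝ) {P L M : ℕ} {F : ℝ} (t : ℕ)
    (hF : ∀ m ∈ Ioc L (2 * L), |f m| ≤ F) :
    ∑ n ∈ Ioc 0 M, ‖blockSum k α f P L n‖ ^ (2 * t) ≤
      F ^ (2 * t) * ∑ z ∈ tuples t L, sumBound k α M (tupleVal k z) := by
  classical
  obtain ⟨G, hG⟩ : ∃ G : (Fin t → ℕ) × (Fin t → ℕ) → ℂ,
      G = fun z => (∏ i, (f (z.1 i) : ℂ)) * conj (∏ i, (f (z.2 i) : ℂ)) := ⟨_, rfl⟩
  obtain ⟨ok, hok⟩ : ∃ ok : (Fin t → ℕ) × (Fin t → ℕ) → ℕ → Prop,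
      ok = fun z n => (∀ i, n ≤ P / z.1 i) ∧ ∀ i, n ≤ P / z.2 i := ⟨_, rfl⟩
  have e : ∀ n : ℕ, ((‖blockSum k α f P L n‖ ^ (2 * t) : ℝ) : ℂ) =
      ∑ z ∈ tuples t L, if ok z n then
        G z * eAdd ((tupleVal k z : ℝ) * (α * (n : ℝ) ^ k)) else 0 := by
    intro n
    rw [mul_comm 2 t, pow_mul, Complex.ofReal_pow, ← norm_pow, ← Complex.mul_conj', blockSum,
      sum_eAdd_pow, map_sum, sum_mul_sum, tuples, sum_product]
    refine sum_congr rfl fun z _ => sum_congr rfl fun w _ => ?_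
    simp only [blockCoef, prod_ite_zero, mem_univ, true_implies, map_mul, conj_eAdd,
      apply_ite (starRingEnd ℂ), map_zero, ite_mul, zero_mul, mul_ite, mul_zero, hok, hG, ite_and]
    rw [mul_mul_mul_comm, ← eAdd_add, tupleVal]
    push_cast
    ring_nf
    split_ifs <;> ring_nf
  calc ∑ n ∈ Ioc 0 M, ‖blockSum k α f P L n‖ ^ (2 * t)
      = ‖∑ n ∈ Ioc 0 M, ((‖blockSum k α f P L n‖ ^ (2 * t) : ℝ) : ℂ)‖ := by
        rw [← Complex.ofReal_sum, Complex.norm_real,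
          Real.norm_of_nonneg (sum_nonneg fun _ _ => by positivity)]
    _ ≤ _ := by
        rw [sum_congr rfl fun n _ => e n, sum_comm, mul_sum]
        refine (norm_sum_le _ _).trans (sum_le_sum fun z hz => ?_)
        rw [← sum_filter, ← mul_sum, norm_mul]
        rw [tuples, mem_product, Fintype.mem_piFinset, Fintype.mem_piFinset] at hz
        have hgp : ∀ x : Fin t → ℕ, (∀ i, x i ∈ Ioc L (2 * L)) →
            ‖∏ i, (f (x i) : ℂ)‖ ≤ F ^ t := fun x hx => by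
          rw [norm_prod]
          refine le_of_le_of_eq (prod_le_prod (g := fun _ => F) (fun i _ => norm_nonneg _)
            fun i _ => ?_) (by simp)
          rw [Complex.norm_real]
          exact hF _ (hx i)
        refine mul_le_mul ?_ ?_ (norm_nonneg _) ?_
        · rw [hG, norm_mul, Complex.norm_conj, two_mul, pow_add]
          exact mul_le_mul (hgp _ hz.1) (hgp _ hz.2) (norm_nonneg _)
            ((norm_nonneg _).trans (hgp _ hz.1))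
        · obtain ⟨J, hJ⟩ : ∃ J, J = Nat.findGreatest (ok z) M := ⟨_, rfl⟩
          have hJM : J ≤ M := hJ ▸ Nat.findGreatest_le M
          have hJok : ok z J := hJ ▸ Nat.findGreatest_spec (P := ok z) (Nat.zero_le M)
            (by simp [hok])
          have e2 : ∑ n ∈ (Ioc 0 M).filter (ok z),
              eAdd ((tupleVal k z : ℝ) * (α * (n : ℝ) ^ k)) =
                waringSum k J (α * (tupleVal k z : ℤ)) := by
            rw [waringSum]
            refine sum_congr (ext fun n => ?_) fun n _ => by ring_nf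
            simp only [mem_filter, mem_Ioc, mem_Icc]
            refine ⟨fun h => ⟨h.1.1, hJ ▸ Nat.le_findGreatest h.1.2 h.2⟩,
              fun h => ⟨⟨h.1, h.2.trans hJM⟩, ?_⟩⟩
            rw [hok] at hJok ⊢
            exact ⟨fun i => h.2.trans (hJok.1 i), fun i => h.2.trans (hJok.2 i)⟩
          rw [e2]
          exact norm_waringSum_le_sumBound hJM α _
        · rw [two_mul, pow_add]
          exact mul_self_nonneg _

/-- The pairs with equal frequencies are counted by the moment with twice as many variables. -/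
theorem coincidences_tuples_le (k t L : ℕ) :
    HuaCubes.coincidences (tuples t L) (tupleVal k) ≤ powerDiagonal k (t + t) (2 * L) := by
  classical
  rw [HuaCubes.coincidences, ← card_sigma, powerDiagonal]
  refine card_le_card_of_injOn
    (fun z => (Fin.append z.1.1 z.2.2, Fin.append z.1.2 z.2.1)) (fun z hz => ?_) ?_
  · simp only [coe_sigma, Set.mem_sigma_iff, mem_coe, tuples, mem_filter, mem_product,
      Fintype.mem_piFinset, mem_Ioc] at hz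
    simp only [mem_coe, mem_filter, mem_product, Korobov.box, Fintype.mem_piFinset, mem_Icc]
    refine ⟨⟨?_, ?_⟩, ?_⟩
    · intro i
      refine Fin.addCases (fun i => ?_) (fun i => ?_) i
      · rw [Fin.append_left]
        have := hz.1.1 i
        omega
      · rw [Fin.append_right]
        have := hz.2.1.2 i
        omega
    · intro i
      refine Fin.addCases (fun i => ?_) (fun i => ?_) i
      · rw [Fin.append_left]
        have := hz.1.2 i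
        omega
      · rw [Fin.append_right]
        have := hz.2.1.1 i
        omega
    · have h := hz.2.2
      simp only [tupleVal] at h
      simp only [Fin.sum_univ_add, Fin.append_left, Fin.append_right]
      zify
      linarith
  · rintro ⟨⟨a, b⟩, c, d⟩ - ⟨⟨a', b'⟩, c', d'⟩ - h
    simp only [Prod.mk.injEq] at h
    obtain ⟨h1, h2⟩ := h
    obtain rfl : a = a' := funext fun i => by
      simpa using congrFun h1 (Fin.castAdd t i)
    obtain rfl : b = b' := funext fun i => by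
      simpa using congrFun h2 (Fin.castAdd t i)
    obtain rfl : d = d' := funext fun i => by
      simpa only [Fin.append_right] using congrFun h1 (Fin.natAdd t i)
    obtain rfl : c = c' := funext fun i => by
      simpa only [Fin.append_right] using congrFun h2 (Fin.natAdd t i)
    rfl

/-- **The bounds on average, weighted by the frequencies.** -/
theorem exists_sum_sumBound_le {j t : ℕ} (hj : 1 ≤ j) (ht : (j + 1) * (j + 2) < 4 * t) :
    ∃ (e : ℕ) (C : ℝ), 0 < C ∧ ∀ (q : ℕ) [NeZero q] (a : ℤ) (α : ℝ), IsUnit (a : ZMod q) →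
      |α - a / q| ≤ 1 / (q : ℝ) ^ 2 → ∀ P L U : ℕ, 1 ≤ U → U ≤ L → U ≤ P / L →
        q ≤ 2 ^ (j + 1) * P ^ (j + 1) →
        (∑ z ∈ tuples t L, sumBound (j + 1) α (P / L) (tupleVal (j + 1) z)) ^ 2 ^ j ≤
          C * logOne P ^ e * ((L : ℝ) ^ (2 * t) * (P / L : ℕ)) ^ 2 ^ j *
            √(powSaving (j + 1) U q P) := by
  obtain ⟨i, rfl⟩ : ∃ i, j = i + 1 := ⟨j - 1, by omega⟩
  obtain ⟨k, hk⟩ : ∃ k, k = i + 1 + 1 := ⟨_, rfl⟩
  obtain ⟨e, C₁, hC₁, hdiff⟩ := exists_sum_diffSum_le (j := i + 1) (by omega)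
  have hmt : k * (k + 1) < 2 * (t + t) := by
    rw [hk, show i + 1 + 1 + 1 = i + 1 + 2 by ring]
    omega
  obtain ⟨C₂, hC₂, hmom⟩ := exists_powerDiagonal_le (k := k) (t := t + t) (by omega) hmt
  rw [← hk] at hdiff ⊢
  have ht1 : 1 ≤ t := by omega
  obtain ⟨c₀, hc₀⟩ : ∃ c₀, c₀ = t * 2 ^ k := ⟨_, rfl⟩
  obtain ⟨c₁, hc₁⟩ : ∃ c₁, c₁ = k.factorial * c₀ := ⟨_, rfl⟩
  obtain ⟨Cl, hCl, hlog⟩ := exists_logOne_le (c₁ + 2 ^ k) k
  obtain ⟨w, hw⟩ : ∃ w : ℝ, w = (c₁ : ℝ) * (2 * c₁ + 1 + 2 ^ k) := ⟨_, rfl⟩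
  obtain ⟨cS, hcS⟩ : ∃ cS : ℝ, cS = 3 * (c₀ : ℝ) := ⟨_, rfl⟩
  obtain ⟨H, hH⟩ : ∃ H : ℝ, H = 2 ^ 2 ^ (i + 1) * (C₁ * (cS + 1 + Cl ^ e * (√w + 1))) := ⟨_, rfl⟩
  refine ⟨e, (C₂ * 2 ^ (4 * t) + 1) ^ 2 ^ i * (cS + 1) ^ 2 ^ i * H + 1,
    by rw [hH, hcS]; positivity, fun q _ a α ha hα P L U hU hUL hUM hqP => ?_⟩
  classical
  obtain ⟨M, hM⟩ : ∃ M, M = P / L := ⟨_, rfl⟩
  rw [← hM] at hUM ⊢
  have hL : 1 ≤ L := hU.trans hUL
  have hM1 : 1 ≤ M := hU.trans hUM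
  have hLM : L * M ≤ P := by rw [hM, mul_comm]; exact Nat.div_mul_le_self P L
  have hP1 : 1 ≤ P := le_trans (Nat.mul_pos hL hM1) hLM
  have hP2 : (P : ℝ) ≤ 2 * ((L : ℝ) * M) := by
    have h1 := Nat.lt_div_mul_add (a := P) (show 0 < L by omega)
    rw [← hM] at h1
    have h2 : L ≤ L * M := Nat.le_mul_of_pos_right L hM1
    exact_mod_cast (show P ≤ 2 * (L * M) by rw [mul_comm L M] at *; omega)
  have hq : (0 : ℝ) < q := Nat.cast_pos.2 (NeZero.pos q)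
  obtain ⟨X, hX⟩ : ∃ X, X = c₀ * L ^ k := ⟨_, rfl⟩
  obtain ⟨S, hS⟩ : ∃ S, S = Icc (-(X : ℤ)) X := ⟨_, rfl⟩
  have hX1 : 1 ≤ X := hX ▸ Nat.mul_pos (hc₀ ▸ Nat.mul_pos ht1 (by positivity)) (pow_pos hL k)
  have hmem : ∀ z ∈ tuples t L, tupleVal k z ∈ S := fun z hz => by
    rw [tuples, mem_product, Fintype.mem_piFinset, Fintype.mem_piFinset] at hz
    have hb : ∀ x : Fin t → ℕ, (∀ l, x l ∈ Ioc L (2 * L)) →
        0 ≤ ∑ l, (x l : ℤ) ^ k ∧ ∑ l, (x l : ℤ) ^ k ≤ X := fun x hx => by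
      refine ⟨sum_nonneg fun l _ => by positivity, ?_⟩
      refine (sum_le_card_nsmul _ _ (((2 * L) ^ k : ℕ) : ℤ) fun l _ => ?_).trans (le_of_eq ?_)
      · exact_mod_cast Nat.pow_le_pow_left (mem_Ioc.1 (hx l)).2 k
      · rw [hX, hc₀, mul_pow]
        simp only [card_univ, Fintype.card_fin, nsmul_eq_mul]
        push_cast
        ring
    have h1 := hb _ hz.1
    have h2 := hb _ hz.2
    rw [hS, mem_Icc, tupleVal]
    omega
  obtain ⟨r, hr⟩ : ∃ r : ℤ → ℕ,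
      r = fun D => ((tuples t L).filter fun z => tupleVal k z = D).card := ⟨_, rfl⟩
  obtain ⟨b, hb⟩ : ∃ b : ℤ → ℝ, b = fun D => sumBound k α M D := ⟨_, rfl⟩
  obtain ⟨V, hV⟩ : ∃ V, V = ∑ z ∈ tuples t L, sumBound k α M (tupleVal k z) := ⟨_, rfl⟩
  rw [← hV]
  have hV1 : V = ∑ D ∈ S, (r D : ℝ) * b D := by
    rw [hV, ← sum_fiberwise_of_maps_to hmem]
    refine sum_congr rfl fun D _ => ?_
    rw [sum_congr rfl fun z hz => by rw [(mem_filter.1 hz).2], sum_const, nsmul_eq_mul, hr, hb]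
  have hLr : (1 : ℝ) ≤ L := by exact_mod_cast hL
  have hMr : (1 : ℝ) ≤ M := by exact_mod_cast hM1
  have hr2 : ∑ D ∈ S, (r D : ℝ) ^ 2 ≤
      (C₂ * 2 ^ (4 * t) + 1) * ((L : ℝ) ^ (4 * t) / (L : ℝ) ^ k) := by
    have h1 : ∑ D ∈ S, (r D : ℝ) ^ 2 = HuaCubes.coincidences (tuples t L) (tupleVal k) := by
      rw [HuaCubes.coincidences, ← sum_fiberwise_of_maps_to hmem, Nat.cast_sum]
      refine sum_congr rfl fun D _ => ?_
      rw [sum_congr rfl fun z hz => by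
        rw [(mem_filter.1 hz).2, filter_congr fun y _ => eq_comm], sum_const, smul_eq_mul, sq, hr]
      push_cast
      rfl
    rw [h1]
    refine (Nat.cast_le.2 (coincidences_tuples_le k t L)).trans ((hmom (2 * L) (by omega)).trans ?_)
    have hk4 : k ≤ 4 * t := by
      have := Nat.le_mul_of_pos_right k (show 0 < k + 1 by omega)
      omega
    have e1 : ((2 * L : ℕ) : ℝ) ^ (2 * ((t + t : ℕ) : ℝ) - k) =
        (2 : ℝ) ^ (4 * t) / 2 ^ k * ((L : ℝ) ^ (4 * t) / (L : ℝ) ^ k) := by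
      rw [show 2 * ((t + t : ℕ) : ℝ) - k = ((4 * t : ℕ) : ℝ) - (k : ℕ) by push_cast; ring,
        Real.rpow_sub (by positivity), Real.rpow_natCast, Real.rpow_natCast]
      push_cast
      rw [mul_pow, mul_pow]
      field_simp
    rw [e1, ← mul_assoc]
    refine mul_le_mul_of_nonneg_right ?_ (by positivity)
    have : (2 : ℝ) ^ (4 * t) / 2 ^ k ≤ 2 ^ (4 * t) := div_le_self (by positivity)
      (one_le_pow₀ one_le_two)
    have := mul_le_mul_of_nonneg_left this hC₂.le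
    linarith
  have hcard : (S.card : ℝ) ≤ (cS + 1) * (L : ℝ) ^ k := by
    rw [hS, Int.card_Icc, hcS]
    have h1 : ((((X : ℤ) + 1 - -(X : ℤ)).toNat : ℕ) : ℝ) ≤ ((3 * X : ℕ) : ℝ) := by
      exact_mod_cast (show ((X : ℤ) + 1 - -(X : ℤ)).toNat ≤ 3 * X by omega)
    refine h1.trans ?_
    rw [hX]
    push_cast
    have : (0 : ℝ) ≤ (L : ℝ) ^ k := by positivity
    linarith
  obtain ⟨ε, hε⟩ : ∃ ε, ε = powSaving k U q P := ⟨_, rfl⟩
  rw [← hε]
  have hε0 : 0 ≤ ε := hε ▸ powSaving_nonneg k U q P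
  obtain ⟨Y, hY⟩ : ∃ Y : ℝ, Y = (M : ℝ) ^ k * (L : ℝ) ^ k := ⟨_, rfl⟩
  have hY0 : 0 ≤ Y := by rw [hY]; positivity
  have hUr : (1 : ℝ) ≤ U := by exact_mod_cast hU
  have hUM' : (1 : ℝ) / M ≤ 1 / U :=
    one_div_le_one_div_of_le (by linarith) (Nat.cast_le.2 hUM)
  have hUL' : (1 : ℝ) / L ≤ 1 / U :=
    one_div_le_one_div_of_le (by linarith) (Nat.cast_le.2 hUL)
  have hεU : (1 : ℝ) / U ≤ ε := by
    rw [hε, powSaving]
    have : 0 ≤ 1 / (q : ℝ) + (q : ℝ) / (P : ℝ) ^ k := by positivity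
    linarith
  have hsmall : ∀ x : ℝ, 0 ≤ x → x ≤ 1 → x ≤ ε → x ≤ √ε := fun x h0 h1 h2 =>
    Real.le_sqrt_of_sq_le ((pow_le_of_le_one h0 h1 two_ne_zero).trans h2)
  obtain ⟨N, hN⟩ : ∃ N, N = k.factorial * M ^ (i + 1) * X := ⟨_, rfl⟩
  have hN2 : N ≤ (c₁ + 2 ^ k) * P ^ k := by
    rw [hN, hX, hc₁]
    calc k.factorial * M ^ (i + 1) * (c₀ * L ^ k)
        ≤ k.factorial * M ^ k * (c₀ * L ^ k) := by
          gcongr
          · omega
      _ = k.factorial * c₀ * (L * M) ^ k := by rw [mul_pow]; ring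
      _ ≤ (k.factorial * c₀ + 2 ^ k) * P ^ k := by gcongr; exact Nat.le_add_right _ _
  have hlq : 1 + Real.log q ≤ Cl * logOne P :=
    hlog P q (hqP.trans (Nat.mul_le_mul_right _ (Nat.le_add_left _ _)))
  have hd := hdiff q a α ha hα M X hM1 hX1 S (fun D hD => by
    rw [hS, mem_Icc] at hD; omega) (Cl * logOne P) hlq (hlog P _ (hN ▸ hN2))
  rw [← hN] at hd
  have hNM : (N : ℝ) * M = c₁ * Y := by
    rw [hN, hX, hY, hc₁, show (M : ℝ) ^ k = (M : ℝ) ^ (i + 1) * M by rw [hk, pow_succ]]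
    push_cast
    ring
  have hbig : √((N : ℝ) * M * ((N : ℝ) * M / q + N + M + q)) ≤ √w * Y * √ε := by
    rw [← Real.sqrt_sq hY0, ← Real.sqrt_mul (by rw [hw]; positivity),
      ← Real.sqrt_mul (by rw [hw]; positivity)]
    refine Real.sqrt_le_sqrt ?_
    have a1 : (N : ℝ) ≤ c₁ * (Y * (1 / U)) := by
      calc (N : ℝ) = (N : ℝ) * M * (1 / M) := by field_simp
        _ ≤ _ := by
          rw [hNM, mul_assoc]
          exact mul_le_mul_of_nonneg_left (mul_le_mul_of_nonneg_left hUM' hY0) (Nat.cast_nonneg _)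
    have a2 : (M : ℝ) ≤ Y * (1 / U) := by
      refine le_trans ?_ (mul_le_mul_of_nonneg_left hUM' hY0)
      rw [mul_one_div, le_div_iff₀ (by linarith), hY, hk, pow_succ (M : ℝ) (i + 1),
        pow_succ (M : ℝ) i]
      calc (M : ℝ) * M = 1 * M * M * 1 := by ring
        _ ≤ _ := by gcongr <;> exact one_le_pow₀ (by assumption)
    have a3 : (q : ℝ) ≤ 2 ^ k * Y * (q / (P : ℝ) ^ k) := by
      rw [mul_div_assoc', le_div_iff₀ (by positivity), mul_comm (2 ^ k * Y)]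
      refine mul_le_mul_of_nonneg_left ?_ hq.le
      calc (P : ℝ) ^ k ≤ (2 * ((L : ℝ) * M)) ^ k := pow_le_pow_left₀ (Nat.cast_nonneg P) hP2 k
        _ = _ := by rw [hY]; ring
    have hc₁0 : (0 : ℝ) ≤ c₁ := Nat.cast_nonneg _
    have b1 : 0 ≤ Y * (1 / (q : ℝ)) := by positivity
    have b2 : 0 ≤ Y * ((q : ℝ) / (P : ℝ) ^ k) := by positivity
    have b3 : 0 ≤ Y * (1 / (U : ℝ)) := by positivity
    have a4 : (N : ℝ) * M / q + N + M + q ≤ (2 * c₁ + 1 + 2 ^ k) * (Y * ε) := by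
      rw [hε, powSaving, hNM, mul_div_assoc, div_eq_mul_one_div Y]
      have := mul_nonneg hc₁0 b2
      have := mul_nonneg hc₁0 b1
      have := mul_nonneg hc₁0 b3
      have := mul_nonneg (show (0 : ℝ) ≤ 2 ^ k by positivity) b1
      have := mul_nonneg (show (0 : ℝ) ≤ 2 ^ k by positivity) b3
      linarith
    calc (N : ℝ) * M * ((N : ℝ) * M / q + N + M + q)
        ≤ c₁ * Y * ((2 * c₁ + 1 + 2 ^ k) * (Y * ε)) := by
          rw [hNM] at a4 ⊢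
          exact mul_le_mul_of_nonneg_left a4 (by positivity)
      _ = _ := by rw [hw]; ring
  have hz : ((S.filter fun D => D = 0).card : ℝ) ≤ 1 := by
    refine Nat.cast_le_one.2 (card_le_one.2 fun u hu v hv => ?_)
    rw [mem_filter] at hu hv
    rw [hu.2, hv.2]
  have hl1 := one_le_logOne P
  have hsum : ∑ D ∈ S, diffSum (i + 1) α M D ≤
      C₁ * (cS + 1 + 1 + Cl ^ e * √w) * (logOne P ^ e * (Y * √ε)) := by
    refine hd.trans (le_of_le_of_eq (mul_le_mul_of_nonneg_left (add_le_add (add_le_add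
      (b := (cS + 1) * (logOne P ^ e * (Y * √ε))) (d := 1 * (logOne P ^ e * (Y * √ε))) ?_ ?_)
      (d := Cl ^ e * √w * (logOne P ^ e * (Y * √ε))) ?_) hC₁.le) (by ring))
    · refine (mul_le_mul_of_nonneg_left hcard (by positivity)).trans ?_
      rw [mul_left_comm]
      refine mul_le_mul_of_nonneg_left ?_ (by rw [hcS]; positivity)
      refine le_trans ?_ (le_mul_of_one_le_left (by positivity) (one_le_pow₀ hl1))
      calc (M : ℝ) ^ (i + 1) * (L : ℝ) ^ k = Y * (1 / M) := by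
            rw [hY, hk, pow_succ (M : ℝ) (i + 1)]; field_simp
        _ ≤ _ := mul_le_mul_of_nonneg_left (hsmall _ (by positivity)
            ((div_le_one (by positivity)).2 hMr) (hUM'.trans hεU)) hY0
    · refine (mul_le_mul_of_nonneg_left hz (by positivity)).trans ?_
      rw [mul_one, one_mul]
      refine le_trans ?_ (le_mul_of_one_le_left (by positivity) (one_le_pow₀ hl1))
      calc (M : ℝ) ^ k ≤ (M : ℝ) ^ k * (L : ℝ) ^ (i + 1) := by
            exact le_mul_of_one_le_right (by positivity) (one_le_pow₀ hLr)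
        _ = Y * (1 / L) := by rw [hY, hk, pow_succ (L : ℝ) (i + 1)]; field_simp
        _ ≤ _ := mul_le_mul_of_nonneg_left (hsmall _ (by positivity)
            ((div_le_one (by positivity)).2 hLr) (hUL'.trans hεU)) hY0
    · refine (mul_le_mul_of_nonneg_left hbig (by positivity)).trans (le_of_eq ?_)
      rw [mul_pow]
      ring
  have hpow : V ^ 2 ^ (i + 1) ≤ ((C₂ * 2 ^ (4 * t) + 1) * ((L : ℝ) ^ (4 * t) / (L : ℝ) ^ k)) ^ 2 ^ i
      * (((cS + 1) * (L : ℝ) ^ k) ^ (2 ^ i - 1) *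
        ((2 * (M : ℝ)) ^ (2 ^ (i + 1) - k) * ∑ D ∈ S, diffSum (i + 1) α M D)) := by
    have h1 : V ^ 2 ≤ (∑ D ∈ S, (r D : ℝ) ^ 2) * ∑ D ∈ S, b D ^ 2 := by
      rw [hV1]; exact sum_mul_sq_le_sq_mul_sq _ _ _
    rw [pow_succ' 2 i, pow_mul]
    refine (pow_le_pow_left₀ (sq_nonneg V) h1 _).trans ?_
    rw [mul_pow]
    refine mul_le_mul (pow_le_pow_left₀ (sum_nonneg fun D _ => sq_nonneg _) hr2 _) ?_
      (pow_nonneg (sum_nonneg fun D _ => sq_nonneg _) _) (pow_nonneg (by positivity) _)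
    obtain ⟨n, hn⟩ : ∃ n, 2 ^ i = n + 1 := ⟨2 ^ i - 1, by have := Nat.two_pow_pos i; omega⟩
    rw [hn, Nat.add_sub_cancel]
    refine (pow_sum_le_card_mul_sum_pow (fun D _ => sq_nonneg _) n).trans (mul_le_mul
      (pow_le_pow_left₀ (Nat.cast_nonneg _) hcard n) ?_
      (sum_nonneg fun D _ => by positivity) (pow_nonneg (by rw [hcS]; positivity) _))
    rw [mul_sum]
    refine sum_le_sum fun D _ => ?_
    rw [← hn, ← pow_mul, hb, hk, ← pow_succ']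
    exact sumBound_pow_le _ α M D
  refine hpow.trans ?_
  refine (mul_le_mul_of_nonneg_left (mul_le_mul_of_nonneg_left (mul_le_mul_of_nonneg_left hsum
    (by positivity)) (by rw [hcS]; positivity)) (by positivity)).trans ?_
  obtain ⟨R, hR⟩ : ∃ R, R = logOne P ^ e * ((L : ℝ) ^ (2 * t) * M) ^ 2 ^ (i + 1) * √ε := ⟨_, rfl⟩
  have hR0 : 0 ≤ R := by rw [hR]; positivity
  have hk2 : k ≤ 2 ^ (i + 1) := hk ▸ Nat.lt_two_pow_self
  have e2 : ((C₂ * 2 ^ (4 * t) + 1) * ((L : ℝ) ^ (4 * t) / (L : ℝ) ^ k)) ^ 2 ^ i *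
      (((cS + 1) * (L : ℝ) ^ k) ^ (2 ^ i - 1) * ((2 * (M : ℝ)) ^ (2 ^ (i + 1) - k) *
        (C₁ * (cS + 1 + 1 + Cl ^ e * √w) * (logOne P ^ e * (Y * √ε))))) =
      (C₂ * 2 ^ (4 * t) + 1) ^ 2 ^ i * (cS + 1) ^ (2 ^ i - 1) * 2 ^ (2 ^ (i + 1) - k) *
        (C₁ * (cS + 1 + 1 + Cl ^ e * √w)) * R := by
    obtain ⟨n, hn⟩ : ∃ n, 2 ^ i = n + 1 := ⟨2 ^ i - 1, by have := Nat.two_pow_pos i; omega⟩
    obtain ⟨m, hm⟩ : ∃ m, 2 ^ (i + 1) = k + m := ⟨2 ^ (i + 1) - k, by omega⟩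
    rw [hn, Nat.add_sub_cancel, hm, Nat.add_sub_cancel_left, hR, hY, mul_pow, mul_pow, mul_pow,
      div_pow, hm, mul_pow]
    have h4 : ((L : ℝ) ^ (2 * t)) ^ (k + m) = ((L : ℝ) ^ (4 * t)) ^ (n + 1) := by
      rw [← hm, ← pow_mul, ← pow_mul, show 2 ^ (i + 1) = 2 * 2 ^ i from pow_succ' 2 i, hn]
      ring_nf
    rw [h4, pow_add (M : ℝ) k m, pow_succ (((L : ℝ) ^ k)) n]
    field_simp
  rw [e2, show ((C₂ * 2 ^ (4 * t) + 1) ^ 2 ^ i * (cS + 1) ^ 2 ^ i * H + 1) * logOne P ^ e *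
    ((L : ℝ) ^ (2 * t) * M) ^ 2 ^ (i + 1) * √ε =
    ((C₂ * 2 ^ (4 * t) + 1) ^ 2 ^ i * (cS + 1) ^ 2 ^ i * H + 1) * R by rw [hR]; ring]
  refine mul_le_mul_of_nonneg_right (le_trans ?_ (le_add_of_nonneg_right zero_le_one)) hR0
  have hcS0 : 0 ≤ cS := by rw [hcS]; positivity
  rw [hH, mul_assoc _ ((2 : ℝ) ^ (2 ^ (i + 1) - k))]
  refine mul_le_mul (mul_le_mul_of_nonneg_left (pow_le_pow_right₀ (by linarith) (Nat.sub_le _ _))
    (by positivity)) (mul_le_mul (pow_le_pow_right₀ one_le_two (Nat.sub_le _ _))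
      (mul_le_mul_of_nonneg_left ?_ hC₁.le) (by positivity) (by positivity)) (by positivity)
    (by positivity)
  have : 1 ≤ Cl ^ e := one_le_pow₀ hCl
  linarith [mul_add (Cl ^ e) (√w) 1]

/-- **A block.** -/
theorem exists_block_le {j t : ℕ} (hj : 1 ≤ j) (ht : (j + 1) * (j + 2) < 4 * t) :
    ∃ (e : ℕ) (C : ℝ), 0 < C ∧ ∀ (q : ℕ) [NeZero q] (a : ℤ) (α : ℝ), IsUnit (a : ZMod q) →
      |α - a / q| ≤ 1 / (q : ℝ) ^ 2 →
      ∀ (f g : ℕ → ℝ) (P L U : ℕ) (F G : ℝ), 1 ≤ U → U ≤ L → U ≤ P / L →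
        q ≤ 2 ^ (j + 1) * P ^ (j + 1) →
        (∀ m ∈ Ioc L (2 * L), |f m| ≤ F) → 0 ≤ G →
        ∑ n ∈ Ioc 0 (P / L), g n ^ 2 ≤ G ^ 2 * (P / L : ℕ) →
        ‖∑ m ∈ Ioc L (2 * L), (f m : ℂ) * powInner (j + 1) α g P m‖ ≤
          C * (G * F * logOne P ^ e * P *
            powSaving (j + 1) U q P ^ ((((4 * t * 2 ^ j : ℕ) : ℝ))⁻¹)) := by
  obtain ⟨e, C₁, hC₁, hV⟩ := exists_sum_sumBound_le hj ht
  refine ⟨e, C₁ + 1, by positivity, fun q _ a α ha hα f g P L U F G hU hUL hUM hqP hF hG hg => ?_⟩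
  obtain ⟨M, hM⟩ : ∃ M, M = P / L := ⟨_, rfl⟩
  rw [← hM] at hUM hg
  have hL : 0 < L := by omega
  have hF0 : 0 ≤ F := (abs_nonneg _).trans (hF (L + 1) (mem_Ioc.2 ⟨by omega, by omega⟩))
  have hLM : L * M ≤ P := by rw [hM, mul_comm]; exact Nat.div_mul_le_self P L
  obtain ⟨ε, hε⟩ : ∃ ε, ε = powSaving (j + 1) U q P := ⟨_, rfl⟩
  have hε0 : 0 ≤ ε := hε ▸ powSaving_nonneg _ U q P
  rw [← hε]
  obtain ⟨K, hK⟩ : ∃ K, K = 2 ^ j := ⟨_, rfl⟩
  have hK1 : 1 ≤ K := hK ▸ Nat.one_le_two_pow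
  have ht1 : 1 ≤ t := by omega
  have hl1 := one_le_logOne P
  obtain ⟨R, hR⟩ : ∃ R : ℕ → ℂ, R = fun n : ℕ => blockSum (j + 1) α f P L n := ⟨_, rfl⟩
  have e1 : ∑ m ∈ Ioc L (2 * L), (f m : ℂ) * powInner (j + 1) α g P m =
      ∑ n ∈ Ioc 0 M, (g n : ℂ) * R n := by
    have e : ∀ n, R n = ∑ m ∈ (Ioc L (2 * L)).filter (fun m => n ≤ P / m),
        (f m : ℂ) * eAdd (α * ((m : ℝ) * n) ^ (j + 1)) := fun n => by
      simp only [hR, blockSum, blockCoef, ite_mul, zero_mul]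
      rw [← sum_filter]
      refine sum_congr rfl fun m _ => ?_
      push_cast
      ring_nf
    simp only [e, powInner, mul_sum]
    rw [sum_comm' (t' := Ioc 0 M) (s' := fun n => (Ioc L (2 * L)).filter (fun m => n ≤ P / m))]
    · exact sum_congr rfl fun n _ => sum_congr rfl fun m _ => by ring
    · intro m n
      simp only [mem_Ioc, mem_filter]
      constructor
      · rintro ⟨hm, hn0, hn⟩
        exact ⟨⟨hm, hn⟩, hn0, hn.trans (hM ▸ Nat.div_le_div_left hm.1.le hL)⟩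
      · rintro ⟨⟨hm, hn⟩, hn0, -⟩
        exact ⟨hm, hn0, hn⟩
  obtain ⟨B, hB⟩ : ∃ B, B = ‖∑ m ∈ Ioc L (2 * L), (f m : ℂ) * powInner (j + 1) α g P m‖ :=
    ⟨_, rfl⟩
  rw [← hB]
  obtain ⟨V, hV'⟩ : ∃ V, V = ∑ z ∈ tuples t L, sumBound (j + 1) α M (tupleVal (j + 1) z) :=
    ⟨_, rfl⟩
  have hV0 : 0 ≤ V := hV' ▸ sum_nonneg fun z _ => sumBound_nonneg _ _ _ _
  have h1 : B ^ 2 ≤ G ^ 2 * M * ∑ n ∈ Ioc 0 M, ‖R n‖ ^ 2 := by
    rw [hB, e1]
    refine (pow_le_pow_left₀ (norm_nonneg _) (norm_sum_le _ _) 2).trans ?_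
    simp only [norm_mul]
    refine (sum_mul_sq_le_sq_mul_sq _ _ _).trans (mul_le_mul_of_nonneg_right
      (le_trans (le_of_eq (sum_congr rfl fun n _ => ?_)) hg) (sum_nonneg fun _ _ => sq_nonneg _))
    rw [Complex.norm_real, Real.norm_eq_abs, sq_abs]
  obtain ⟨u, hu⟩ : ∃ u, t = u + 1 := ⟨t - 1, by omega⟩
  have h2 : (∑ n ∈ Ioc 0 M, ‖R n‖ ^ 2) ^ t ≤ (M : ℝ) ^ u * (F ^ (2 * t) * V) := by
    nth_rewrite 1 [hu]
    refine (pow_sum_le_card_mul_sum_pow (fun n _ => sq_nonneg _) u).trans ?_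
    rw [Nat.card_Ioc, Nat.sub_zero]
    refine mul_le_mul_of_nonneg_left ?_ (by positivity)
    rw [← hu, hV', hR]
    simp only [← pow_mul]
    exact sum_blockSum_pow_le α f t hF
  have h3 : B ^ (2 * t) ≤ G ^ (2 * t) * (M : ℝ) ^ (t + u) * (F ^ (2 * t) * V) := by
    rw [pow_mul]
    refine (pow_le_pow_left₀ (sq_nonneg B) h1 t).trans ?_
    rw [mul_pow, mul_pow, ← pow_mul, pow_add]
    calc G ^ (2 * t) * (M : ℝ) ^ t * (∑ n ∈ Ioc 0 M, ‖R n‖ ^ 2) ^ t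
        ≤ G ^ (2 * t) * (M : ℝ) ^ t * ((M : ℝ) ^ u * (F ^ (2 * t) * V)) :=
          mul_le_mul_of_nonneg_left h2 (by positivity)
      _ = _ := by ring
  obtain ⟨n, hn⟩ : ∃ n, n = 2 * t * K := ⟨_, rfl⟩
  have hn0 : n ≠ 0 := by rw [hn]; positivity
  have hsq : (ε ^ ((((4 * t * K : ℕ) : ℝ))⁻¹)) ^ n = √ε := by
    rw [Real.sqrt_eq_rpow, ← Real.rpow_natCast, ← Real.rpow_mul hε0, hn]
    congr 1
    push_cast
    field_simp
    ring
  rw [← hK]
  refine le_of_pow_le_pow_left₀ hn0 (by positivity) ?_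
  have h4 := hV q a α ha hα P L U hU hUL (hM ▸ hUM) hqP
  rw [← hε, ← hM, ← hV', ← hK] at h4
  calc B ^ n = (B ^ (2 * t)) ^ K := by rw [hn, pow_mul]
    _ ≤ (G ^ (2 * t) * (M : ℝ) ^ (t + u) * (F ^ (2 * t) * V)) ^ K :=
        pow_le_pow_left₀ (by rw [pow_mul]; positivity) h3 K
    _ = (G * F) ^ n * ((M : ℝ) ^ (t + u)) ^ K * V ^ K := by rw [hn]; ring
    _ ≤ (G * F) ^ n * ((M : ℝ) ^ (t + u)) ^ K *
        (C₁ * logOne P ^ e * ((L : ℝ) ^ (2 * t) * M) ^ K * √ε) :=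
        mul_le_mul_of_nonneg_left h4 (by positivity)
    _ = C₁ * logOne P ^ e * (G * F) ^ n * ((L : ℝ) * M) ^ n * √ε := by
        rw [hn, hu]; ring
    _ ≤ (C₁ + 1) ^ n * (logOne P ^ e) ^ n * (G * F) ^ n * (P : ℝ) ^ n * √ε := by
        gcongr
        · exact le_trans (by linarith) (le_self_pow₀ (show 1 ≤ C₁ + 1 by linarith) hn0)
        · exact le_self_pow₀ (one_le_pow₀ hl1) hn0
        · exact_mod_cast hLM
    _ = _ := by rw [← hsq]; simp only [mul_pow]; ring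

/-- **One short variable.** -/
theorem exists_short_le {j : ℕ} (hj : 1 ≤ j) :
    ∃ (e : ℕ) (C : ℝ), 0 < C ∧ ∀ (q : ℕ) [NeZero q] (a : ℤ) (α : ℝ), IsUnit (a : ZMod q) →
      |α - a / q| ≤ 1 / (q : ℝ) ^ 2 → ∀ P K m n : ℕ, q ≤ 2 ^ (j + 1) * P ^ (j + 1) →
        1 ≤ m → m ≤ K → n ≤ P / m →
        ‖waringSum (j + 1) n (α * (m ^ (j + 1) : ℕ))‖ ≤ C * (logOne P ^ e * P *
          (1 / (q : ℝ) + K / P + q / (P : ℝ) ^ (j + 1)) ^ ((((2 * 2 ^ j : ℕ) : ℝ))⁻¹)) := by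
  obtain ⟨e, C₁, hC₁, hdiff⟩ := exists_sum_diffSum_le hj
  obtain ⟨k, hk⟩ : ∃ k, k = j + 1 := ⟨_, rfl⟩
  rw [← hk] at hdiff ⊢
  obtain ⟨c₁, hc₁⟩ : ∃ c₁, c₁ = k.factorial := ⟨_, rfl⟩
  obtain ⟨Cl, hCl, hlog⟩ := exists_logOne_le (c₁ + 2 ^ k) k
  obtain ⟨w, hw⟩ : ∃ w : ℝ, w = (c₁ : ℝ) * ((c₁ : ℝ) + 2) := ⟨_, rfl⟩
  refine ⟨e, 2 ^ 2 ^ j * (C₁ * (1 + Cl ^ e * √w)) + 1, by positivity,
    fun q _ a α ha hα P K m n hqP hm hmK hn => ?_⟩
  obtain ⟨ε, hε⟩ : ∃ ε, ε = 1 / (q : ℝ) + K / P + q / (P : ℝ) ^ k := ⟨_, rfl⟩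
  have hε0 : 0 ≤ ε := by rw [hε]; positivity
  rw [← hε]
  obtain ⟨M, hM⟩ : ∃ M, M = P / m := ⟨_, rfl⟩
  rw [← hM] at hn
  have hl1 := one_le_logOne P
  rcases Nat.eq_zero_or_pos M with h | hM1
  · obtain rfl : n = 0 := by omega
    have e0 : waringSum k 0 (α * (m ^ k : ℕ)) = 0 := by simp [waringSum]
    rw [e0, norm_zero]
    positivity
  have hmM : m * M ≤ P := by rw [hM, mul_comm]; exact Nat.div_mul_le_self P m
  have hP1 : 1 ≤ P := le_trans (Nat.mul_pos hm hM1) hmM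
  have hMP : M ≤ P := (Nat.le_mul_of_pos_left M hm).trans hmM
  have hq : (0 : ℝ) < q := Nat.cast_pos.2 (NeZero.pos q)
  obtain ⟨N, hN⟩ : ∃ N, N = c₁ * M ^ j * m ^ k := ⟨_, rfl⟩
  have hN1 : N * M = c₁ * (m * M) ^ k := by rw [hN, hk, mul_pow, pow_succ M j]; ring
  have hN2 : N ≤ c₁ * (P ^ j * K) := by
    calc N = c₁ * ((m * M) ^ j * m) := by rw [hN, hk, mul_pow, pow_succ m j]; ring
      _ ≤ _ := by gcongr
  have hlq : 1 + Real.log q ≤ Cl * logOne P :=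
    hlog P q (hqP.trans (Nat.mul_le_mul_right _ (Nat.le_add_left _ _)))
  have hlN : logOne N ≤ Cl * logOne P := hlog P N (by
    calc N ≤ N * M := Nat.le_mul_of_pos_right N hM1
      _ = c₁ * (m * M) ^ k := hN1
      _ ≤ _ := by gcongr; exact Nat.le_add_right _ _)
  have hd := hdiff q a α ha hα M (m ^ k) hM1 (Nat.one_le_pow _ _ hm) {((m ^ k : ℕ) : ℤ)}
    (fun D hD => by rw [mem_singleton] at hD; rw [hD, Int.natAbs_natCast]) (Cl * logOne P) hlq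
    (by rwa [← hc₁, ← hN])
  have hne : ((m ^ k : ℕ) : ℤ) ≠ 0 := by positivity
  rw [sum_singleton, card_singleton, filter_singleton, if_neg hne, card_empty, Nat.cast_zero,
    mul_zero, add_zero, Nat.cast_one, mul_one, ← hc₁, ← hN] at hd
  have hPr : (1 : ℝ) ≤ P := by exact_mod_cast hP1
  have hKr : (1 : ℝ) ≤ K := by exact_mod_cast hm.trans hmK
  have hP : 1 / (P : ℝ) ≤ √ε := by
    have h1 : 1 / (P : ℝ) ≤ ε := by
      rw [hε]
      have h2 : 1 / (P : ℝ) ≤ K / P := div_le_div_of_nonneg_right hKr (by positivity)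
      have h3 : 0 ≤ 1 / (q : ℝ) + q / (P : ℝ) ^ k := by positivity
      linarith
    refine Real.le_sqrt_of_sq_le (le_trans ?_ h1)
    exact pow_le_of_le_one (by positivity) ((div_le_one (by positivity)).2 hPr) two_ne_zero
  obtain ⟨Y, hY⟩ : ∃ Y : ℝ, Y = (P : ℝ) ^ k := ⟨_, rfl⟩
  have hY0 : 0 ≤ Y := by rw [hY]; positivity
  have hbig : √((N : ℝ) * M * ((N : ℝ) * M / q + N + M + q)) ≤ √w * Y * √ε := by
    rw [← Real.sqrt_sq hY0, ← Real.sqrt_mul (by rw [hw]; positivity),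
      ← Real.sqrt_mul (by rw [hw]; positivity)]
    refine Real.sqrt_le_sqrt ?_
    have a0 : (N : ℝ) * M ≤ c₁ * Y := by
      rw [hY]; exact_mod_cast hN1.le.trans (Nat.mul_le_mul_left _ (Nat.pow_le_pow_left hmM k))
    have a1 : (N : ℝ) ≤ c₁ * (Y * (K / P)) := by
      calc (N : ℝ) ≤ ((c₁ * (P ^ j * K) : ℕ) : ℝ) := Nat.cast_le.2 hN2
        _ = _ := by rw [hY, hk, pow_succ]; push_cast; field_simp
    have a2 : (M : ℝ) ≤ Y * (K / P) := by
      rw [hY, hk, pow_succ (P : ℝ) j,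
        show (P : ℝ) ^ j * P * (K / P) = (P : ℝ) ^ j * K by field_simp]
      calc (M : ℝ) ≤ (P : ℝ) ^ 1 * 1 := by simpa using (Nat.cast_le (α := ℝ)).2 hMP
        _ ≤ _ := by gcongr
    have b1 : 0 ≤ Y * (1 / (q : ℝ)) := by positivity
    have b2 : 0 ≤ Y * ((q : ℝ) / (P : ℝ) ^ k) := by positivity
    have b3 : 0 ≤ Y * ((K : ℝ) / P) := by positivity
    have hc0 : (0 : ℝ) ≤ c₁ := Nat.cast_nonneg _
    have a3 : (q : ℝ) = Y * (q / (P : ℝ) ^ k) := by rw [hY]; field_simp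
    have a4 : (N : ℝ) * M / q ≤ c₁ * (Y * (1 / q)) := by
      rw [mul_one_div, mul_div_assoc']
      gcongr
    calc (N : ℝ) * M * ((N : ℝ) * M / q + N + M + q)
        ≤ c₁ * Y * (((c₁ : ℝ) + 2) * (Y * ε)) := by
          refine mul_le_mul a0 ?_ (by positivity) (by positivity)
          rw [hε]
          have := mul_nonneg hc0 b2
          have := mul_nonneg hc0 b1
          have := mul_nonneg hc0 b3
          linarith
      _ = _ := by rw [hw]; ring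
  have hj2 : k ≤ 2 ^ j := hk ▸ Nat.lt_two_pow_self
  have hs : (ε ^ ((((2 * 2 ^ j : ℕ) : ℝ))⁻¹)) ^ 2 ^ j = √ε := by
    rw [Real.sqrt_eq_rpow, ← Real.rpow_natCast, ← Real.rpow_mul hε0]
    congr 1
    push_cast
    field_simp
  refine le_of_pow_le_pow_left₀ (Nat.two_pow_pos j).ne' (by positivity) ?_
  have h := norm_waringSum_pow_le (j := j) hn α ((m ^ k : ℕ) : ℤ)
  rw [← hk, Int.cast_natCast] at h
  refine h.trans ((mul_le_mul_of_nonneg_left (hd.trans (mul_le_mul_of_nonneg_left (add_le_add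
    (b := 1 * (logOne P ^ e * (Y * √ε))) (d := Cl ^ e * √w * (logOne P ^ e * (Y * √ε))) ?_ ?_)
    hC₁.le)) (by positivity)).trans ?_)
  · rw [one_mul]
    refine le_trans ?_ (le_mul_of_one_le_left (by positivity) (one_le_pow₀ hl1))
    calc (M : ℝ) ^ j ≤ (P : ℝ) ^ j := pow_le_pow_left₀ (Nat.cast_nonneg M) (Nat.cast_le.2 hMP) j
      _ = Y * (1 / P) := by rw [hY, hk, pow_succ]; field_simp
      _ ≤ _ := mul_le_mul_of_nonneg_left hP hY0
  · refine (mul_le_mul_of_nonneg_left hbig (by positivity)).trans (le_of_eq ?_)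
    rw [mul_pow]
    ring
  rw [show ∀ A B Z : ℝ, (A * (B * P * Z)) ^ 2 ^ j =
      A ^ 2 ^ j * (B ^ 2 ^ j * (P : ℝ) ^ 2 ^ j * Z ^ 2 ^ j) from
    fun _ _ _ => by simp only [mul_pow], hs]
  obtain ⟨r, hr⟩ : ∃ r, 2 ^ j = k + r := ⟨2 ^ j - k, by omega⟩
  rw [hr, Nat.add_sub_cancel_left]
  calc (2 * (M : ℝ)) ^ r * (C₁ * (1 * (logOne P ^ e * (Y * √ε)) +
        Cl ^ e * √w * (logOne P ^ e * (Y * √ε))))
      ≤ (2 * (P : ℝ)) ^ r * (C₁ * (1 * (logOne P ^ e * (Y * √ε)) +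
          Cl ^ e * √w * (logOne P ^ e * (Y * √ε)))) := by gcongr
    _ = 2 ^ r * (C₁ * (1 + Cl ^ e * √w)) * (logOne P ^ e * (P : ℝ) ^ (k + r) * √ε) := by
        rw [hY]; ring
    _ ≤ (2 ^ (k + r) * (C₁ * (1 + Cl ^ e * √w)) + 1) ^ (k + r) *
        ((logOne P ^ e) ^ (k + r) * (P : ℝ) ^ (k + r) * √ε) := by
        have h1 : (2 : ℝ) ^ r ≤ 2 ^ (k + r) := pow_le_pow_right₀ one_le_two (Nat.le_add_left _ _)
        have h0 : 0 ≤ C₁ * (1 + Cl ^ e * √w) := by positivity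
        gcongr
        · refine le_trans ?_ (le_self_pow₀ (by
            linarith [mul_nonneg (show (0 : ℝ) ≤ 2 ^ (k + r) by positivity) h0]) (by omega))
          linarith [mul_le_mul_of_nonneg_right h1 h0]
        · exact le_self_pow₀ (one_le_pow₀ hl1) (by omega)

end FA.WaringGoldbach
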