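import Fermat.Agent.ThreePrimes.Major
import Fermat.Agent.WaringGoldbach.Bilinear

/-!
# The exponential sum over the `k`-th powers of the primes

Vaughan's identity with a cut `U` a power of `log N`: `∑_{n ≤ N ^ (1/k)} Λ n e (α n ^ k)` is
`O (N ^ (1/k) / (log N) ^ A)` when `(log N) ^ B ≤ q ≤ N / (log N) ^ B` and `|α - a/q| ≤ 1/q²`.
-/

set_option autoImplicit false

noncomputable section

namespace FA.WaringGoldbach

open Finset FA.ThreePrimes ArithmeticFunction FA.WaringAsymptotic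

/-- `∑_{n ≤ P} f n e (α n ^ k)`. -/
def powTwist (k : ℕ) (α : ℝ) (f : ℕ → ℝ) (P : ℕ) : ℂ :=
  ∑ n ∈ Ioc 0 P, (f n : ℂ) * eAdd (α * (n : ℝ) ^ k)

theorem powTwist_add (k : ℕ) (α : ℝ) (f g : ArithmeticFunction ℝ) (P : ℕ) :
    powTwist k α (f + g : ArithmeticFunction ℝ) P = powTwist k α f P + powTwist k α g P := by
  simp [powTwist, add_mul, sum_add_distrib]

theorem powTwist_sub (k : ℕ) (α : ℝ) (f g : ArithmeticFunction ℝ) (P : ℕ) :
    powTwist k α (f - g : ArithmeticFunction ℝ) P = powTwist k α f P - powTwist k α g P := by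
  rw [eq_sub_iff_add_eq, ← powTwist_add, sub_add_cancel]

theorem powTwist_mul (k : ℕ) (α : ℝ) (f g : ArithmeticFunction ℝ) (P : ℕ) :
    powTwist k α (f * g : ArithmeticFunction ℝ) P =
      ∑ m ∈ Ioc 0 P, (f m : ℂ) * powInner k α g P m := by
  trans ∑ x ∈ Ioc 0 P ×ˢ Ioc 0 P with x.1 * x.2 ≤ P,
    (f x.1 : ℂ) * g x.2 * eAdd (α * ((x.1 * x.2 : ℕ) : ℝ) ^ k)
  · unfold powTwist
    trans ∑ n ∈ Ioc 0 P, ∑ x ∈ Ioc 0 P ×ˢ Ioc 0 P with x.1 * x.2 = n,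
      (f x.1 : ℂ) * g x.2 * eAdd (α * ((x.1 * x.2 : ℕ) : ℝ) ^ k)
    · refine sum_congr rfl fun n hn => ?_
      rw [mem_Ioc] at hn
      rw [mul_apply, Nat.divisorsAntidiagonal_eq_prod_filter_of_le hn.1.ne' hn.2,
        Complex.ofReal_sum, sum_mul]
      refine sum_congr rfl fun x hx => ?_
      rw [(mem_filter.1 hx).2]
      push_cast
      rfl
    · simp_rw [sum_filter]
      rw [sum_comm]
      exact sum_congr rfl fun _ _ => (by simp_all)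
  · rw [sum_filter, sum_product]
    refine sum_congr rfl fun m hm => ?_
    rw [mem_Ioc] at hm
    rw [powInner, mul_sum, ← sum_filter]
    refine sum_congr ?_ fun n _ => ?_
    · ext n
      simp only [mem_filter, mem_Ioc, Nat.le_div_iff_mul_le hm.1, mul_comm m n]
      constructor
      · rintro ⟨⟨h1, -⟩, h2⟩
        exact ⟨h1, h2⟩
      · rintro ⟨h1, h2⟩
        exact ⟨⟨h1, le_trans (Nat.le_mul_of_pos_right n hm.1) h2⟩, h2⟩
    · push_cast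
      ring_nf

theorem powInner_one_eq (k : ℕ) (α : ℝ) (P m : ℕ) :
    powInner k α oneR P m = waringSum k (P / m) (α * (m ^ k : ℕ)) := by
  rw [powInner, waringSum, show Icc 1 (P / m) = Ioc 0 (P / m) by ext; simp; omega]
  refine sum_congr rfl fun n hn => ?_
  rw [mem_Ioc] at hn
  simp [oneR, zeta_apply, hn.1.ne', mul_pow, mul_assoc]

/-- Abel summation for `log n`. -/
theorem norm_powInner_log_le (k : ℕ) (α : ℝ) {P m : ℕ} {R : ℝ}
    (hR : ∀ j ≤ P / m, ‖waringSum k j (α * (m ^ k : ℕ))‖ ≤ R) :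
    ‖powInner k α ArithmeticFunction.log P m‖ ≤ 2 * R * Real.log (P / m : ℕ) := by
  obtain ⟨K, hK⟩ : ∃ K, K = P / m := ⟨_, rfl⟩
  obtain ⟨γ, hγ⟩ : ∃ γ : ℝ, γ = α * (m ^ k : ℕ) := ⟨_, rfl⟩
  rw [← hK, ← hγ] at hR
  rw [powInner, ← hK]
  rcases Nat.eq_zero_or_pos K with rfl | hK1
  · simp
  obtain ⟨D, hD⟩ : ∃ D : ℕ → ℝ, D = fun j : ℕ => Real.log ((j + 1 : ℕ) : ℝ) - Real.log j :=
    ⟨_, rfl⟩
  have hD0 : ∀ j ∈ Ico 1 K, 0 ≤ D j := fun j hj => by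
    rw [mem_Ico] at hj
    rw [hD]
    exact sub_nonneg.2 (Real.log_le_log (Nat.cast_pos.2 hj.1) (Nat.cast_le.2 (Nat.le_succ j)))
  have e : ∑ n ∈ Ioc 0 K, (ArithmeticFunction.log n : ℂ) * eAdd (α * ((m : ℝ) * n) ^ k) =
      ∑ j ∈ Ico 1 K, (D j : ℂ) * ∑ n ∈ Ioc j K, eAdd (γ * (n : ℝ) ^ k) := by
    simp only [mul_sum]
    rw [sum_comm' (t' := Ioc 0 K) (s' := fun n => Ico 1 n)]
    · refine sum_congr rfl fun n hn => ?_
      rw [mem_Ioc] at hn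
      rw [← sum_mul, ← Complex.ofReal_sum, hD, sum_Ico_sub (fun j : ℕ => Real.log (j : ℝ)) hn.1,
        hγ]
      rw [ArithmeticFunction.log_apply, Nat.cast_one, Real.log_one, sub_zero]
      congr 2
      push_cast
      ring
    · intro j n
      simp only [mem_Ico, mem_Ioc]
      omega
  rw [e]
  refine (norm_sum_le _ _).trans ((sum_le_sum (g := fun j => D j * (2 * R))
    fun j hj => ?_).trans (le_of_eq ?_))
  · rw [norm_mul, Complex.norm_real, Real.norm_eq_abs, abs_of_nonneg (hD0 j hj)]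
    refine mul_le_mul_of_nonneg_left ?_ (hD0 j hj)
    rw [mem_Ico] at hj
    have hI : ∀ n, Icc 1 n = Ioc 0 n := fun n => by ext; simp; omega
    have e2 : ∑ n ∈ Ioc j K, eAdd (γ * (n : ℝ) ^ k) = waringSum k K γ - waringSum k j γ := by
      rw [waringSum, waringSum, hI, hI, ← sum_Ioc_consecutive _ (Nat.zero_le j) hj.2.le,
        add_sub_cancel_left]
    rw [e2, two_mul]
    exact (norm_sub_le _ _).trans (add_le_add (hR K le_rfl) (hR j hj.2.le))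
  · rw [← sum_mul, hD, sum_Ico_sub (fun j : ℕ => Real.log (j : ℝ)) hK1]
    simp
    ring

/-- **Sums of type I.** -/
theorem norm_typeOne_le {k : ℕ} {α : ℝ} (f g : ArithmeticFunction ℝ) {P K : ℕ} {B R : ℝ}
    (hB : 0 ≤ B) (hR : 0 ≤ R) (hf : ∀ m, m ≤ P → |f m| ≤ B) (hf0 : ∀ m, K < m → f m = 0)
    (hg : ∀ m, 1 ≤ m → m ≤ K → ‖powInner k α g P m‖ ≤ R) :
    ‖powTwist k α (f * g : ArithmeticFunction ℝ) P‖ ≤ K * (B * R) := by
  rw [powTwist_mul]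
  refine (norm_sum_le _ _).trans ((sum_le_sum
    (g := fun m => if m ≤ K then B * R else 0) fun m hm => ?_).trans ?_)
  · rw [mem_Ioc] at hm
    split_ifs with h
    · rw [norm_mul, Complex.norm_real, Real.norm_eq_abs]
      exact mul_le_mul (hf m hm.2) (hg m hm.1 h) (norm_nonneg _) hB
    · simp [hf0 m (not_le.1 h)]
  · rw [← sum_filter, sum_const, nsmul_eq_mul]
    refine mul_le_mul_of_nonneg_right (Nat.cast_le.2 ?_) (mul_nonneg hB hR)
    refine (card_le_card (t := Icc 1 K) fun m hm => ?_).trans (by simp)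
    simp only [mem_filter, mem_Ioc] at hm
    exact mem_Icc.2 ⟨hm.1.1, hm.2⟩

/-- **The sum of type II.** -/
theorem exists_typeTwo_le {j t : ℕ} (hj : 1 ≤ j) (ht : (j + 1) * (j + 2) < 4 * t) :
    ∃ (e : ℕ) (C : ℝ), 0 < C ∧ ∀ (q : ℕ) [NeZero q] (a : ℤ) (α : ℝ), IsUnit (a : ZMod q) →
      |α - a / q| ≤ 1 / (q : ℝ) ^ 2 → ∀ P U : ℕ, q ≤ 2 ^ (j + 1) * P ^ (j + 1) → 1 ≤ U →
        ‖powTwist (j + 1) α (highPart U Λ * tailCoeff U : ArithmeticFunction ℝ) P‖ ≤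
          C * (logOne P ^ e * P *
            powSaving (j + 1) U q P ^ ((((4 * t * 2 ^ j : ℕ) : ℝ))⁻¹)) := by
  obtain ⟨e, K, hK, hblk⟩ := exists_block_le hj ht
  refine ⟨e + 4, 2 * K, by positivity, fun q _ a α ha hα P U hqP hU => ?_⟩
  obtain ⟨F, hF⟩ : ∃ F : ℕ → ℂ,
      F = fun m => (highPart U Λ m : ℂ) * powInner (j + 1) α (tailCoeff U) P m := ⟨_, rfl⟩
  obtain ⟨H, hH⟩ : ∃ H, H = Nat.log 2 P + 1 := ⟨_, rfl⟩
  obtain ⟨l, hl⟩ : ∃ l, l = logOne P := ⟨_, rfl⟩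
  rw [← hl]
  have hl1 : 1 ≤ l := hl ▸ one_le_logOne P
  obtain ⟨T, hT⟩ : ∃ T : ℝ, T = K * (l ^ (e + 3) * P *
      powSaving (j + 1) U q P ^ ((((4 * t * 2 ^ j : ℕ) : ℝ))⁻¹)) := ⟨_, rfl⟩
  have hT0 : 0 ≤ T := by
    rw [hT]
    have := powSaving_nonneg (j + 1) U q P
    positivity
  have hUH : P ≤ U * 2 ^ H := by
    rw [hH]
    exact le_trans (Nat.lt_pow_succ_log_self one_lt_two P).le (Nat.le_mul_of_pos_left _ hU)
  have e0 : powTwist (j + 1) α (highPart U Λ * tailCoeff U : ArithmeticFunction ℝ) P =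
      ∑ m ∈ Ioc U (U * 2 ^ H), F m := by
    rw [powTwist_mul, hF]
    refine sum_congr_of_eq_on_inter ?_ ?_ ?_
    · intro m hm hm'
      rw [mem_Ioc] at hm hm'
      simp [highPart_apply, show m ≤ U by omega]
    · intro m hm hm'
      rw [mem_Ioc] at hm hm'
      rw [powInner, Nat.div_eq_of_lt (by omega)]
      simp
    · intros
      rfl
  have hblock : ∀ L, U ≤ L → ‖∑ m ∈ Ioc L (2 * L), F m‖ ≤ T := by
    intro L hUL
    rcases le_or_gt (P / L) U with h | h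
    · refine le_trans (le_of_eq (norm_eq_zero.2 (sum_eq_zero fun m hm => ?_))) hT0
      rw [mem_Ioc] at hm
      rw [hF]
      simp only
      rw [powInner, sum_eq_zero, mul_zero]
      intro n hn
      rw [mem_Ioc] at hn
      have : P / m ≤ P / L := Nat.div_le_div_left hm.1.le (by omega)
      simp [tailCoeff_eq_zero (show n ≤ U by omega)]
    have hLP : L ≤ P := by
      by_contra hlt
      rw [Nat.div_eq_of_lt (by omega)] at h
      omega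
    rw [hF, hT]
    refine (hblk q a α ha hα (highPart U Λ) (tailCoeff U) P L U l (l ^ 2) hU hUL h.le hqP
      (fun m hm => ?_) (by positivity) ?_).trans (le_of_eq (by rw [hl]; ring))
    · rw [mem_Ioc] at hm
      rw [highPart_apply]
      split_ifs
      · simpa using (zero_le_one.trans hl1)
      · rw [abs_of_nonneg vonMangoldt_nonneg]
        exact vonMangoldt_le_log.trans (hl ▸ log_le_logOne (by omega))
    · refine (sum_le_sum fun n _ => ?_).trans ((sum_card_divisors_sq_le _).trans ?_)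
      · exact sq_abs (tailCoeff U n) ▸ pow_le_pow_left₀ (abs_nonneg _) (abs_tailCoeff_le U n) 2
      · rw [mul_comm]
        refine mul_le_mul_of_nonneg_right ?_ (Nat.cast_nonneg _)
        rw [← pow_mul]
        exact (pow_le_pow_left₀ (zero_le_one.trans (one_le_logOne _))
          (hl ▸ HuaCubes.logOne_mono (Nat.div_le_self P L)) 3).trans
          (pow_le_pow_right₀ hl1 (by norm_num))
  have key : ∀ H : ℕ, ‖∑ m ∈ Ioc U (U * 2 ^ H), F m‖ ≤ H * T := by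
    intro H
    induction H with
    | zero => simp
    | succ H ih =>
      have h1 : U ≤ U * 2 ^ H := Nat.le_mul_of_pos_right U (by positivity)
      rw [pow_succ, ← mul_assoc, mul_comm _ 2, ← sum_Ioc_consecutive F h1 (by omega),
        Nat.cast_succ, add_mul _ (1 : ℝ), one_mul]
      exact (norm_add_le _ _).trans (add_le_add ih (hblock _ h1))
  rw [e0]
  refine (key H).trans ?_
  have hH2 : (H : ℝ) ≤ 2 * l := by
    rw [hH, hl, logOne]
    rcases Nat.eq_zero_or_pos P with rfl | hP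
    · simp
    have h3 : ((2 : ℝ) ^ Nat.log 2 P) ≤ P := by exact_mod_cast Nat.pow_log_le_self 2 hP.ne'
    have h4 := Real.log_le_log (by positivity) h3
    rw [Real.log_pow] at h4
    have h5 : (0 : ℝ) ≤ Nat.log 2 P := Nat.cast_nonneg _
    push_cast
    nlinarith [Real.log_two_gt_d9]
  refine (mul_le_mul_of_nonneg_right hH2 hT0).trans (le_of_eq ?_)
  rw [hT]
  ring

/-- **Vaughan's identity applied.** -/
theorem exists_powTwist_le {j t : ℕ} (hj : 1 ≤ j) (ht : (j + 1) * (j + 2) < 4 * t) :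
    ∃ (e : ℕ) (C : ℝ), 1 ≤ C ∧ ∀ (q : ℕ) [NeZero q] (a : ℤ) (α : ℝ), IsUnit (a : ZMod q) →
      |α - a / q| ≤ 1 / (q : ℝ) ^ 2 → ∀ P U : ℕ, q ≤ 2 ^ (j + 1) * P ^ (j + 1) → 1 ≤ U →
        ‖powTwist (j + 1) α Λ P‖ ≤ C * (U + logOne P ^ e * P * ((U : ℝ) ^ 2 *
          (1 / (q : ℝ) + (U : ℝ) ^ 2 / P + q / (P : ℝ) ^ (j + 1)) ^
            ((((2 * 2 ^ j : ℕ) : ℝ))⁻¹) +
          powSaving (j + 1) U q P ^ ((((4 * t * 2 ^ j : ℕ) : ℝ))⁻¹))) := by
  obtain ⟨e₁, C₁, hC₁, hshort⟩ := exists_short_le hj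
  obtain ⟨e₂, C₂, hC₂, htwo⟩ := exists_typeTwo_le hj ht
  refine ⟨e₁ + e₂ + 1, 6 + 3 * C₁ + C₂, by linarith, fun q _ a α ha hα P U hqP hU => ?_⟩
  obtain ⟨l, hl⟩ : ∃ l, l = logOne P := ⟨_, rfl⟩
  have hl1 : 1 ≤ l := hl ▸ one_le_logOne P
  have hlog : ∀ n ≤ P, Real.log n ≤ l := fun n hn => hl ▸ log_le_logOne (by omega)
  obtain ⟨Z, hZ⟩ : ∃ Z : ℝ,
      Z = (1 / (q : ℝ) + (U : ℝ) ^ 2 / P + q / (P : ℝ) ^ (j + 1)) ^ ((((2 * 2 ^ j : ℕ) : ℝ))⁻¹) :=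
    ⟨_, rfl⟩
  have hZ0 : 0 ≤ Z := by rw [hZ]; positivity
  obtain ⟨R, hR⟩ : ∃ R : ℝ, R = C₁ * (l ^ e₁ * P * Z) := ⟨_, rfl⟩
  have hR0 : 0 ≤ R := by rw [hR]; positivity
  have hquad : ∀ m, 1 ≤ m → m ≤ U * U → ∀ n ≤ P / m,
      ‖waringSum (j + 1) n (α * (m ^ (j + 1) : ℕ))‖ ≤ R := by
    intro m h1 h2 n hn
    refine (hshort q a α ha hα P (U * U) m n hqP h1 h2 hn).trans (le_of_eq ?_)
    rw [hR, hl, hZ, Nat.cast_mul, sq (U : ℝ)]
  have hUU : U ≤ U * U := Nat.le_mul_of_pos_left U hU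
  have p0 : ‖powTwist (j + 1) α (lowPart U Λ) P‖ ≤ 6 * U := by
    refine (norm_sum_le _ _).trans ?_
    refine le_trans (le_of_eq (sum_congr rfl fun n _ => ?_))
      (le_trans (le_of_eq_of_le (sum_filter (fun n : ℕ => n ≤ U) fun n : ℕ => Λ n).symm
      (sum_le_sum_of_subset_of_nonneg (t := Ioc 0 U) (fun n hn => ?_)
        fun n _ _ => vonMangoldt_nonneg)) (sum_vonMangoldt_le U))
    · rw [norm_mul, norm_eAdd, mul_one, Complex.norm_real, Real.norm_eq_abs, lowPart_apply]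
      split_ifs
      · exact abs_of_nonneg vonMangoldt_nonneg
      · exact abs_zero
    · rw [mem_filter, mem_Ioc] at hn
      rw [mem_Ioc]
      omega
  have p1 : ‖powTwist (j + 1) α
      (lowPart U moebiusR * ArithmeticFunction.log : ArithmeticFunction ℝ) P‖
      ≤ (U * U : ℕ) * (1 * (2 * R * l)) := by
    refine norm_typeOne_le (lowPart U moebiusR) ArithmeticFunction.log zero_le_one
      (by positivity) (fun m _ => ?_) (fun m hm => ?_) fun m h1 h2 => ?_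
    · rw [lowPart_apply]
      split_ifs
      · exact abs_moebiusR_le m
      · simp
    · rw [lowPart_apply, if_neg (by omega)]
    · exact (norm_powInner_log_le _ α (hquad m h1 h2)).trans (mul_le_mul_of_nonneg_left
        (hlog _ (Nat.div_le_self P m)) (by positivity))
  have p2 : ‖powTwist (j + 1) α
      (lowPart U Λ * lowPart U moebiusR * oneR : ArithmeticFunction ℝ) P‖
      ≤ (U * U : ℕ) * (l * R) := by
    refine norm_typeOne_le (lowPart U Λ * lowPart U moebiusR) oneR (by linarith) hR0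
      (fun m hm => (abs_low_mul_le U m).trans (hlog m hm)) (fun m hm => low_mul_eq_zero hm)
      fun m h1 h2 => ?_
    rw [powInner_one_eq]
    exact hquad m h1 h2 _ le_rfl
  have p3 := htwo q a α ha hα P U hqP hU
  rw [vaughan U, powTwist_add, powTwist_sub, powTwist_add]
  refine (norm_add_le _ _).trans ((add_le_add ((norm_sub_le _ _).trans
    (add_le_add ((norm_add_le _ _).trans (add_le_add p0 p1)) p2)) p3).trans ?_)
  rw [← hl, ← hZ]
  obtain ⟨W, hW⟩ : ∃ W : ℝ,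
      W = powSaving (j + 1) U q P ^ ((((4 * t * 2 ^ j : ℕ) : ℝ))⁻¹) := ⟨_, rfl⟩
  rw [← hW]
  have hW0 : 0 ≤ W := hW ▸ Real.rpow_nonneg (powSaving_nonneg _ _ _ _) _
  have e : ((U * U : ℕ) : ℝ) * (1 * (2 * R * l)) + ((U * U : ℕ) : ℝ) * (l * R) =
      3 * C₁ * (l ^ (e₁ + 1) * P * ((U : ℝ) ^ 2 * Z)) := by
    rw [hR]
    push_cast
    ring
  obtain ⟨X, hX⟩ : ∃ X : ℝ, X = l ^ (e₁ + e₂ + 1) * P * ((U : ℝ) ^ 2 * Z + W) := ⟨_, rfl⟩
  rw [← hX]
  have h1 : l ^ (e₁ + 1) * P * ((U : ℝ) ^ 2 * Z) ≤ X := by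
    rw [hX]
    gcongr
    · omega
    · linarith
  have h2 : l ^ e₂ * P * W ≤ X := by
    rw [hX]
    gcongr
    · omega
    · have : 0 ≤ (U : ℝ) ^ 2 * Z := by positivity
      linarith
  have hX0 : 0 ≤ X := by rw [hX]; positivity
  have := mul_le_mul_of_nonneg_left h1 (show 0 ≤ 3 * C₁ by positivity)
  have := mul_le_mul_of_nonneg_left h2 hC₂.le
  have hU0 : (0 : ℝ) ≤ U := Nat.cast_nonneg U
  have := mul_nonneg hC₁.le hU0
  have := mul_nonneg hC₂.le hU0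
  linarith

/-- Powers of `log N` against `⌊N ^ (1/k)⌋`. -/
theorem exists_log_pow_le_root {k : ℕ} (hk : 1 ≤ k) (m : ℕ) : ∃ K : ℝ, 1 ≤ K ∧
    ∀ N : ℕ, 1 ≤ N → 1 ≤ Real.log N → ∀ i ≤ m, Real.log N ^ i ≤ K * rootFloor k N := by
  refine ⟨1 + ((k * m : ℕ) : ℝ) ^ m * 2, by
    linarith [pow_nonneg (Nat.cast_nonneg (α := ℝ) (k * m)) m], fun N hN hl i hi => ?_⟩
  obtain ⟨hP1, -, hNP⟩ := rootFloor_spec hk hN
  obtain ⟨P, hP⟩ : ∃ P, P = rootFloor k N := ⟨_, rfl⟩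
  rw [← hP] at hP1 hNP ⊢
  have hPr : (1 : ℝ) ≤ P := by exact_mod_cast hP1
  refine (pow_le_pow_right₀ hl hi).trans ?_
  rcases Nat.eq_zero_or_pos m with rfl | hm
  · simp
    linarith
  have hN0 : (0 : ℝ) ≤ N := Nat.cast_nonneg N
  have hkm : (0 : ℝ) < ((k * m : ℕ) : ℝ) := Nat.cast_pos.2 (Nat.mul_pos hk hm)
  have h1 := Real.log_le_rpow_div hN0 (show (0 : ℝ) < 1 / ((k * m : ℕ) : ℝ) by positivity)
  have h2 : (N : ℝ) ^ (1 / (k : ℝ)) ≤ 2 * P := by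
    rw [one_div, Real.rpow_inv_le_iff_of_pos hN0 (by positivity) (Nat.cast_pos.2 hk),
      Real.rpow_natCast]
    exact_mod_cast hNP.le.trans (Nat.pow_le_pow_left (show P + 1 ≤ 2 * P by omega) k)
  have h3 : ((N : ℝ) ^ (1 / ((k * m : ℕ) : ℝ)) / (1 / ((k * m : ℕ) : ℝ))) ^ m =
      ((k * m : ℕ) : ℝ) ^ m * (N : ℝ) ^ (1 / (k : ℝ)) := by
    rw [div_div_eq_mul_div, div_one, mul_pow, mul_comm, ← Real.rpow_natCast ((N : ℝ) ^ _) m,
      ← Real.rpow_mul hN0]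
    congr 2
    push_cast
    field_simp
  refine (pow_le_pow_left₀ (by linarith) h1 m).trans (h3.le.trans ?_)
  have := mul_le_mul_of_nonneg_left h2 (pow_nonneg hkm.le m)
  linarith

theorem rootFloor_le_rpow {k N : ℕ} (hk : 1 ≤ k) (hN : 1 ≤ N) :
    (rootFloor k N : ℝ) ≤ (N : ℝ) ^ (1 / (k : ℝ)) := by
  rw [one_div, Real.le_rpow_inv_iff_of_pos (Nat.cast_nonneg _) (Nat.cast_nonneg _)
    (Nat.cast_pos.2 hk), Real.rpow_natCast]
  exact_mod_cast (rootFloor_spec hk hN).2.1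

theorem le_pow_rootFloor {k N : ℕ} (hk : 1 ≤ k) (hN : 1 ≤ N) :
    N ≤ 2 ^ k * rootFloor k N ^ k := by
  obtain ⟨h1, -, h3⟩ := rootFloor_spec hk hN
  rw [← mul_pow]
  exact h3.le.trans (Nat.pow_le_pow_left (by omega) k)

/-- **Vinogradov's bound for the `k`-th powers of the primes.** -/
theorem exists_pow_exp_sum_le {k : ℕ} (hk : 2 ≤ k) (A : ℕ) : ∃ (B : ℕ) (C : ℝ), 0 < C ∧
    ∀ (N q : ℕ) [NeZero q] (a : ℤ) (α : ℝ), IsUnit (a : ZMod q) →
      |α - a / q| ≤ 1 / (q : ℝ) ^ 2 → Real.log N ^ B ≤ q → (q : ℝ) ≤ N / Real.log N ^ B →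
        ‖powTwist k α Λ (rootFloor k N)‖ ≤
          C * ((N : ℝ) ^ (1 / (k : ℝ)) / Real.log N ^ A) := by
  obtain ⟨j, rfl⟩ : ∃ j, k = j + 1 := ⟨k - 1, by omega⟩
  obtain ⟨k, hk'⟩ : ∃ k, k = j + 1 := ⟨_, rfl⟩
  obtain ⟨t, ht⟩ : ∃ t, t = k * k := ⟨_, rfl⟩
  have htk : (j + 1) * (j + 2) < 4 * t := by
    rw [ht, hk', show 4 * ((j + 1) * (j + 1)) = (j + 1) * (4 * (j + 1)) by ring]
    exact Nat.mul_lt_mul_of_pos_left (by omega) (by omega)
  obtain ⟨e, T, hT, htw⟩ := exists_powTwist_le (show 1 ≤ j by omega) htk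
  obtain ⟨n₁, hn₁⟩ : ∃ n, n = 2 * 2 ^ j := ⟨_, rfl⟩
  obtain ⟨n₂, hn₂⟩ : ∃ n, n = 4 * t * 2 ^ j := ⟨_, rfl⟩
  rw [← hn₁, ← hn₂, ← hk'] at htw
  rw [← hk']
  have hn₁0 : n₁ ≠ 0 := by rw [hn₁]; positivity
  have hn₂0 : n₂ ≠ 0 := by
    rw [hn₂, ht, hk']; positivity
  obtain ⟨E, hE⟩ : ∃ E, E = A + e := ⟨_, rfl⟩
  obtain ⟨D, hD⟩ : ∃ D, D = n₂ * E := ⟨_, rfl⟩
  obtain ⟨B, hB⟩ : ∃ B, B = 2 * n₁ * D + n₁ * E + D := ⟨_, rfl⟩
  obtain ⟨K, hK, hpow⟩ := exists_log_pow_le_root (k := k) (by omega)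
    ((2 * n₁ + 2) * D + n₁ * E + (D + E))
  obtain ⟨c, hc⟩ : ∃ c : ℝ, c = 1 + K + 2 ^ k + 2 + 2 ^ k := ⟨_, rfl⟩
  have hk2 : (0 : ℝ) ≤ 2 ^ k := by positivity
  refine ⟨B, T * (K + ((k : ℝ) + 2) ^ e * (2 * c)) + 1, by rw [hc]; positivity,
    fun N q _ a α ha hα hq1 hq2 => ?_⟩
  rcases lt_or_ge N 3 with hN | hN
  · have hP : rootFloor k N ≤ 1 := by
      rcases Nat.eq_zero_or_pos N with rfl | hN0
      · simp [rootFloor]
      by_contra h
      have := (rootFloor_spec (show 1 ≤ k by omega) hN0).2.1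
      have h2 := Nat.pow_le_pow_left (show 2 ≤ rootFloor k N by omega) k
      have h3 := Nat.pow_le_pow_right (show 0 < 2 by norm_num) (show 2 ≤ k by omega)
      omega
    rw [show powTwist k α Λ (rootFloor k N) = 0 from sum_eq_zero fun n hn => by
      rw [mem_Ioc] at hn
      rw [show n = 1 by omega]
      simp, norm_zero]
    have := Real.log_natCast_nonneg N
    rw [hc]
    positivity
  have hN1 : 1 ≤ N := by omega
  obtain ⟨P, hP⟩ : ∃ P, P = rootFloor k N := ⟨_, rfl⟩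
  have hP3 := rootFloor_spec (show 1 ≤ k by omega) hN1
  have h8 := le_pow_rootFloor (show 1 ≤ k by omega) hN1
  have hroot := rootFloor_le_rpow (show 1 ≤ k by omega) hN1
  rw [← hP] at hP3 h8 hroot ⊢
  have hP0 : (1 : ℝ) ≤ P := by exact_mod_cast hP3.1
  have hNr : (3 : ℝ) ≤ N := by exact_mod_cast hN
  have h8' : (N : ℝ) ≤ 2 ^ k * (P : ℝ) ^ k := by exact_mod_cast h8
  obtain ⟨l, hl⟩ : ∃ l, l = Real.log N := ⟨_, rfl⟩
  rw [← hl] at hq1 hq2 ⊢
  have hl1 : 1 ≤ l := by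
    rw [hl, Real.le_log_iff_exp_le (by linarith)]
    linarith [Real.exp_one_lt_d9]
  have hl0 : 0 < l := by linarith
  have hbig : ∀ m, m ≤ (2 * n₁ + 2) * D + n₁ * E + (D + E) → l ^ m ≤ K * P := fun m hm =>
    hl ▸ hP ▸ hpow N hN1 (hl ▸ hl1) m hm
  obtain ⟨V, hV⟩ : ∃ V, V = l ^ D := ⟨_, rfl⟩
  have hV1 : 1 ≤ V := hV ▸ one_le_pow₀ hl1
  obtain ⟨U, hU⟩ : ∃ U, U = ⌊V⌋₊ := ⟨_, rfl⟩
  have hU1 : 1 ≤ U := hU ▸ (Nat.one_le_floor_iff V).2 hV1
  have hUV : (U : ℝ) ≤ V := hU ▸ Nat.floor_le (by linarith)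
  have hVU : V ≤ 2 * U := by
    have h1 := Nat.lt_floor_add_one V
    rw [← hU] at h1
    have : (1 : ℝ) ≤ U := by exact_mod_cast hU1
    linarith
  have hqP : q ≤ 2 ^ k * P ^ k := by
    have h : (q : ℝ) ≤ N := hq2.trans (div_le_self (by linarith) (one_le_pow₀ hl1))
    exact le_trans (by exact_mod_cast h) h8
  have hlP : logOne P ≤ ((k : ℝ) + 2) * l := by
    have h1 : Real.log P ≤ Real.log N :=
      Real.log_le_log (by positivity) (Nat.cast_le.2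
        ((Nat.le_self_pow (by omega) P).trans hP3.2.1))
    have h2 : 0 ≤ (k : ℝ) * l := by positivity
    rw [← hl] at h1
    unfold logOne
    linarith
  have hs0 := one_le_logOne P
  obtain ⟨X, hX⟩ : ∃ X : ℝ, X = (l ^ E)⁻¹ := ⟨_, rfl⟩
  have hX0 : 0 ≤ X := by rw [hX]; positivity
  have hXp : ∀ i, X ^ i = (l ^ (i * E))⁻¹ := fun i => by
    rw [hX, inv_pow, ← pow_mul, mul_comm]
  have hq' : 1 / (q : ℝ) ≤ (l ^ B)⁻¹ := by
    rw [one_div]
    exact inv_anti₀ (by positivity) hq1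
  have hqP' : (q : ℝ) / (P : ℝ) ^ k ≤ 2 ^ k * (l ^ B)⁻¹ := by
    rw [div_le_iff₀ (by positivity)]
    refine hq2.trans ?_
    rw [div_eq_mul_inv, show 2 ^ k * (l ^ B)⁻¹ * (P : ℝ) ^ k =
      2 ^ k * (P : ℝ) ^ k * (l ^ B)⁻¹ by ring]
    exact mul_le_mul_of_nonneg_right h8' (by positivity)
  -- the first term
  have t0 : (U : ℝ) ≤ K * P * X := by
    refine hUV.trans ?_
    rw [hV, hX, ← div_eq_mul_inv, le_div_iff₀ (by positivity), ← pow_add]
    exact hbig _ (by omega)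
  have hroots : ∀ (n : ℕ) {y b : ℝ}, n ≠ 0 → 0 ≤ y → 1 ≤ b → y ≤ b * X ^ n →
      y ^ ((n : ℝ)⁻¹) ≤ b * X := by
    intro n y b hn hy hb h
    refine (Real.rpow_le_rpow hy h (by positivity)).trans ?_
    rw [Real.mul_rpow (by linarith) (by positivity), Real.pow_rpow_inv_natCast hX0 hn]
    refine mul_le_mul_of_nonneg_right (Real.rpow_le_self_of_one_le hb ?_) hX0
    rw [inv_le_one₀ (by positivity)]
    exact_mod_cast Nat.one_le_iff_ne_zero.2 hn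
  -- type I
  have t1 : (U : ℝ) ^ 2 * (1 / (q : ℝ) + (U : ℝ) ^ 2 / P + q / (P : ℝ) ^ k) ^ ((n₁ : ℝ)⁻¹) ≤
      c * X := by
    obtain ⟨Y, hY⟩ : ∃ Y : ℝ, Y = 1 / (q : ℝ) + (U : ℝ) ^ 2 / P + q / (P : ℝ) ^ k := ⟨_, rfl⟩
    have hY0 : 0 ≤ Y := by rw [hY]; positivity
    rw [← hY, show (U : ℝ) ^ 2 = (((U : ℝ) ^ 2) ^ n₁) ^ ((n₁ : ℝ)⁻¹) from
      (Real.pow_rpow_inv_natCast (by positivity) hn₁0).symm,
      ← Real.mul_rpow (by positivity) hY0, ← pow_mul]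
    refine hroots n₁ hn₁0 (by positivity) (by rw [hc]; linarith) ?_
    rw [hY]
    have h1 : (U : ℝ) ^ (2 * n₁) ≤ l ^ (2 * n₁ * D) := by
      refine (pow_le_pow_left₀ (Nat.cast_nonneg U) hUV _).trans (le_of_eq ?_)
      rw [hV, ← pow_mul]
      ring_nf
    have h2 : (U : ℝ) ^ (2 * n₁) * (l ^ B)⁻¹ ≤ X ^ n₁ := by
      refine (mul_le_mul_of_nonneg_right h1 (by positivity)).trans ?_
      rw [hXp, ← div_eq_mul_inv, div_le_iff₀ (by positivity), inv_mul_eq_div,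
        le_div_iff₀ (by positivity), ← pow_add]
      exact pow_le_pow_right₀ hl1 (by omega)
    have h3 : (U : ℝ) ^ (2 * n₁) * ((U : ℝ) ^ 2 / P) ≤ K * X ^ n₁ := by
      rw [hXp, ← div_eq_mul_inv, mul_div_assoc', div_le_div_iff₀ (by linarith) (by positivity)]
      calc (U : ℝ) ^ (2 * n₁) * (U : ℝ) ^ 2 * l ^ (n₁ * E) ≤ V ^ (2 * n₁ + 2) * l ^ (n₁ * E) := by
            rw [← pow_add]
            gcongr
        _ = l ^ ((2 * n₁ + 2) * D + n₁ * E) := by rw [hV, ← pow_mul, ← pow_add]; ring_nf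
        _ ≤ K * P := hbig _ (by omega)
    have h4 := mul_le_mul_of_nonneg_left h2 hk2
    rw [hc]
    calc (U : ℝ) ^ (2 * n₁) * (1 / (q : ℝ) + (U : ℝ) ^ 2 / P + q / (P : ℝ) ^ k)
        = (U : ℝ) ^ (2 * n₁) * (1 / (q : ℝ)) + (U : ℝ) ^ (2 * n₁) * ((U : ℝ) ^ 2 / P) +
            (U : ℝ) ^ (2 * n₁) * (q / (P : ℝ) ^ k) := by ring
      _ ≤ (U : ℝ) ^ (2 * n₁) * (l ^ B)⁻¹ + K * X ^ n₁ +
            (U : ℝ) ^ (2 * n₁) * (2 ^ k * (l ^ B)⁻¹) := by gcongr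
      _ ≤ _ := by
          have : 0 ≤ X ^ n₁ := by positivity
          have : 0 ≤ 2 ^ k * X ^ n₁ := by positivity
          linarith
  -- type II
  have t2 : powSaving k U q P ^ ((n₂ : ℝ)⁻¹) ≤ c * X := by
    refine hroots n₂ hn₂0 (powSaving_nonneg _ _ _ _) (by rw [hc]; linarith) ?_
    have h2 : (l ^ B)⁻¹ ≤ (l ^ D)⁻¹ :=
      inv_anti₀ (by positivity) (pow_le_pow_right₀ hl1 (by omega))
    have h3 : 1 / (U : ℝ) ≤ 2 * (l ^ D)⁻¹ := by
      rw [← hV, ← div_eq_mul_inv, div_le_div_iff₀ (by exact_mod_cast hU1) (by linarith), one_mul]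
      exact hVU
    have h4 := mul_le_mul_of_nonneg_left h2 hk2
    have h5 : 0 ≤ (K + 2 ^ k) * (l ^ D)⁻¹ := by positivity
    rw [powSaving, hXp, ← hD, hc]
    linarith
  refine (htw q a α ha hα P U hqP hU1).trans ?_
  have hfin : (l ^ e * X) * P ≤ (N : ℝ) ^ (1 / (k : ℝ)) / l ^ A := by
    rw [div_eq_mul_inv, mul_comm ((N : ℝ) ^ (1 / (k : ℝ)))]
    refine mul_le_mul ?_ hroot (Nat.cast_nonneg P) (by positivity)
    rw [hX, hE, ← div_eq_mul_inv, div_le_iff₀ (by positivity), pow_add,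
      inv_mul_cancel_left₀ (by positivity)]
  have hc0 : 0 ≤ c := by rw [hc]; linarith
  calc T * ((U : ℝ) + logOne P ^ e * P * ((U : ℝ) ^ 2 *
          (1 / (q : ℝ) + (U : ℝ) ^ 2 / P + q / (P : ℝ) ^ k) ^ ((n₁ : ℝ)⁻¹) +
          powSaving k U q P ^ ((n₂ : ℝ)⁻¹)))
      ≤ T * (K * P * X + (((k : ℝ) + 2) * l) ^ e * P * (c * X + c * X)) := by
        have := powSaving_nonneg k U q P
        gcongr
    _ ≤ (T * (K + ((k : ℝ) + 2) ^ e * (2 * c)) + 1) * ((l ^ e * X) * P) := by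
        have e0 : 0 ≤ X * P := by positivity
        have e1 := mul_le_mul_of_nonneg_left (le_mul_of_one_le_left e0 (one_le_pow₀ (n := e) hl1))
          (show 0 ≤ T * K by positivity)
        have e2 : 0 ≤ (l ^ e * X) * P := by positivity
        rw [mul_pow _ l e]
        linarith
    _ ≤ _ := mul_le_mul_of_nonneg_left hfin (by rw [hc]; positivity)

end FA.WaringGoldbach
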