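import Fermat.Agent.WaringGoldbach.CompleteSum
import Mathlib.Combinatorics.Additive.CauchyDavenport
import Fermat.Agent.WaringAsymptotic.Positivity

/-!
# The singular series for `k`-th powers of primes

`𝔖 (N) = ∑ A_q (N)` converges absolutely and uniformly in `N`. It is bounded below when
`N ≡ s` modulo `K (k) = ∏_{(p - 1) ∣ k} p ^ γ (p)`: for these primes `z = 1` solves the local
congruence, and for the others every residue is a sum of `s` powers of units (Cauchy and Davenport
modulo `p ∤ k`; two values, `1` and another, when `p ∣ k`, as `p ^ γ ≤ k² ≤ s`). The condition is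
necessary: `x ^ k ≡ 1` modulo `K (k)` for `x` prime to it.
-/

set_option autoImplicit false

noncomputable section

namespace FA.WaringGoldbach

open Finset FA.ThreePrimes Filter Topology
open scoped Pointwise

/-- The summand of `A_q (N)`. -/
def primeSummand (k s N q r : ℕ) : ℂ :=
  unitFactor k q r ^ s * eAdd (-((N : ℝ) * r / q))

/-- `A_q (N)`. -/
def primeTerm (k s N q : ℕ) : ℂ := ∑ r ∈ unitResidues q, primeSummand k s N q r

/-- The sum of the absolute values in `A_q (N)`. -/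
def primeAbs (k s q : ℕ) : ℝ := ∑ r ∈ unitResidues q, ‖unitFactor k q r‖ ^ s

/-- The singular series. -/
def primeSeries (k s N : ℕ) : ℝ := (∑' q, primeTerm k s N q).re

/-- The modulus of the necessary congruence. -/
def classModulus (k : ℕ) : ℕ :=
  ∏ p ∈ (range (k + 2)).filter (fun p => p.Prime ∧ (p - 1) ∣ k), p ^ localExp k p

variable {k s : ℕ}

theorem primeAbs_nonneg (k s q : ℕ) : 0 ≤ primeAbs k s q := sum_nonneg fun _ _ => by positivity

theorem norm_primeTerm_le (k s N q : ℕ) : ‖primeTerm k s N q‖ ≤ primeAbs k s q := by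
  refine (norm_sum_le _ _).trans (le_of_eq (sum_congr rfl fun r _ => ?_))
  rw [primeSummand, norm_mul, norm_pow, norm_eAdd, mul_one]

theorem primeTerm_zero (k s N : ℕ) : primeTerm k s N 0 = 0 := by simp [primeTerm, unitResidues]

theorem primeTerm_one (k s N : ℕ) : primeTerm k s N 1 = 1 := by
  simp [primeTerm, primeSummand, unitResidues, unitFactor, unitSum,
    show ∀ x : ℝ, x * 0 = 0 from mul_zero]

theorem primeAbs_one (k s : ℕ) : primeAbs k s 1 = 1 := by
  simp [primeAbs, unitResidues, unitFactor, unitSum]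

theorem unitFactor_crt (k : ℕ) {q₁ q₂ : ℕ} (hco : q₁.Coprime q₂) (h₁ : 0 < q₁) (h₂ : 0 < q₂)
    (r₁ r₂ : ℕ) : unitFactor k (q₁ * q₂) (WaringAsymptotic.crtResidue q₁ q₂ r₁ r₂ : ℕ) =
      unitFactor k q₁ r₁ * unitFactor k q₂ r₂ := by
  rw [unitFactor, unitFactor, unitFactor, unitSum_crt k hco h₁ h₂, Nat.totient_mul hco,
    Nat.cast_mul, mul_div_mul_comm]

theorem primeAbs_mul (k s : ℕ) {m n : ℕ} (h : m.Coprime n) :
    primeAbs k s (m * n) = primeAbs k s m * primeAbs k s n := by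
  classical
  rcases Nat.eq_zero_or_pos m with rfl | hm
  · simp [primeAbs, unitResidues]
  rcases Nat.eq_zero_or_pos n with rfl | hn
  · simp [primeAbs, unitResidues]
  obtain ⟨hinj, himg⟩ := HuaSquares.crtResidue_bijOn h
  rw [primeAbs, primeAbs, primeAbs, ← himg, sum_image hinj, sum_mul_sum, ← sum_product']
  refine sum_congr rfl fun z _ => ?_
  rw [unitFactor_crt k h hm hn, norm_mul, mul_pow]

theorem primeTerm_mul (k s N : ℕ) {m n : ℕ} (h : m.Coprime n) :
    primeTerm k s N (m * n) = primeTerm k s N m * primeTerm k s N n := by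
  classical
  rcases Nat.eq_zero_or_pos m with rfl | hm
  · simp [primeTerm, unitResidues]
  rcases Nat.eq_zero_or_pos n with rfl | hn
  · simp [primeTerm, unitResidues]
  obtain ⟨hinj, himg⟩ := HuaSquares.crtResidue_bijOn h
  rw [primeTerm, primeTerm, primeTerm, ← himg, sum_image hinj, sum_mul_sum, ← sum_product']
  refine sum_congr rfl fun z _ => ?_
  have e := HuaSquares.eAdd_crt_split hm hn z.1 z.2 (-(N : ℤ))
  push_cast at e
  rw [primeSummand, primeSummand, primeSummand, unitFactor_crt k h hm hn, mul_pow,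
    show -((N : ℝ) * (WaringAsymptotic.crtResidue m n z.1 z.2 : ℕ) / (m * n : ℕ)) =
      -(N : ℝ) * (WaringAsymptotic.crtResidue m n z.1 z.2 : ℕ) / ((m : ℝ) * n) by push_cast; ring,
    e, show -((N : ℝ) * z.1 / m) = -(N : ℝ) * z.1 / m by ring,
    show -((N : ℝ) * z.2 / n) = -(N : ℝ) * z.2 / n by ring]
  ring

/-- Only `p ^ l` with `l ≤ γ (p)` contribute. -/
theorem primeAbs_primePow_eq_zero (hk : 1 ≤ k) (hs : 1 ≤ s) {p l : ℕ} (hp : p.Prime)
    (hl : localExp k p < l) : primeAbs k s (p ^ l) = 0 := by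
  refine sum_eq_zero fun r hr => ?_
  rw [unitResidues, mem_filter] at hr
  rw [unitFactor, unitSum_primePow hk hp hl (a := (r : ℤ))
    (by rw [Int.cast_natCast]; exact (ZMod.isUnit_iff_coprime r _).2 hr.2.symm)]
  simp [zero_pow (show s ≠ 0 by omega)]

theorem primeTerm_primePow_eq_zero (hk : 1 ≤ k) (hs : 1 ≤ s) (N : ℕ) {p l : ℕ} (hp : p.Prime)
    (hl : localExp k p < l) : primeTerm k s N (p ^ l) = 0 :=
  norm_eq_zero.1 (le_antisymm ((norm_primeTerm_le k s N _).trans
    (primeAbs_primePow_eq_zero hk hs hp hl).le) (norm_nonneg _))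

theorem primeAbs_le (k s q : ℕ) : primeAbs k s q ≤ q := by
  refine (sum_le_card_nsmul (unitResidues q) (fun r => ‖unitFactor k q r‖ ^ s) 1
    fun r _ => pow_le_one₀ (norm_nonneg _) (norm_unitFactor_le_one k q r)).trans ?_
  rw [card_unitResidues, nsmul_eq_mul, mul_one]
  exact Nat.cast_le.2 (Nat.totient_le q)

theorem primeAbs_prime_le (hk : 1 ≤ k) (hs : 6 ≤ s) {p : ℕ} (hp : p.Prime) :
    primeAbs k s p ≤ (4 * (k : ℝ) + 2) ^ s * (p : ℝ) ^ (-2 : ℝ) := by
  have hp2 : (2 : ℝ) ≤ p := by exact_mod_cast hp.two_le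
  have hs0 : (0 : ℝ) < √(p : ℝ) := Real.sqrt_pos.2 (by linarith)
  refine (sum_le_card_nsmul _ _ (((4 * (k : ℝ) + 2) / √(p : ℝ)) ^ s) fun r hr => ?_).trans ?_
  · rw [unitResidues, mem_filter] at hr
    refine pow_le_pow_left₀ (norm_nonneg _) ?_ s
    have h := norm_unitSum_prime_le hk hp (a := (r : ℤ))
      (by rw [Int.cast_natCast]; exact (ZMod.isUnit_iff_coprime r _).2 hr.2.symm)
    rw [unitFactor, norm_div, Complex.norm_natCast, Nat.totient_prime hp,
      Nat.cast_sub hp.one_le, Nat.cast_one, div_le_div_iff₀ (by linarith) hs0]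
    have hss := Real.mul_self_sqrt (show (0 : ℝ) ≤ p by linarith)
    have h1 := mul_le_mul_of_nonneg_right h hs0.le
    rw [mul_assoc, hss] at h1
    have h2 := mul_le_mul_of_nonneg_left (show (p : ℝ) ≤ 2 * (p - 1) by linarith)
      (show (0 : ℝ) ≤ 2 * k + 1 by positivity)
    linarith
  · rw [nsmul_eq_mul, card_unitResidues, Nat.totient_prime hp, div_pow, mul_div_assoc',
      show (-2 : ℝ) = -((2 : ℕ) : ℝ) by norm_num, Real.rpow_neg (by linarith), Real.rpow_natCast,
      ← div_eq_mul_inv, div_le_div_iff₀ (by positivity) (by positivity)]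
    have hs1 : (1 : ℝ) ≤ √(p : ℝ) := Real.one_le_sqrt.2 (by linarith)
    have h3 : (p : ℝ) * (p : ℝ) ^ 2 ≤ √(p : ℝ) ^ s := by
      calc (p : ℝ) * (p : ℝ) ^ 2 = √(p : ℝ) ^ (2 * 3) := by
            rw [pow_mul, Real.sq_sqrt (by linarith)]; ring
        _ ≤ _ := pow_le_pow_right₀ hs1 (by omega)
    have h4 : ((p - 1 : ℕ) : ℝ) ≤ p := Nat.cast_le.2 (Nat.sub_le p 1)
    calc ((p - 1 : ℕ) : ℝ) * (4 * (k : ℝ) + 2) ^ s * (p : ℝ) ^ 2
        ≤ (p : ℝ) * (4 * (k : ℝ) + 2) ^ s * (p : ℝ) ^ 2 := by gcongr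
      _ = (4 * (k : ℝ) + 2) ^ s * ((p : ℝ) * (p : ℝ) ^ 2) := by ring
      _ ≤ _ := mul_le_mul_of_nonneg_left h3 (by positivity)

/-- The constant in `∑_l |A (p ^ l)| ≤ 1 + C / p²`. -/
def absConst (k s : ℕ) : ℝ := (4 * (k : ℝ) + 2) ^ s + (k : ℝ) ^ 8

theorem absConst_nonneg (k s : ℕ) : 0 ≤ absConst k s := by
  unfold absConst
  positivity

theorem tsum_primeAbs_primePow (hk : 1 ≤ k) (hs : 6 ≤ s) {p : ℕ} (hp : p.Prime) :
    Summable (fun l => ‖primeAbs k s (p ^ l)‖) ∧
      ∑' l, primeAbs k s (p ^ l) ≤ 1 + absConst k s * (p : ℝ) ^ (-2 : ℝ) := by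
  have h0 : ∀ l ∉ range (localExp k p + 1), primeAbs k s (p ^ l) = 0 := fun l hl => by
    rw [mem_range] at hl
    exact primeAbs_primePow_eq_zero hk (by omega) hp (by omega)
  refine ⟨summable_of_ne_finset_zero (s := range (localExp k p + 1)) fun l hl => by
    rw [h0 l hl, norm_zero], ?_⟩
  rw [tsum_eq_sum h0]
  have hp0 : (0 : ℝ) < p := Nat.cast_pos.2 hp.pos
  by_cases hpk : p ∣ k
  · have : Fact p.Prime := ⟨hp⟩
    have hpk' : p ≤ k := Nat.le_of_dvd (by omega) hpk
    have hγ : p ^ localExp k p ≤ k ^ 3 := by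
      rw [localExp, pow_add, show k ^ 3 = k * (k * k) by ring]
      refine Nat.mul_le_mul (Nat.le_of_dvd (by omega) pow_padicValNat_dvd) ?_
      split_ifs
      · rw [sq]; exact Nat.mul_le_mul hpk' hpk'
      · rw [pow_one]; exact hpk'.trans (Nat.le_mul_self k)
    have h1 : ∑ l ∈ range (localExp k p + 1), p ^ l ≤ k ^ 6 := by
      refine (sum_le_card_nsmul _ _ (p ^ localExp k p) fun l hl =>
        Nat.pow_le_pow_right hp.pos (Nat.lt_succ_iff.1 (mem_range.1 hl))).trans ?_
      rw [card_range, smul_eq_mul, show k ^ 6 = k ^ 3 * k ^ 3 by ring]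
      refine Nat.mul_le_mul (le_trans ?_ hγ) hγ
      exact Nat.lt_two_pow_self.trans_le (Nat.pow_le_pow_left hp.two_le _)
    refine (sum_le_sum fun l _ => primeAbs_le k s (p ^ l)).trans ?_
    have h2 : ((∑ l ∈ range (localExp k p + 1), p ^ l : ℕ) : ℝ) ≤ (k : ℝ) ^ 6 := by
      exact_mod_cast h1
    push_cast at h2 ⊢
    refine h2.trans ?_
    have h3 : (k : ℝ) ^ 6 ≤ (k : ℝ) ^ 8 * (p : ℝ) ^ (-2 : ℝ) := by
      rw [show (-2 : ℝ) = -((2 : ℕ) : ℝ) by norm_num, Real.rpow_neg hp0.le, Real.rpow_natCast,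
        ← div_eq_mul_inv, le_div_iff₀ (by positivity), pow_add (k : ℝ) 6 2]
      gcongr
    have h4 : 0 ≤ (4 * (k : ℝ) + 2) ^ s * (p : ℝ) ^ (-2 : ℝ) := by positivity
    rw [absConst, add_mul]
    linarith
  · rw [localExp_of_not_dvd hpk]
    simp only [sum_range_succ, range_zero, sum_empty, zero_add, pow_zero, pow_one, primeAbs_one]
    have h1 := primeAbs_prime_le hk hs hp
    have h2 : 0 ≤ (k : ℝ) ^ 8 * (p : ℝ) ^ (-2 : ℝ) := by positivity
    rw [absConst, add_mul]
    linarith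

theorem summable_primeAbs (hk : 1 ≤ k) (hs : 6 ≤ s) : Summable (primeAbs k s) := by
  obtain ⟨Z, hZ⟩ : ∃ Z : ℝ, Z = ∑' p : ℕ, absConst k s * (p : ℝ) ^ (-2 : ℝ) := ⟨_, rfl⟩
  have hb : Summable fun p : ℕ => absConst k s * (p : ℝ) ^ (-2 : ℝ) :=
    (Real.summable_nat_rpow.2 (by norm_num)).mul_left _
  refine summable_of_sum_range_le (c := Real.exp Z) (primeAbs_nonneg k s) fun n => ?_
  obtain ⟨hsm, hsum⟩ := EulerProduct.summable_and_hasSum_factoredNumbers_prod_filter_prime_tsum
    (primeAbs_one k s) (fun h => primeAbs_mul k s h)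
    (fun hp => (tsum_primeAbs_primePow hk hs hp).1) (range n)
  have h1 : ∑ q ∈ range n, primeAbs k s q ≤
      ∏ p ∈ range n with p.Prime, ∑' l, primeAbs k s (p ^ l) := by
    rw [← hsum.tsum_eq]
    classical
    calc ∑ q ∈ range n, primeAbs k s q
        = ∑ q ∈ (range n).filter (fun q => q ∈ Nat.factoredNumbers (range n)),
            primeAbs k s q := by
          refine (sum_filter_of_ne fun q hq hne => ?_).symm
          have hq0 : q ≠ 0 := fun h => hne (by simp [h, primeAbs, unitResidues])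
          rw [mem_range] at hq
          exact Nat.mem_factoredNumbers.2 ⟨hq0, fun p hp => mem_range.2
            (lt_of_le_of_lt (Nat.le_of_mem_primeFactorsList hp) hq)⟩
      _ = ∑ q ∈ (range n).subtype (fun q => q ∈ Nat.factoredNumbers (range n)),
            primeAbs k s q := (sum_subtype_eq_sum_filter _).symm
      _ ≤ _ := Summable.sum_le_tsum _ (fun i _ => primeAbs_nonneg k s _) hsum.summable
  refine h1.trans ?_
  calc ∏ p ∈ range n with p.Prime, ∑' l, primeAbs k s (p ^ l)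
      ≤ ∏ p ∈ range n with p.Prime, Real.exp (absConst k s * (p : ℝ) ^ (-2 : ℝ)) :=
        prod_le_prod (fun p _ => tsum_nonneg fun l => primeAbs_nonneg k s _) fun p hp =>
          ((tsum_primeAbs_primePow hk hs (mem_filter.1 hp).2).2.trans
            (by linarith [Real.add_one_le_exp (absConst k s * (p : ℝ) ^ (-2 : ℝ))]))
    _ = Real.exp (∑ p ∈ range n with p.Prime, absConst k s * (p : ℝ) ^ (-2 : ℝ)) :=
        (Real.exp_sum _ _).symm
    _ ≤ _ := Real.exp_le_exp.2 (hZ ▸ hb.sum_le_tsum _ fun p _ =>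
        mul_nonneg (absConst_nonneg k s) (by positivity))

theorem summable_primeTerm (hk : 1 ≤ k) (hs : 6 ≤ s) (N : ℕ) :
    Summable fun q => ‖primeTerm k s N q‖ :=
  Summable.of_nonneg_of_le (fun _ => norm_nonneg _) (norm_primeTerm_le k s N)
    (summable_primeAbs hk hs)

/-- **The tail**, uniform in `N`. -/
theorem exists_primeSeries_tail (hk : 1 ≤ k) (hs : 6 ≤ s) {ε : ℝ} (hε : 0 < ε) :
    ∃ Q₀ : ℕ, ∀ Q, Q₀ ≤ Q → ∀ N,
      ‖∑ q ∈ Icc 1 Q, primeTerm k s N q - ∑' q, primeTerm k s N q‖ ≤ ε := by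
  obtain ⟨Q₀, hQ₀⟩ := eventually_atTop.1 ((tendsto_sum_nat_add (primeAbs k s)).eventually
    (eventually_le_nhds hε))
  refine ⟨Q₀, fun Q hQ N => ?_⟩
  have hsm := (summable_primeTerm hk hs N).of_norm
  have e : ∑ q ∈ Icc 1 Q, primeTerm k s N q = ∑ q ∈ range (Q + 1), primeTerm k s N q := by
    refine sum_subset (fun q hq => mem_range.2 (by rw [mem_Icc] at hq; omega)) fun q hq hq' => ?_
    rw [mem_range] at hq
    rw [mem_Icc] at hq'
    rw [show q = 0 by omega, primeTerm_zero]
  rw [e, ← hsm.sum_add_tsum_nat_add (Q + 1), sub_add_cancel_left, norm_neg]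
  exact (tsum_of_norm_bounded ((summable_nat_add_iff (Q + 1)).2 (summable_primeAbs hk hs)).hasSum
    fun i => norm_primeTerm_le k s N _).trans (hQ₀ (Q + 1) (by omega))

/-! ### The local factors -/

/-- `∑_{r mod q}` of the summands is `q T / φ q ^ s`, `T` the number of solutions in units. -/
theorem sum_primeSummand_eq (k s N : ℕ) {q : ℕ} (hq : 0 < q) :
    ∑ r ∈ range q, primeSummand k s N q r = (((q : ℝ) *
      ((Fintype.piFinset fun _ : Fin s => unitResidues q).filter
        fun z => (q : ℤ) ∣ ((∑ i, z i ^ k : ℕ) : ℤ) - N).card / (q.totient : ℝ) ^ s : ℝ) : ℂ) := by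
  have e : ∀ r ∈ range q, primeSummand k s N q r =
      (∑ z ∈ Fintype.piFinset (fun _ : Fin s => unitResidues q),
        eAdd (((((∑ i, z i ^ k : ℕ) : ℤ) - N : ℤ) : ℝ) * r / q)) / (q.totient : ℂ) ^ s := by
    intro r _
    rw [primeSummand, unitFactor, div_pow, div_mul_eq_mul_div]
    congr 1
    have h := WaringAsymptotic.sum_eAdd_pow (unitResidues q) (fun _ => 1) (fun x => x ^ k) s
      ((r : ℝ) / q)
    simp only [one_mul, prod_const_one] at h
    rw [unitSum, show ∑ x ∈ unitResidues q, eAdd (((r : ℕ) : ℤ) * (x : ℝ) ^ k / q) =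
      ∑ i ∈ unitResidues q, eAdd ((i ^ k : ℕ) * ((r : ℝ) / q)) from sum_congr rfl fun x _ => by
        push_cast; ring_nf, h, sum_mul]
    refine sum_congr rfl fun z _ => ?_
    rw [← eAdd_add]
    push_cast
    ring_nf
  rw [sum_congr rfl e, ← sum_div]
  simp only [Complex.ofReal_div, Complex.ofReal_mul, Complex.ofReal_pow, Complex.ofReal_natCast]
  congr 1
  rw [sum_comm, card_filter, Nat.cast_sum, mul_sum]
  refine sum_congr rfl fun z _ => ?_
  rw [sum_eAdd_grid hq]
  split_ifs <;> simp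

theorem primeSummand_zero (k s N : ℕ) {q : ℕ} (hq : 0 < q) : primeSummand k s N q 0 = 1 := by
  have hφ : (q.totient : ℂ) ≠ 0 := Nat.cast_ne_zero.2 (Nat.totient_pos.2 hq).ne'
  rw [primeSummand, unitFactor, unitSum]
  simp [card_unitResidues, hφ]

theorem sum_primeSummand_primePow {p : ℕ} (hp : p.Prime) (k s N : ℕ) : ∀ L : ℕ,
    ∑ r ∈ range (p ^ L), primeSummand k s N (p ^ L) r =
      ∑ l ∈ range (L + 1), primeTerm k s N (p ^ l)
  | 0 => by simp [primeSummand_zero, primeTerm_one]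
  | L + 1 => by
    rw [sum_range_succ _ (L + 1), ← sum_primeSummand_primePow hp k s N L,
      ← sum_filter_add_sum_filter_not (range (p ^ (L + 1))) (fun r => p ∣ r)]
    congr 1
    · have hp0 : 0 < p := hp.pos
      refine sum_nbij' (fun r => r / p) (fun b => p * b) (fun r hr => ?_) (fun b hb => ?_)
        (fun r hr => Nat.mul_div_cancel' (mem_filter.1 hr).2)
        (fun b _ => Nat.mul_div_cancel_left b hp0) fun r hr => ?_
      · rw [mem_range, Nat.div_lt_iff_lt_mul hp0, ← pow_succ]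
        exact mem_range.1 (mem_filter.1 hr).1
      · rw [mem_filter, mem_range, pow_succ']
        exact ⟨Nat.mul_lt_mul_of_pos_left (mem_range.1 hb) hp0, dvd_mul_right p b⟩
      · obtain ⟨hr1, b, rfl⟩ := mem_filter.1 hr
        rw [Nat.mul_div_cancel_left b hp0]
        rcases Nat.eq_zero_or_pos L with rfl | hL
        · rw [mem_range, zero_add, pow_one] at hr1
          have hb0 : b = 0 := by
            rcases Nat.eq_zero_or_pos b with h | h
            · exact h
            · have := Nat.le_mul_of_pos_right p h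
              omega
          subst hb0
          rw [mul_zero, primeSummand_zero _ _ _ (pow_pos hp0 _),
            primeSummand_zero _ _ _ (pow_pos hp0 _)]
        obtain ⟨m, rfl⟩ : ∃ m, L = m + 1 := ⟨L - 1, by omega⟩
        have hpc : (p : ℂ) ≠ 0 := Nat.cast_ne_zero.2 hp0.ne'
        rw [primeSummand, primeSummand, unitFactor, unitFactor, Nat.cast_mul p b,
          unitSum_mul_left hp (m + 1) (by omega), Nat.totient_prime_pow_succ hp,
          Nat.totient_prime_pow_succ hp]
        congr 1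
        · congr 1
          rw [pow_succ' p m]
          push_cast
          rw [mul_assoc, mul_div_mul_left _ _ hpc]
        · congr 1
          have hpr : (p : ℝ) ≠ 0 := Nat.cast_ne_zero.2 hp0.ne'
          rw [pow_succ' p (m + 1)]
          push_cast
          field_simp
    · rw [primeTerm, unitResidues]
      refine sum_congr (filter_congr fun r _ => ?_) fun r _ => rfl
      rw [Nat.coprime_pow_left_iff L.succ_pos, ← hp.coprime_iff_not_dvd]

/-- The local factor. -/
def primeDensity (k s N p : ℕ) : ℂ := ∑' l, primeTerm k s N (p ^ l)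

theorem primeDensity_eq (hk : 1 ≤ k) (hs : 1 ≤ s) (N : ℕ) {p : ℕ} (hp : p.Prime) :
    primeDensity k s N p = ∑ l ∈ range (localExp k p + 1), primeTerm k s N (p ^ l) := by
  refine tsum_eq_sum fun l hl => ?_
  rw [mem_range] at hl
  exact primeTerm_primePow_eq_zero hk hs N hp (by omega)

/-- The sums of `i` powers of units. -/
def powSums (p k : ℕ) [NeZero p] : ℕ → Finset (ZMod p)
  | 0 => {0}
  | i + 1 => ((univ : Finset (ZMod p)).filter fun x => x ≠ 0).image (fun x => x ^ k) + powSums p k i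

theorem exists_of_mem_powSums {p : ℕ} [NeZero p] : ∀ {i : ℕ} {n : ZMod p}, n ∈ powSums p k i →
    ∃ x : Fin i → ZMod p, (∀ l, x l ≠ 0) ∧ ∑ l, x l ^ k = n
  | 0, n, hn => ⟨fun i => 0, fun i => i.elim0, by simpa [powSums, eq_comm] using hn⟩
  | i + 1, n, hn => by
    rw [powSums, Finset.mem_add] at hn
    obtain ⟨a, ha, b, hb, rfl⟩ := hn
    obtain ⟨x, hx, rfl⟩ := mem_image.1 ha
    obtain ⟨y, hy, rfl⟩ := exists_of_mem_powSums hb
    exact ⟨Fin.cons x y, Fin.cases (by simpa using hx) (by simpa using hy),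
      by simp [Fin.sum_univ_succ]⟩

/-- A unit whose power is not one. -/
theorem exists_pow_ne_one {p : ℕ} (hp : p.Prime) (hk : ¬(p - 1) ∣ k) :
    ∃ y : ℕ, y < p ∧ ¬p ∣ y ∧ (y : ZMod p) ^ k ≠ 1 := by
  have : Fact p.Prime := ⟨hp⟩
  have h : ¬∀ x : (ZMod p)ˣ, x ^ k = 1 := fun h => hk (by
    simpa [ZMod.card] using (FiniteField.forall_pow_eq_one_iff (ZMod p) k).1 h)
  push Not at h
  obtain ⟨x, hx⟩ := h
  refine ⟨(x : ZMod p).val, ZMod.val_lt _, ?_, ?_⟩
  · rw [← ZMod.natCast_eq_zero_iff, ZMod.natCast_zmod_val]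
    exact x.ne_zero
  · rw [ZMod.natCast_zmod_val]
    exact fun h => hx (Units.ext (by simpa using h))

theorem exists_solution_prime (hks : 2 * k ≤ s) (hk : 1 ≤ k) {p : ℕ} (hp : p.Prime)
    (hpk : ¬(p - 1) ∣ k) (n : ZMod p) :
    ∃ x : Fin s → ZMod p, (∀ i, x i ≠ 0) ∧ ∑ i, x i ^ k = n := by
  classical
  have : Fact p.Prime := ⟨hp⟩
  refine exists_of_mem_powSums ?_
  obtain ⟨A, hA⟩ : ∃ A,
      A = ((univ : Finset (ZMod p)).filter fun x => x ≠ 0).image (fun x => x ^ k) := ⟨_, rfl⟩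
  have hAk : p - 1 ≤ k * A.card := by
    refine le_trans (le_of_eq ?_) (card_le_mul_card_image (n := k)
      ((univ : Finset (ZMod p)).filter fun x => x ≠ 0) (f := fun x => x ^ k) fun b _ => ?_) |>.trans
      (le_of_eq (by rw [hA]))
    · rw [filter_ne', card_erase_of_mem (mem_univ _), card_univ, ZMod.card]
    · exact (card_le_card (filter_subset_filter _ (filter_subset _ _))).trans
        (WaringAsymptotic.card_pow_eq_le (by omega) b)
  have hA2 : 2 ≤ A.card := by
    obtain ⟨y, -, hy, hy1⟩ := exists_pow_ne_one hp hpk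
    refine one_lt_card.2 ⟨(y : ZMod p) ^ k, ?_, 1, ?_, hy1⟩
    · rw [hA]
      exact mem_image_of_mem _ (mem_filter.2 ⟨mem_univ _,
        fun h => hy ((ZMod.natCast_eq_zero_iff _ _).1 h)⟩)
    · rw [hA]
      exact mem_image.2 ⟨1, mem_filter.2 ⟨mem_univ _, one_ne_zero⟩, one_pow k⟩
  have hAne : A.Nonempty := card_pos.1 (by omega)
  have key : ∀ i, min p (i * (A.card - 1) + 1) ≤ (powSums p k i).card ∧
      (powSums p k i).Nonempty := by
    intro i
    induction i with
    | zero => simp [powSums]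
    | succ i ih =>
      have hne : (powSums p k (i + 1)).Nonempty := by
        rw [powSums, ← hA]
        exact hAne.add ih.2
      refine ⟨?_, hne⟩
      have h := ZMod.cauchy_davenport hp hAne ih.2
      rw [powSums, ← hA, Nat.succ_mul]
      have := hAne.card_pos
      omega
  have hfull : powSums p k s = univ := by
    refine eq_univ_of_card _ ?_
    rw [ZMod.card]
    have := (key s).1
    have h1 : (powSums p k s).card ≤ p := by
      simpa using card_le_univ (powSums p k s)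
    have h2 : k * A.card ≤ 2 * k * (A.card - 1) := by
      rw [mul_comm 2 k, mul_assoc]
      exact Nat.mul_le_mul_left k (by omega)
    have h3 : 2 * k * (A.card - 1) ≤ s * (A.card - 1) := Nat.mul_le_mul_right _ hks
    omega
  exact hfull ▸ mem_univ n

/-- **The local congruences are soluble.** -/
theorem exists_solution (hk : 2 ≤ k) (hs : k * (k + 1) < s) (N : ℕ) {p : ℕ} (hp : p.Prime)
    (hN : (p - 1) ∣ k → N ≡ s [MOD p ^ localExp k p]) :
    ∃ z : Fin s → ℕ, (∀ i, z i ∈ unitResidues (p ^ localExp k p)) ∧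
      ((p ^ localExp k p : ℕ) : ℤ) ∣ ((∑ i, z i ^ k : ℕ) : ℤ) - N := by
  obtain ⟨q, hq⟩ : ∃ q, q = p ^ localExp k p := ⟨_, rfl⟩
  have hγ := one_le_localExp k p
  have hq1 : 1 < q := hq ▸ Nat.one_lt_pow (by omega) hp.one_lt
  have hone : (1 : ℕ) ∈ unitResidues q := by
    rw [unitResidues, mem_filter, mem_range]
    exact ⟨hq1, Nat.coprime_one_right q⟩
  rw [← hq] at hN ⊢
  by_cases hd : (p - 1) ∣ k
  · refine ⟨fun _ => 1, fun i => hone, ?_⟩
    simpa using Nat.modEq_iff_dvd.1 (hN hd)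
  have hkk : k * (k + 1) = k * k + k := by ring
  by_cases hpk : p ∣ k
  · have : Fact p.Prime := ⟨hp⟩
    have hp2 : p ≠ 2 := by
      rintro rfl
      exact hd (one_dvd k)
    have hqk : q ≤ k * k := by
      rw [hq, localExp, if_neg (fun h => hp2 h.1), pow_succ]
      exact Nat.mul_le_mul (Nat.le_of_dvd (by omega) pow_padicValNat_dvd)
        (Nat.le_of_dvd (by omega) hpk)
    have : NeZero q := ⟨by omega⟩
    obtain ⟨y, hy, hpy, hy1⟩ := exists_pow_ne_one hp hd
    have hyq : y ∈ unitResidues q := by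
      rw [unitResidues, mem_filter, mem_range, hq, Nat.coprime_pow_left_iff (by omega),
        hp.coprime_iff_not_dvd]
      exact ⟨lt_of_lt_of_le hy (Nat.le_self_pow (by omega) p), hpy⟩
    obtain ⟨c, hc⟩ : ∃ c : ZMod q, c = (y : ZMod q) ^ k - 1 := ⟨_, rfl⟩
    have hcu : IsUnit c := by
      have h : IsUnit (((y : ℤ) ^ k - 1 : ℤ) : ZMod q) := by
        rw [ZMod.coe_int_isUnit_iff_isCoprime, hq, Nat.cast_pow]
        refine IsCoprime.pow_left ?_
        rw [(Nat.prime_iff_prime_int.1 hp).coprime_iff_not_dvd,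
          ← ZMod.intCast_zmod_eq_zero_iff_dvd]
        push_cast
        exact sub_ne_zero.2 hy1
      push_cast at h
      rwa [hc]
    obtain ⟨i, hi⟩ : ∃ i, i = (((N : ZMod q) - s) * ↑hcu.unit⁻¹ : ZMod q).val := ⟨_, rfl⟩
    have his : i ≤ s := by
      have := ZMod.val_lt ((((N : ZMod q) - s) * ↑hcu.unit⁻¹ : ZMod q))
      rw [hi]
      omega
    refine ⟨fun l => if l.val < i then y else 1, fun l => ?_, ?_⟩
    · dsimp only
      split_ifs
      · exact hyq
      · exact hone
    · rw [← ZMod.intCast_zmod_eq_zero_iff_dvd]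
      push_cast
      have h1 : ∑ l : Fin s, (((if l.val < i then y else 1 : ℕ) : ZMod q)) ^ k =
          (i : ZMod q) * (y : ZMod q) ^ k + ((s : ZMod q) - i) := by
        rw [Fin.sum_univ_eq_sum_range (fun l => (((if l < i then y else 1 : ℕ) : ZMod q)) ^ k),
          ← sum_range_add_sum_Ico _ his,
          sum_congr rfl (g := fun _ => (y : ZMod q) ^ k) fun l hl => by
            rw [if_pos (mem_range.1 hl)],
          sum_congr (s₁ := Ico i s) rfl (g := fun _ => (1 : ZMod q)) fun l hl => by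
            simp [not_lt.2 (mem_Ico.1 hl).1]]
        simp [Nat.cast_sub his]
      push_cast at h1
      rw [h1, hi, ZMod.natCast_zmod_val]
      have h2 := hcu.mul_val_inv
      linear_combination ((N : ZMod q) - s) * h2 -
        ((N : ZMod q) - s) * ↑hcu.unit⁻¹ * hc
  · rw [localExp_of_not_dvd hpk, pow_one] at hq
    rw [hq]
    have : NeZero p := ⟨hp.ne_zero⟩
    obtain ⟨x, hx0, hx⟩ := exists_solution_prime (s := s) (k := k)
      (by have : 1 * k ≤ k * k := Nat.mul_le_mul_right k (by omega); omega) (by omega) hp hd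
      (N : ZMod p)
    refine ⟨fun i => (x i).val, fun i => ?_, ?_⟩
    · rw [unitResidues, mem_filter, mem_range, hp.coprime_iff_not_dvd]
      refine ⟨ZMod.val_lt _, fun hd => hx0 i ?_⟩
      rw [← ZMod.natCast_zmod_val (x i), ZMod.natCast_eq_zero_iff]
      exact hd
    · rw [← ZMod.intCast_zmod_eq_zero_iff_dvd]
      push_cast
      simp [hx]

/-- The local factors. -/
theorem primeDensity_spec (hk : 2 ≤ k) (hs : k * (k + 1) < s) (N : ℕ) {p : ℕ} (hp : p.Prime)
    (hN : (p - 1) ∣ k → N ≡ s [MOD p ^ localExp k p]) :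
    ∃ v : ℝ, primeDensity k s N p = v ∧
      ((p ^ localExp k p : ℕ) : ℝ) / ((p ^ localExp k p).totient : ℝ) ^ s ≤ v ∧
      1 - absConst k s * (p : ℝ) ^ (-2 : ℝ) ≤ v := by
  have hs6 : 6 ≤ s := by
    have : 2 * 3 ≤ k * (k + 1) := Nat.mul_le_mul hk (by omega)
    omega
  obtain ⟨z, hz, hzN⟩ := exists_solution hk hs N hp hN
  have e := (primeDensity_eq (by omega) (by omega) N hp).trans
    ((sum_primeSummand_primePow hp k s N (localExp k p)).symm.trans
      (sum_primeSummand_eq k s N (pow_pos hp.pos _)))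
  refine ⟨_, e, div_le_div_of_nonneg_right (le_mul_of_one_le_right (Nat.cast_nonneg _) ?_)
    (by positivity), ?_⟩
  · rw [Nat.one_le_cast, Finset.one_le_card]
    exact ⟨z, mem_filter.2 ⟨Fintype.mem_piFinset.2 hz, hzN⟩⟩
  · have h1 := congrArg Complex.re ((primeDensity_eq (by omega) (by omega) N hp).symm.trans e)
    simp only [Complex.re_sum, Complex.ofReal_re] at h1
    rw [sum_range_succ', pow_zero, primeTerm_one, Complex.one_re] at h1
    have b3 := (tsum_primeAbs_primePow (k := k) (s := s) (by omega) hs6 hp).2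
    rw [tsum_eq_sum (s := range (localExp k p + 1)) fun l hl => by
      rw [mem_range] at hl
      exact primeAbs_primePow_eq_zero (by omega) (by omega) hp (by omega),
      sum_range_succ', pow_zero, primeAbs_one] at b3
    have b4 : -∑ l ∈ range (localExp k p), primeAbs k s (p ^ (l + 1)) ≤
        ∑ l ∈ range (localExp k p), (primeTerm k s N (p ^ (l + 1))).re := by
      rw [← sum_neg_distrib]
      exact sum_le_sum fun l _ =>
        (abs_le.1 ((Complex.abs_re_le_norm _).trans (norm_primeTerm_le k s N _))).1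
    linarith

theorem dvd_classModulus (hk : 1 ≤ k) {p : ℕ} (hp : p.Prime) (hd : (p - 1) ∣ k) :
    p ^ localExp k p ∣ classModulus k := by
  refine dvd_prod_of_mem _ (mem_filter.2 ⟨mem_range.2 ?_, hp, hd⟩)
  have := Nat.le_of_dvd (by omega) hd
  omega

/-- **The singular series is bounded below.** -/
theorem exists_primeSeries_pos (hk : 2 ≤ k) (hs : k * (k + 1) < s) : ∃ c : ℝ, 0 < c ∧
    ∀ N, N ≡ s [MOD classModulus k] → c ≤ primeSeries k s N := by
  have hs6 : 6 ≤ s := by
    have : 2 * 3 ≤ k * (k + 1) := Nat.mul_le_mul hk (by omega)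
    omega
  obtain ⟨a, ha⟩ : ∃ a : ℕ → ℝ, a = fun p : ℕ => absConst k s * (p : ℝ) ^ (-2 : ℝ) := ⟨_, rfl⟩
  have hasum : Summable a := ha ▸ (Real.summable_nat_rpow.2 (by norm_num)).mul_left _
  have ha0 : ∀ p, 0 ≤ a p := fun p => by
    rw [ha]; exact mul_nonneg (absConst_nonneg k s) (by positivity)
  obtain ⟨p₀, hp₀⟩ := ((tendsto_sum_nat_add a).eventually
    (eventually_le_nhds (show (0 : ℝ) < 1 / 2 by norm_num))).exists
  obtain ⟨m, hm⟩ : ∃ m : ℕ → ℝ, m = fun p : ℕ =>
      ((p ^ localExp k p : ℕ) : ℝ) / ((p ^ localExp k p).totient : ℝ) ^ s := ⟨_, rfl⟩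
  have hm0 : ∀ p ∈ Nat.primesBelow p₀, 0 < m p := fun p hp => by
    have h1 := pow_pos (Nat.mem_primesBelow.1 hp).2.pos (localExp k p)
    have h2 := Nat.totient_pos.2 h1
    rw [hm]
    exact div_pos (Nat.cast_pos.2 h1) (pow_pos (Nat.cast_pos.2 h2) s)
  refine ⟨(∏ p ∈ Nat.primesBelow p₀, m p) * (1 / 2), mul_pos (prod_pos hm0) (by norm_num),
    fun N hN => ?_⟩
  have hE := EulerProduct.eulerProduct (f := primeTerm k s N) (primeTerm_one k s N)
    (fun h => primeTerm_mul k s N h) (summable_primeTerm (by omega) hs6 N) (primeTerm_zero k s N)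
  refine ge_of_tendsto ((Complex.continuous_re.tendsto _).comp hE)
    (eventually_atTop.2 ⟨p₀, fun n hn => ?_⟩)
  obtain ⟨S, hS⟩ : ∃ S, S = Nat.primesBelow n := ⟨_, rfl⟩
  obtain ⟨d, hd⟩ : ∃ d : ℕ → ℝ, d = fun p => (primeDensity k s N p).re := ⟨_, rfl⟩
  have hspec : ∀ p, p.Prime → primeDensity k s N p = (d p : ℂ) ∧ m p ≤ d p ∧ 1 - a p ≤ d p := by
    intro p hp
    obtain ⟨v, hv, h1, h2⟩ := primeDensity_spec hk hs N hp
      fun h => Nat.ModEq.of_dvd (dvd_classModulus (by omega) hp h) hN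
    have : d p = v := by rw [hd]; simp [hv]
    rw [this, hm, ha]
    exact ⟨hv, h1, h2⟩
  have hreal : ∏ p ∈ S, ∑' e, primeTerm k s N (p ^ e) = ((∏ p ∈ S, d p : ℝ) : ℂ) := by
    rw [Complex.ofReal_prod]
    exact prod_congr rfl fun p hp => (hspec p (Nat.mem_primesBelow.1 (hS ▸ hp)).2).1
  simp only [Function.comp, ← hS, hreal, Complex.ofReal_re]
  have hlow : S.filter (fun p => p < p₀) = Nat.primesBelow p₀ := by
    ext p
    simp only [hS, mem_filter, Nat.mem_primesBelow]
    exact ⟨fun h => ⟨h.2, h.1.2⟩, fun h => ⟨⟨h.1.trans_le hn, h.2⟩, h.1⟩⟩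
  rw [← prod_filter_mul_prod_filter_not S (fun p => p < p₀), hlow]
  have hsum : ∑ p ∈ S.filter (fun p => ¬p < p₀), a p ≤ 1 / 2 := by
    refine le_trans ?_ hp₀
    refine (sum_le_sum_of_subset_of_nonneg (t := Ico p₀ n) (fun p hp => ?_)
      fun p _ _ => ha0 p).trans ?_
    · rw [hS, mem_filter, Nat.mem_primesBelow] at hp
      exact mem_Ico.2 ⟨not_lt.1 hp.2, hp.1.1⟩
    · rw [sum_Ico_eq_sum_range]
      simp only [add_comm p₀]
      exact ((summable_nat_add_iff p₀).2 hasum).sum_le_tsum _ fun i _ => ha0 _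
  refine mul_le_mul (prod_le_prod (fun p hp => (hm0 p hp).le)
    fun p hp => (hspec p (Nat.mem_primesBelow.1 hp).2).2.1) ?_ (by norm_num)
    (prod_nonneg fun p hp =>
      le_trans (hm0 p hp).le (hspec p (Nat.mem_primesBelow.1 hp).2).2.1)
  have hle1 : ∀ p ∈ S.filter (fun p => ¬p < p₀), a p ≤ 1 := fun p hp =>
    ((single_le_sum (fun q _ => ha0 q) hp).trans hsum).trans (by norm_num)
  refine le_trans (by linarith) ((WaringAsymptotic.one_sub_sum_le_prod _ a (fun p _ => ha0 p)
    hle1).trans (prod_le_prod (fun p hp => sub_nonneg.2 (hle1 p hp)) fun p hp => ?_))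
  exact (hspec p (Nat.mem_primesBelow.1 (hS ▸ (mem_filter.1 hp).1)).2).2.2

/-! ### The congruence is necessary -/

/-- **`x ^ k ≡ 1` modulo `K (k)`.** -/
theorem pow_modEq_one_classModulus (hk : 1 ≤ k) {x : ℕ} (hx : x.Coprime (classModulus k)) :
    x ^ k ≡ 1 [MOD classModulus k] := by
  rw [Nat.ModEq.comm, Nat.modEq_iff_dvd, classModulus, Nat.cast_prod]
  refine prod_dvd_of_coprime (fun p hp q hq hne => ?_) fun p hp => ?_
  · rw [mem_coe, mem_filter] at hp hq
    show IsCoprime ((p ^ localExp k p : ℕ) : ℤ) ((q ^ localExp k q : ℕ) : ℤ)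
    rw [Int.isCoprime_iff_nat_coprime]
    exact ((Nat.coprime_primes hp.2.1 hq.2.1).2 hne).pow _ _
  · obtain ⟨hp1, hp, hd⟩ := mem_filter.1 hp
    have : Fact p.Prime := ⟨hp⟩
    have hpx : ¬p ∣ x := fun h => hp.one_lt.ne' (Nat.eq_one_of_dvd_coprimes hx h
      (dvd_trans (dvd_pow_self p (by have := one_le_localExp k p; omega))
        (dvd_classModulus hk hp hd)))
    rw [← Nat.modEq_iff_dvd, Nat.ModEq.comm, localExp]
    have hτ : p ^ padicValNat p k ∣ k := pow_padicValNat_dvd
    split_ifs with h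
    · obtain ⟨rfl, hk2⟩ := h
      obtain ⟨m, e, he, hxe⟩ : ∃ m e : ℤ, (e = 1 ∨ e = -1) ∧ (x : ℤ) = 2 ^ 2 * m + e := by
        rcases (show x % 4 = 1 ∨ x % 4 = 3 by omega) with h4 | h4
        · exact ⟨((x / 4 : ℕ) : ℤ), 1, Or.inl rfl, by omega⟩
        · exact ⟨((x / 4 : ℕ) : ℤ) + 1, -1, Or.inr rfl, by omega⟩
      have h1 := WaringAsymptotic.pow_add_congr hp hk hτ (show 1 ≤ 2 by norm_num)
        (Or.inr (Or.inr le_rfl)) e m
      rw [Nat.ModEq.comm, Nat.modEq_iff_dvd]
      push_cast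
      have hek : e ^ k = 1 := by
        rcases he with rfl | rfl
        · exact one_pow k
        · exact (even_iff_two_dvd.2 hk2).neg_one_pow
      have h2 : (2 : ℤ) ^ (padicValNat 2 k + 2) ∣ (k : ℤ) * e ^ (k - 1) * (4 * m) := by
        obtain ⟨w, hw⟩ := hτ
        rw [show (k : ℤ) = (2 : ℤ) ^ padicValNat 2 k * w by exact_mod_cast hw, pow_add]
        exact ⟨(w : ℤ) * e ^ (k - 1) * m, by ring⟩
      push_cast at h1
      rw [show (4 : ℤ) * m + e = x by linarith] at h1
      have h3 : (2 : ℤ) ^ (padicValNat 2 k + 2) ∣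
          (x : ℤ) ^ k - (e ^ k + (k : ℤ) * e ^ (k - 1) * (4 * m)) :=
        (pow_dvd_pow 2 (by omega)).trans h1
      have h4 := dvd_add h3 h2
      rw [hek] at h4
      rw [show ∀ A B : ℤ, A - (1 + B) + B = A - 1 from fun A B => by ring] at h4
      exact h4
    · have hφ : (p ^ (padicValNat p k + 1)).totient ∣ k := by
        rw [Nat.totient_prime_pow_succ hp]
        refine Nat.Coprime.mul_dvd_of_dvd_of_dvd (Nat.Coprime.pow_left _ ?_) hτ hd
        rw [hp.coprime_iff_not_dvd]
        intro h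
        rcases Nat.eq_zero_or_pos (p - 1) with h0 | h0
        · have := hp.two_le
          omega
        · have := Nat.le_of_dvd h0 h
          omega
      obtain ⟨w, hw⟩ := hφ
      have := (Nat.ModEq.pow_totient ((hp.coprime_iff_not_dvd.2 hpx).symm.pow_right
        (padicValNat p k + 1))).pow w
      rw [← pow_mul, one_pow, ← hw] at this
      exact this

end FA.WaringGoldbach
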