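import Fermat.Agent.HuaCubes.Moment
import Fermat.Agent.WaringGoldbach.Major
import Fermat.Agent.WaringGoldbach.Moment
import Fermat.Agent.WaringGoldbach.Singular

/-!
# The circle method for `k`-th powers of primes

With major arcs `q ≤ R = (log P) ^ K`, `|α - a/q| ≤ R/N` and the moment above the critical exponent
on the minor arcs, the weighted number of representations of `N` by `s ≥ k² + k + 3` powers is
`J (N) ∑_{q ≤ R} A_q (N) + O (N ^ (s/k - 1) / log P)`.
-/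

set_option autoImplicit false

noncomputable section

namespace FA.WaringGoldbach

open Finset FA.ThreePrimes ArithmeticFunction
open scoped Real

/-- The weighted representations of `N` by `s` powers. -/
def primeRep (k s : ℕ) (f : ℕ → ℝ) (N : ℕ) : ℝ :=
  ∑ z ∈ (Fintype.piFinset fun _ : Fin s => Icc 1 N).filter (fun z => ∑ i, z i ^ k = N),
    ∏ i, f (z i)

theorem sum_grid_primeRep {k s : ℕ} (f : ℕ → ℝ) {N M P : ℕ} (hk : 1 ≤ k) (hs : 2 ≤ s) (hN : 1 ≤ N)
    (hM : M = s * N) (hPN : P ^ k ≤ N) (hNP : N < (P + 1) ^ k) :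
    ∑ h ∈ range M, powTwist k ((h : ℝ) / M) f P ^ s * eAdd (-((N : ℝ) * ((h : ℝ) / M))) =
      (M : ℂ) * primeRep k s f N := by
  have h2 : 2 * N ≤ M := hM ▸ Nat.mul_le_mul_right N hs
  have hsP : s * P ^ k ≤ M := hM ▸ Nat.mul_le_mul_left s hPN
  have hg := WaringAsymptotic.sum_pow_grid (Ioc 0 P) (fun n => (f n : ℂ)) (fun n => n ^ k) (s := s)
    (N := N) (M := M) (B := P ^ k) (fun i hi => Nat.pow_le_pow_left (mem_Ioc.1 hi).2 k)
    (by omega) (by omega) 0
  simp only [add_zero] at hg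
  have e : ∀ x : ℝ, powTwist k x f P =
      ∑ i ∈ Ioc 0 P, (f i : ℂ) * eAdd ((i ^ k : ℕ) * x) := fun x => by
    rw [powTwist]
    refine sum_congr rfl fun i _ => ?_
    rw [mul_comm x]
    push_cast
    rfl
  simp only [e]
  rw [hg, primeRep, Complex.ofReal_sum]
  congr 1
  refine sum_congr (ext fun z => ?_) fun z _ => by push_cast; rfl
  simp only [mem_filter, Fintype.mem_piFinset, mem_Icc, mem_Ioc]
  refine ⟨fun h => ⟨fun i => ⟨(h.1 i).1, (h.1 i).2.trans
    ((Nat.le_self_pow (by omega) P).trans hPN)⟩, h.2⟩, fun h => ⟨fun i => ⟨(h.1 i).1, ?_⟩, h.2⟩⟩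
  by_contra hlt
  have h3 := Nat.pow_le_pow_left (show P + 1 ≤ z i by omega) k
  have h4 := single_le_sum (f := fun j => z j ^ k) (fun j _ => Nat.zero_le _) (mem_univ i)
  have h5 := h.2
  omega

theorem sum_grid_conv {k s N M : ℕ} (hs : 2 ≤ s) (hN : 1 ≤ N) (hM : M = s * N) (θ : ℝ) :
    ∑ h ∈ range M, WaringAsymptotic.weightSum (1 / (k : ℝ)) N ((h : ℝ) / M + θ) ^ s *
        eAdd (-((N : ℝ) * ((h : ℝ) / M + θ))) =
      (M : ℂ) * WaringAsymptotic.weightConv (1 / (k : ℝ)) s N := by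
  have h2 : 2 * N ≤ M := hM ▸ Nat.mul_le_mul_right N hs
  have hg := WaringAsymptotic.sum_pow_grid (Ioc 0 N)
    (fun m => (WaringAsymptotic.weight (1 / (k : ℝ)) m : ℂ)) (fun m => m) (s := s) (N := N)
    (M := M) (B := N) (fun i hi => (mem_Ioc.1 hi).2) (by omega) (by omega) θ
  rw [WaringAsymptotic.weightConv, Complex.ofReal_sum]
  push_cast
  exact hg

/-- The coefficient of an arc. -/
def arcFactor (k s N : ℕ) (z : Σ _ : ℕ, ℕ) : ℂ :=
  unitFactor k z.1 z.2 ^ s * eAdd (-((N : ℝ) * centre z))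

theorem sum_arcFactor (k s N Q : ℕ) :
    ∑ z ∈ arcCentres Q, arcFactor k s N z = ∑ q ∈ Icc 1 Q, primeTerm k s N q := by
  rw [arcCentres, sum_sigma]
  refine sum_congr rfl fun q _ => sum_congr rfl fun r _ => ?_
  simp only [arcFactor, primeSummand, centre]
  ring_nf

theorem sum_norm_arcFactor_le {k s : ℕ} (hk : 1 ≤ k) (hs : 6 ≤ s) (N Q : ℕ) :
    ∑ z ∈ arcCentres Q, ‖arcFactor k s N z‖ ≤ ∑' q, primeAbs k s q := by
  rw [arcCentres, sum_sigma]
  refine le_trans (le_of_eq (sum_congr rfl fun q _ => sum_congr rfl fun r _ => ?_))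
    ((summable_primeAbs hk hs).sum_le_tsum (Icc 1 Q) fun q _ => primeAbs_nonneg k s q)
  rw [arcFactor, norm_mul, norm_pow, norm_eAdd, mul_one]

/-- **The power `2 t` of the weighted sum.** -/
theorem sum_powTwist_pow_le {k t : ℕ} {f : ℕ → ℝ} {P M : ℕ} {B : ℝ}
    (hf : ∀ n ∈ Ioc 0 P, |f n| ≤ B) (hM : t * P ^ k < M) :
    ∑ h ∈ range M, ‖powTwist k ((h : ℝ) / M) f P‖ ^ (2 * t) ≤
      M * (B ^ (2 * t) * WaringAsymptotic.powerDiagonal k t P) := by
  classical
  obtain ⟨A, hA⟩ : ∃ A : Finset (Fin t → ℕ), A = Fintype.piFinset fun _ : Fin t => Ioc 0 P :=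
    ⟨_, rfl⟩
  obtain ⟨c, hc⟩ : ∃ c : (Fin t → ℕ) → ℂ, c = fun z => ∏ i, (f (z i) : ℂ) := ⟨_, rfl⟩
  obtain ⟨φ, hφ⟩ : ∃ φ : (Fin t → ℕ) → ℤ, φ = fun z => ((∑ i, z i ^ k : ℕ) : ℤ) := ⟨_, rfl⟩
  have e : ∀ x : ℝ, ‖powTwist k x f P‖ ^ (2 * t) = ‖HuaCubes.intTrig A c φ x‖ ^ 2 := fun x => by
    rw [mul_comm 2 t, pow_mul, ← norm_pow, powTwist,
      show ∑ n ∈ Ioc 0 P, (f n : ℂ) * eAdd (x * (n : ℝ) ^ k) =
        ∑ n ∈ Ioc 0 P, (f n : ℂ) * eAdd ((n ^ k : ℕ) * x) from sum_congr rfl fun n _ => by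
          push_cast; ring_nf,
      WaringAsymptotic.sum_eAdd_pow, HuaCubes.intTrig, hA, hc, hφ]
    rfl
  have hb : ∀ z ∈ A, 0 ≤ φ z ∧ φ z ≤ ((t * P ^ k : ℕ) : ℤ) := fun z hz => by
    rw [hA, Fintype.mem_piFinset] at hz
    rw [hφ]
    refine ⟨Int.natCast_nonneg _, Int.ofNat_le.2 ?_⟩
    exact (sum_le_card_nsmul _ _ (P ^ k) fun i _ =>
      Nat.pow_le_pow_left (mem_Ioc.1 (hz i)).2 k).trans (by simp)
  have hco : HuaCubes.coincidences A φ = WaringAsymptotic.powerDiagonal k t P := by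
    rw [HuaCubes.coincidences, WaringAsymptotic.powerDiagonal, card_filter, sum_product,
      Korobov.box, hA]
    refine sum_congr rfl fun z _ => ?_
    rw [card_filter]
    refine sum_congr rfl fun w _ => ?_
    rw [hφ]
    exact if_congr Nat.cast_inj rfl rfl
  simp only [e, ← hco, pow_mul' B 2 t]
  refine HuaCubes.sum_grid_le A c φ (fun i hi j hj => ?_) fun z hz => ?_
  · have h1 := hb i hi
    have h2 := hb j hj
    rw [abs_lt]
    omega
  · rw [hA, Fintype.mem_piFinset] at hz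
    rw [hc, norm_prod]
    refine le_of_le_of_eq (prod_le_prod (g := fun _ => B) (fun i _ => norm_nonneg _) fun i _ => ?_)
      (by simp)
    rw [Complex.norm_real]
    exact hf _ (hz i)

theorem norm_powTwist_le {k : ℕ} {f : ℕ → ℝ} (hf0 : ∀ n, 0 ≤ f n) (hf : ∀ n, f n ≤ Λ n) (x : ℝ)
    (P : ℕ) : ‖powTwist k x f P‖ ≤ 6 * P := by
  refine (norm_sum_le _ _).trans ((sum_le_sum fun n _ => ?_).trans (sum_vonMangoldt_le P))
  rw [norm_mul, norm_eAdd, mul_one, Complex.norm_real, Real.norm_eq_abs, abs_of_nonneg (hf0 n)]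
  exact hf n

/-- **The minor arcs.** -/
theorem exists_minor_bound {k : ℕ} (hk : 2 ≤ k) (A : ℕ) : ∃ (K : ℕ) (C L₀ : ℝ), 1 ≤ K ∧ 0 < C ∧
    ∀ (N P : ℕ) (α : ℝ), P = WaringAsymptotic.rootFloor k N → 1 ≤ N → L₀ ≤ Real.log P →
      Real.log P ^ K ≤ N →
      (∀ z ∈ arcCentres ⌊Real.log P ^ K⌋₊, Real.log P ^ K / N < nearDist (α - centre z)) →
        ‖powTwist k α Λ P‖ ≤ C * (P / Real.log P ^ A) := by
  obtain ⟨B, C, hC, hbd⟩ := exists_pow_exp_sum_le hk A
  refine ⟨B + 1, 2 * C, max 3 ((2 * (k : ℝ)) ^ B), by omega, by positivity,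
    fun N P α hP hN hL hRN hout => ?_⟩
  obtain ⟨l, hl⟩ : ∃ l, l = Real.log P := ⟨_, rfl⟩
  rw [← hl] at hL hRN hout ⊢
  have hl2 : 3 ≤ l := le_trans (le_max_left _ _) hL
  have hl1 : 1 ≤ l := by linarith
  have hl3 : (2 * (k : ℝ)) ^ B ≤ l := le_trans (le_max_right _ _) hL
  have hP2 : 2 ≤ P := by
    by_contra h
    interval_cases P <;> simp at hl <;> linarith
  have hPN : P ^ k ≤ N := hP ▸ (WaringAsymptotic.rootFloor_spec (by omega) hN).2.1
  have hNP : N < (P + 1) ^ k := hP ▸ (WaringAsymptotic.rootFloor_spec (by omega) hN).2.2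
  have hPr : (2 : ℝ) ≤ P := by exact_mod_cast hP2
  have hN0 : (0 : ℝ) < N := Nat.cast_pos.2 hN
  have hk1 : (1 : ℝ) ≤ k := by exact_mod_cast (show 1 ≤ k by omega)
  have hN2P : (N : ℝ) ≤ (2 * (P : ℝ)) ^ k := by
    exact_mod_cast hNP.le.trans (Nat.pow_le_pow_left (show P + 1 ≤ 2 * P by omega) k)
  have hlogN : l ≤ Real.log N ∧ Real.log N ≤ 2 * k * l := by
    refine ⟨hl ▸ Real.log_le_log (by linarith)
      (by exact_mod_cast (Nat.le_self_pow (by omega) P).trans hPN), ?_⟩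
    have h1 := Real.log_le_log hN0 hN2P
    rw [Real.log_pow, Real.log_mul two_ne_zero (by linarith), ← hl] at h1
    have h2 := mul_le_mul_of_nonneg_left (show Real.log 2 + l ≤ 2 * l by
      linarith [Real.log_two_lt_d9]) (Nat.cast_nonneg (α := ℝ) k)
    linarith
  obtain ⟨R, hR⟩ : ∃ R, R = l ^ (B + 1) := ⟨_, rfl⟩
  rw [← hR] at hRN hout
  have hR1 : 1 ≤ R := hR ▸ one_le_pow₀ hl1
  have hRB : Real.log N ^ B ≤ R := by
    refine (pow_le_pow_left₀ (Real.log_natCast_nonneg N) hlogN.2 B).trans ?_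
    rw [hR, mul_pow, pow_succ', mul_comm]
    rw [mul_comm l]
    exact mul_le_mul_of_nonneg_left hl3 (by positivity)
  obtain ⟨n, hn⟩ : ∃ n, n = ⌊(N : ℝ) / R⌋₊ := ⟨_, rfl⟩
  have hn0 : 0 < n := hn ▸ Nat.floor_pos.2 ((one_le_div (by linarith)).2 hRN)
  obtain ⟨ρ, hρ, hρn⟩ := Real.exists_rat_abs_sub_le_and_den_le α hn0
  obtain ⟨q, hq⟩ : ∃ q, q = ρ.den := ⟨_, rfl⟩
  have : NeZero q := ⟨hq ▸ ρ.den_ne_zero⟩
  have hq0 : (0 : ℝ) < q := Nat.cast_pos.2 (NeZero.pos q)
  have hρv : (ρ : ℝ) = (ρ.num : ℝ) / q := by rw [hq, Rat.cast_def]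
  rw [hρv, ← hq] at hρ
  have hunit : IsUnit (ρ.num : ZMod q) := by
    rw [ZMod.coe_int_isUnit_iff_isCoprime, isCoprime_comm, Int.isCoprime_iff_nat_coprime, hq]
    simpa using ρ.reduced
  have hn1 : (N : ℝ) / R ≤ (n : ℝ) + 1 := hn ▸ (Nat.lt_floor_add_one _).le
  have hqR : R < q := by
    by_contra hle
    rw [not_lt] at hle
    obtain ⟨r, hr⟩ : ∃ r, r = (ρ.num : ZMod q).val := ⟨_, rfl⟩
    have hmem : (⟨q, r⟩ : Σ _ : ℕ, ℕ) ∈ arcCentres ⌊R⌋₊ := by
      refine mem_arcCentres.2 ⟨⟨NeZero.pos q, Nat.le_floor hle⟩, hr ▸ ZMod.val_lt _, ?_⟩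
      have h1 : IsUnit ((r : ℕ) : ZMod q) := by rwa [hr, ZMod.natCast_zmod_val]
      exact ((ZMod.isUnit_iff_coprime r q).1 h1).symm
    obtain ⟨m, hm⟩ : (q : ℤ) ∣ ρ.num - r := by
      rw [← ZMod.intCast_zmod_eq_zero_iff_dvd, hr]
      push_cast
      rw [ZMod.natCast_zmod_val, sub_self]
    have h2 : nearDist (α - centre ⟨q, r⟩) ≤ R / N := by
      refine (nearDist_le_abs_sub _ m).trans ?_
      have e : α - centre ⟨q, r⟩ - (m : ℝ) = α - (ρ.num : ℝ) / q := by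
        have h3 : (ρ.num : ℝ) - r = q * m := by exact_mod_cast hm
        simp only [centre]
        field_simp
        linarith
      rw [e]
      refine hρ.trans ?_
      rw [div_le_div_iff₀ (by positivity) hN0, one_mul]
      have h4 : (N : ℝ) ≤ R * ((n : ℝ) + 1) := by
        rw [div_le_iff₀ (by linarith)] at hn1
        linarith
      refine h4.trans (mul_le_mul_of_nonneg_left ?_ (by linarith))
      refine le_mul_of_one_le_right (by positivity) ?_
      exact_mod_cast NeZero.pos q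
    exact absurd (hout _ hmem) (not_lt.2 h2)
  have hqn : (q : ℝ) ≤ (n : ℝ) + 1 := by
    have : (q : ℝ) ≤ n := Nat.cast_le.2 (hq ▸ hρn)
    linarith
  have hα : |α - (ρ.num : ℝ) / q| ≤ 1 / (q : ℝ) ^ 2 := by
    refine hρ.trans (one_div_le_one_div_of_le (by positivity) ?_)
    rw [sq]
    exact mul_le_mul_of_nonneg_right hqn hq0.le
  have hlogB : 0 < Real.log N ^ B := pow_pos (lt_of_lt_of_le (by linarith) hlogN.1) B
  have hqN : (q : ℝ) ≤ N / Real.log N ^ B :=
    ((Nat.cast_le.2 (hq ▸ hρn)).trans (hn ▸ Nat.floor_le (by positivity))).trans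
      (div_le_div_of_nonneg_left hN0.le hlogB hRB)
  refine le_trans (hP ▸ hbd N q ρ.num α hunit hα (hRB.trans hqR.le) hqN) ?_
  have hsq : (N : ℝ) ^ (1 / (k : ℝ)) ≤ 2 * P := by
    rw [one_div, Real.rpow_inv_le_iff_of_pos (Nat.cast_nonneg _) (by positivity) (by linarith),
      Real.rpow_natCast]
    exact hN2P
  calc C * ((N : ℝ) ^ (1 / (k : ℝ)) / Real.log N ^ A) ≤ C * (2 * P / l ^ A) := by
        refine mul_le_mul_of_nonneg_left ?_ hC.le
        exact div_le_div₀ (by positivity) hsq (by positivity)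
          (pow_le_pow_left₀ (by linarith) hlogN.1 A)
    _ = _ := by ring

/-- **The major arcs and the singular series.** -/
theorem exists_circle_bound {k s : ℕ} (hk : 2 ≤ k) (hs : k * (k + 1) + 3 ≤ s) :
    ∃ (K N₀ : ℕ) (C : ℝ), 1 ≤ K ∧ 0 < C ∧ ∀ N P : ℕ, N₀ ≤ N →
      P = WaringAsymptotic.rootFloor k N → 1 ≤ Real.log P ∧
        ‖(primeRep k s Λ N : ℂ) - (WaringAsymptotic.weightConv (1 / (k : ℝ)) s N : ℂ) *
            ∑ q ∈ Icc 1 ⌊Real.log P ^ K⌋₊, primeTerm k s N q‖ ≤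
          C * ((N : ℝ) ^ ((s : ℝ) / k - 1) / Real.log P) := by
  obtain ⟨t, ht⟩ : ∃ t, t = VMC.tri k + 1 := ⟨_, rfl⟩
  have h2t : 2 * t = k * (k + 1) + 2 := by
    rw [ht, mul_add, VMC.two_mul_tri]
  obtain ⟨u, hu⟩ : ∃ u, s = (2 * t + u) + 1 := ⟨s - 2 * t - 1, by omega⟩
  have hk6 : 6 ≤ k * (k + 1) := by
    have := Nat.mul_le_mul hk (show 3 ≤ k + 1 by omega)
    omega
  have hs6 : 6 ≤ s := by omega
  have h3k : 3 * k ≤ s := WaringAsymptotic.three_mul_le_of_lt hk (by omega)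
  obtain ⟨K, C₁, L₀, hK1, hC₁, hmin⟩ := exists_minor_bound hk (2 * t + 1)
  obtain ⟨C₈, hC₈, hmom⟩ := exists_powerDiagonal_le hk (show k * (k + 1) < 2 * t by omega)
  obtain ⟨C₂, hC₂, hmaj⟩ := exists_pow_major (show 1 ≤ k by omega) K (4 * K + 2)
  obtain ⟨K₀, hK₀, hpow⟩ := exists_log_pow_le (max (4 * K + 2) (3 * K))
  obtain ⟨Z₀, hZ₀⟩ : ∃ Z₀ : ℝ, Z₀ = ∑' q, primeAbs k s q := ⟨_, rfl⟩
  have hZ₀0 : 0 ≤ Z₀ := hZ₀ ▸ tsum_nonneg (primeAbs_nonneg k s)
  obtain ⟨T₀, hT₀⟩ : ∃ T₀ : ℕ,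
      T₀ = max ⌈(2 * K₀ + 1) ^ 2⌉₊ ⌈Real.exp (max (max L₀ 4) 1)⌉₊ := ⟨_, rfl⟩
  obtain ⟨cl, hcl⟩ : ∃ cl : ℝ, cl = 1 + s + 2 * k := ⟨_, rfl⟩
  obtain ⟨cA, hcA⟩ : ∃ cA : ℝ, cA = 5 + 4 * s * cl := ⟨_, rfl⟩
  have hcl1 : 1 ≤ cl := by
    rw [hcl]
    linarith [(Nat.cast_nonneg s : (0 : ℝ) ≤ s), (Nat.cast_nonneg k : (0 : ℝ) ≤ k)]
  obtain ⟨Y, hY⟩ : ∃ Y : ℝ, Y = (s : ℝ) / k - 1 := ⟨_, rfl⟩
  have hk0 : (0 : ℝ) < k := by exact_mod_cast (show 0 < k by omega)
  have hk1 : 1 / (k : ℝ) ≤ 1 := by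
    rw [div_le_one hk0]; exact_mod_cast (show 1 ≤ k by omega)
  have hY2 : 2 ≤ Y := by
    rw [hY, le_sub_iff_add_le, le_div_iff₀ hk0]
    exact_mod_cast (show (2 + 1) * k ≤ s by omega)
  refine ⟨K, (T₀ + 1) ^ k, C₁ * 6 ^ u * C₈ + cA * (s * 6 ^ (2 * t + u) * 9 * (C₂ + 2 * K₀)) +
    Z₀ * (3 ^ s * 2 * (5 + 2 * cl)), by omega,
    by rw [hcA]; positivity, fun N P hN hP => ?_⟩
  have hN1 : 1 ≤ N := le_trans (Nat.one_le_pow _ _ (by omega)) hN
  have hPN : P ^ k ≤ N := hP ▸ (WaringAsymptotic.rootFloor_spec (by omega) hN1).2.1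
  have hNP : N < (P + 1) ^ k := hP ▸ (WaringAsymptotic.rootFloor_spec (by omega) hN1).2.2
  have hTP : T₀ + 1 ≤ P := by
    by_contra h
    have := Nat.pow_le_pow_left (show P + 1 ≤ T₀ + 1 by omega) k
    omega
  obtain ⟨l, hl⟩ : ∃ l, l = Real.log P := ⟨_, rfl⟩
  have hP1 : (1 : ℝ) ≤ P := by exact_mod_cast (show 1 ≤ P by omega)
  have hlge : max (max L₀ 4) 1 ≤ l := by
    rw [hl, Real.le_log_iff_exp_le (by linarith)]
    refine (Nat.le_ceil _).trans (Nat.cast_le.2 (le_trans ?_ hTP))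
    rw [hT₀]
    exact le_trans (le_max_right _ _) (Nat.le_succ _)
  have hlL : L₀ ≤ l := (le_max_left _ _).trans ((le_max_left _ _).trans hlge)
  have hl4 : 4 ≤ l := (le_max_right _ _).trans ((le_max_left _ _).trans hlge)
  have hl1 : 1 ≤ l := (le_max_right _ _).trans hlge
  rw [← hl]
  refine ⟨hl1, ?_⟩
  have hl0 : 0 < l := by linarith
  have hP2 : 2 ≤ P := by
    by_contra h
    interval_cases P <;> simp at hl <;> linarith
  have hN0 : (0 : ℝ) < N := Nat.cast_pos.2 hN1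
  have hN2P : (N : ℝ) ≤ (2 * (P : ℝ)) ^ k := by
    exact_mod_cast hNP.le.trans (Nat.pow_le_pow_left (show P + 1 ≤ 2 * P by omega) k)
  have hPNr : (P : ℝ) ^ k ≤ N := by exact_mod_cast hPN
  have hsPK : 2 * K₀ + 1 ≤ √(P : ℝ) := by
    refine Real.le_sqrt_of_sq_le ((Nat.le_ceil _).trans (Nat.cast_le.2 (le_trans ?_ hTP)))
    rw [hT₀]
    exact le_trans (le_max_left _ _) (Nat.le_succ _)
  have hsP : √(P : ℝ) ≤ P := by
    rw [Real.sqrt_le_left (by linarith)]
    nlinarith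
  have hlpow : ∀ m, m ≤ max (4 * K + 2) (3 * K) → l ^ m ≤ K₀ * √(P : ℝ) := fun m hm =>
    (pow_le_pow_right₀ hl1 hm).trans (hl ▸ hpow P hP1)
  obtain ⟨R, hR⟩ : ∃ R, R = l ^ K := ⟨_, rfl⟩
  have hR1 : 1 ≤ R := hR ▸ one_le_pow₀ hl1
  have hRl : l ≤ R := hR ▸ le_self_pow₀ hl1 (by omega)
  obtain ⟨Q, hQ⟩ : ∃ Q, Q = ⌊R⌋₊ := ⟨_, rfl⟩
  have hQR : (Q : ℝ) ≤ R := hQ ▸ Nat.floor_le (by linarith)
  rw [← hR, ← hQ, ← hY]
  obtain ⟨M, hM⟩ : ∃ M, M = s * N := ⟨_, rfl⟩
  have : NeZero M := ⟨by rw [hM]; exact Nat.mul_ne_zero (by omega) (by omega)⟩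
  have hMr : (M : ℝ) = s * N := by rw [hM]; push_cast; ring
  have hM0 : (0 : ℝ) < M := Nat.cast_pos.2 (NeZero.pos M)
  have hNM : (N : ℝ) ≤ M :=
    Nat.cast_le.2 (hM ▸ Nat.le_mul_of_pos_left N (show 0 < s by omega))
  obtain ⟨δ, hδ⟩ : ∃ δ, δ = R / (N : ℝ) := ⟨_, rfl⟩
  have hδ0 : 0 < δ := by rw [hδ]; positivity
  have hlogM : 1 + Real.log M ≤ cl * l := by
    have hs0 : (0 : ℝ) < s := by exact_mod_cast (show 0 < s by omega)
    have h2 := Real.log_le_log hM0 (hMr.le.trans (mul_le_mul_of_nonneg_left hN2P hs0.le))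
    rw [Real.log_mul hs0.ne' (by positivity), Real.log_pow, Real.log_mul two_ne_zero (by linarith),
      ← hl] at h2
    have h3 := Real.log_le_self hs0.le
    have h4 := mul_le_mul_of_nonneg_left (show Real.log 2 + l ≤ 2 * l by
      linarith [Real.log_two_lt_d9]) hk0.le
    have h5 := mul_le_mul_of_nonneg_left hl1 (show (0 : ℝ) ≤ 1 + s by positivity)
    rw [hcl]
    linarith
  obtain ⟨D, hD⟩ : ∃ D, D = (N : ℝ) ^ Y / l := ⟨_, rfl⟩
  rw [← hD]
  have hD0 : 0 ≤ D := by rw [hD]; positivity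
  have hPs : (P : ℝ) ^ s / (P : ℝ) ^ k ≤ (N : ℝ) ^ Y := by
    refine le_trans (le_of_eq ?_) (WaringAsymptotic.pow_root_le (by linarith) hPN)
    rw [← Real.rpow_natCast (P : ℝ) s, ← Real.rpow_natCast (P : ℝ) k,
      ← Real.rpow_sub (by linarith), hY]
    congr 1
    field_simp
  obtain ⟨F, hF⟩ : ∃ F : ℕ → ℂ, F = fun h : ℕ => powTwist k ((h : ℝ) / M) Λ P ^ s *
      eAdd (-((N : ℝ) * ((h : ℝ) / M))) := ⟨_, rfl⟩
  obtain ⟨G, hG⟩ : ∃ G : (Σ _ : ℕ, ℕ) → ℕ → ℂ, G = fun z (h : ℕ) =>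
      WaringAsymptotic.weightSum (1 / (k : ℝ)) N ((h : ℝ) / M + -centre z) ^ s *
        eAdd (-((N : ℝ) * ((h : ℝ) / M + -centre z))) := ⟨_, rfl⟩
  obtain ⟨minor, hminor⟩ : ∃ S : Finset ℕ,
      S = range M \ (arcCentres Q).biUnion (arc M δ) := ⟨_, rfl⟩
  have hΛ0 : ∀ n : ℕ, 0 ≤ Λ n := fun n => vonMangoldt_nonneg
  -- the minor arcs
  have p1 : ‖∑ h ∈ minor, F h‖ ≤ M * (C₁ * 6 ^ u * C₈ * D) := by
    refine (norm_sum_le _ _).trans ((sum_le_sum (g := fun h : ℕ =>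
      C₁ * (P / l ^ (2 * t + 1)) * (6 * (P : ℝ)) ^ u *
        ‖powTwist k ((h : ℝ) / M) Λ P‖ ^ (2 * t)) fun h hh => ?_).trans ?_)
    · rw [hF, norm_mul, norm_eAdd, mul_one, norm_pow, hu,
        show 2 * t + u + 1 = 1 + u + 2 * t by ring, pow_add, pow_add, pow_one]
      refine mul_le_mul_of_nonneg_right (mul_le_mul ?_ (pow_le_pow_left₀ (norm_nonneg _)
        (norm_powTwist_le hΛ0 (fun _ => le_rfl) _ P) u) (by positivity) (by positivity))
        (by positivity)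
      rw [hminor, mem_sdiff, mem_biUnion] at hh
      rw [hl] at hlL ⊢
      refine hmin N P _ hP hN1 hlL ?_ fun z hz => ?_
      · rw [← hl]
        refine (hlpow K (le_trans (by omega) (le_max_right _ _))).trans (le_trans ?_ hPNr)
        refine le_trans (mul_le_mul (by linarith) hsP (Real.sqrt_nonneg _) (by linarith))
          (le_of_eq_of_le (sq (P : ℝ)).symm (pow_le_pow_right₀ hP1 hk))
      · by_contra hle
        rw [← hl, ← hR] at hle hz
        exact hh.2 ⟨z, hQ ▸ hz, mem_filter.2 ⟨hh.1, hδ ▸ not_lt.1 hle⟩⟩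
    · rw [← mul_sum]
      refine (mul_le_mul_of_nonneg_left (sum_le_sum_of_subset_of_nonneg (t := range M)
        (hminor ▸ sdiff_subset) fun i _ _ => by positivity) (by positivity)).trans ?_
      refine (mul_le_mul_of_nonneg_left (sum_powTwist_pow_le (f := Λ) (B := l)
        (fun n hn => ?_) (show t * P ^ k < M from ?_)) (by positivity)).trans ?_
      · rw [mem_Ioc] at hn
        rw [abs_of_nonneg vonMangoldt_nonneg, hl]
        exact vonMangoldt_le_log.trans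
          (Real.log_le_log (Nat.cast_pos.2 hn.1) (Nat.cast_le.2 hn.2))
      · rw [hM]
        exact lt_of_le_of_lt (Nat.mul_le_mul_left t hPN)
          (Nat.mul_lt_mul_of_pos_right (by omega) hN1)
      refine (mul_le_mul_of_nonneg_left (mul_le_mul_of_nonneg_left (mul_le_mul_of_nonneg_left
        (hmom P (by omega)) (by positivity)) hM0.le) (by positivity)).trans ?_
      rw [show 2 * (t : ℝ) - k = ((2 * t : ℕ) : ℝ) - ((k : ℕ) : ℝ) by push_cast; ring,
        Real.rpow_sub (by linarith), Real.rpow_natCast, Real.rpow_natCast]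
      calc C₁ * ((P : ℝ) / l ^ (2 * t + 1)) * (6 * (P : ℝ)) ^ u *
            (M * (l ^ (2 * t) * (C₈ * ((P : ℝ) ^ (2 * t) / (P : ℝ) ^ k))))
          = (M : ℝ) * (C₁ * 6 ^ u * C₈ * (((P : ℝ) ^ s / (P : ℝ) ^ k) / l)) := by
            rw [hu, mul_pow]; field_simp; ring
        _ ≤ _ := by rw [hD]; gcongr
  -- the arcs
  have p3 : ‖∑ z ∈ arcCentres Q, ∑ h ∈ arc M δ z, (F h - arcFactor k s N z * G z h)‖ ≤
      M * (cA * (s * 6 ^ (2 * t + u) * 9 * (C₂ + 2 * K₀)) * D) := by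
    have hone : ∀ z ∈ arcCentres Q, ∀ h ∈ arc M δ z, ‖F h - arcFactor k s N z * G z h‖ ≤
        s * (6 * (P : ℝ)) ^ (2 * t + u) * ((C₂ + 2 * K₀) * (P / l ^ (4 * K + 2)) * (9 * R)) := by
      intro z hz h hh
      obtain ⟨q, r⟩ := z
      obtain ⟨⟨hq, hqQ⟩, -, -⟩ := mem_arcCentres.1 hz
      simp only at hq hqQ
      have : NeZero q := ⟨by omega⟩
      have hqR' : (q : ℝ) ≤ l ^ K := hR ▸ (Nat.cast_le.2 hqQ).trans hQR
      rw [arc, mem_filter, nearDist] at hh
      obtain ⟨j, hj⟩ : ∃ j, j = round ((h : ℝ) / M - centre ⟨q, r⟩) := ⟨_, rfl⟩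
      obtain ⟨β, hβ⟩ : ∃ β, β = (h : ℝ) / M - centre ⟨q, r⟩ - j := ⟨_, rfl⟩
      rw [← hj, ← hβ] at hh
      have hq0 : (q : ℝ) ≠ 0 := Nat.cast_ne_zero.2 (by omega)
      have hα : powTwist k ((h : ℝ) / M) Λ P =
          powTwist k (((r : ℤ) : ℝ) / (q : ℝ) + β) Λ P := by
        refine sum_congr rfl fun x _ => congrArg _ ?_
        rw [← eAdd_add_intCast _ (-(j * (x : ℤ) ^ k)), hβ, centre]
        push_cast
        ring_nf
      have happ := hmaj N P q (r : ℤ) β hP2 hPN hNP (hl ▸ hqR')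
      rw [← hα, ← hl] at happ
      rw [hF, hG, arcFactor]
      simp only
      rw [← sub_eq_add_neg, ← WaringAsymptotic.weightSum_sub_intCast _ N _ j, ← hβ]
      have e : eAdd (-((N : ℝ) * centre ⟨q, r⟩)) *
          eAdd (-(N * ((h : ℝ) / M - centre ⟨q, r⟩))) = eAdd (-((N : ℝ) * ((h : ℝ) / M))) := by
        rw [← eAdd_add]
        ring_nf
      rw [mul_mul_mul_comm, e, ← sub_mul, norm_mul, norm_eAdd, mul_one, ← mul_pow]
      have hS : ‖powTwist k ((h : ℝ) / M) Λ P‖ ≤ 6 * P :=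
        norm_powTwist_le hΛ0 (fun _ => le_rfl) _ P
      have hV : ‖unitFactor k q r * WaringAsymptotic.weightSum (1 / (k : ℝ)) N β‖ ≤ 6 * P := by
        rw [norm_mul]
        refine (mul_le_of_le_one_left (norm_nonneg _) (norm_unitFactor_le_one _ _ _)).trans
          ((WaringAsymptotic.norm_weightSum_le (by positivity) hk1 N β).trans ?_)
        rw [one_div, Real.rpow_inv_le_iff_of_pos (Nat.cast_nonneg _) (by positivity) hk0,
          Real.rpow_natCast]
        exact hN2P.trans (pow_le_pow_left₀ (by positivity) (by linarith) k)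
      rw [hu]
      refine (WaringAsymptotic.norm_pow_sub_pow_le hS hV (2 * t + u)).trans ?_
      refine mul_le_mul_of_nonneg_left (happ.trans ?_) (by positivity)
      refine mul_le_mul ?_ ?_ (by positivity) (by positivity)
      · rw [add_mul]
        refine add_le_add le_rfl ?_
        rw [mul_assoc, le_mul_iff_one_le_right two_pos, mul_div_assoc',
          one_le_div (by positivity)]
        exact (hlpow _ (le_max_left _ _)).trans (mul_le_mul_of_nonneg_left hsP hK₀.le)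
      · have h1 : |β| * N ≤ R := by
          rw [← le_div_iff₀ hN0, ← hδ]
          exact hh.2
        have := mul_le_mul_of_nonneg_left h1 (show (0 : ℝ) ≤ 2 * π by positivity)
        have := mul_le_mul_of_nonneg_right Real.pi_le_four (show (0 : ℝ) ≤ R by linarith)
        linarith
    refine (norm_sum_le _ _).trans ((sum_le_card_nsmul _ _ (cA * (R * l) *
      (s * (6 * (P : ℝ)) ^ (2 * t + u) * ((C₂ + 2 * K₀) * (P / l ^ (4 * K + 2)) * (9 * R))))
      fun z hz => ?_).trans ?_)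
    · refine (norm_sum_le _ _).trans ((sum_le_card_nsmul _ _ _ (hone z hz)).trans ?_)
      rw [nsmul_eq_mul]
      refine mul_le_mul_of_nonneg_right ((card_arc_le hδ0 z).trans ?_) (by positivity)
      have hMd : 4 * (M : ℝ) * δ = 4 * s * R := by rw [hMr, hδ]; field_simp
      rw [hMd]
      have := mul_le_mul_of_nonneg_left hlogM (show 0 ≤ 4 * (s : ℝ) * R by positivity)
      have : 1 ≤ R * l := one_le_mul_of_one_le_of_one_le hR1 hl1
      rw [hcA]
      linarith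
    · rw [nsmul_eq_mul]
      have hcard : ((arcCentres Q).card : ℝ) ≤ R * R := by
        have h1 : (arcCentres Q).card ≤ Q * Q := by
          rw [arcCentres, card_sigma]
          refine (sum_le_card_nsmul _ _ Q fun q hq => ?_).trans (le_of_eq ?_)
          · rw [card_unitResidues]
            exact (Nat.totient_le q).trans (mem_Icc.1 hq).2
          · simp
        refine (Nat.cast_le.2 h1).trans ?_
        push_cast
        exact mul_le_mul hQR hQR (Nat.cast_nonneg _) (by linarith)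
      refine (mul_le_mul_of_nonneg_right hcard (by rw [hcA]; positivity)).trans ?_
      rw [hD, hR, show l ^ (4 * K + 2) = (l ^ K) ^ 4 * l * l by
        rw [← pow_mul, mul_assoc, ← sq, ← pow_add, mul_comm K 4]]
      calc l ^ K * l ^ K * (cA * (l ^ K * l) * (s * (6 * (P : ℝ)) ^ (2 * t + u) *
            ((C₂ + 2 * K₀) * (P / ((l ^ K) ^ 4 * l * l)) * (9 * l ^ K))))
          = cA * (s * 6 ^ (2 * t + u) * 9 * (C₂ + 2 * K₀)) *
              ((P : ℝ) ^ k * (((P : ℝ) ^ (2 * t + u + 1) / (P : ℝ) ^ k) / l)) := by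
            rw [mul_pow, pow_succ (P : ℝ) (2 * t + u)]; field_simp
        _ ≤ cA * (s * 6 ^ (2 * t + u) * 9 * (C₂ + 2 * K₀)) *
              ((M : ℝ) * ((N : ℝ) ^ Y / l)) := by
            rw [← hu]
            refine mul_le_mul_of_nonneg_left ?_ (by rw [hcA]; positivity)
            exact mul_le_mul (hPNr.trans hNM) (div_le_div_of_nonneg_right hPs hl0.le)
              (by positivity) hM0.le
        _ = _ := by ring
  -- off the arcs
  have p5 : ‖∑ z ∈ arcCentres Q, arcFactor k s N z * ∑ h ∈ range M \ arc M δ z, G z h‖ ≤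
      M * (Z₀ * (3 ^ s * 2 * (5 + 2 * cl)) * D) := by
    have hoff : ∀ z ∈ arcCentres Q, ‖∑ h ∈ range M \ arc M δ z, G z h‖ ≤
        (M : ℝ) * (3 ^ s * 2 * (5 + 2 * cl) * D) := by
      intro z _
      obtain ⟨Z, hZ⟩ : ∃ Z, Z = 1 / (2 * δ) := ⟨_, rfl⟩
      have hZ0 : 0 < Z := by rw [hZ]; positivity
      refine (norm_sum_le _ _).trans ((sum_le_sum (g := fun h : ℕ =>
        3 ^ s * δ ^ (-Y) * (2 * clip Z ((h : ℝ) / M - centre z))) fun h hh => ?_).trans
        ?_)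
      · rw [mem_sdiff, arc, mem_filter, not_and, not_le] at hh
        have hd := hh.2 hh.1
        obtain ⟨d, hd'⟩ : ∃ d, d = nearDist ((h : ℝ) / M - centre z) := ⟨_, rfl⟩
        rw [← hd'] at hd
        have hd0 : 0 < d := hδ0.trans hd
        rw [hG]
        simp only
        rw [← sub_eq_add_neg, norm_mul, norm_eAdd, mul_one, norm_pow]
        have h1 := WaringAsymptotic.norm_weightSum_le_inv (c := 1 / (k : ℝ)) (by positivity)
          hk1 N (hd' ▸ hd0)
        rw [← hd'] at h1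
        refine (pow_le_pow_left₀ (norm_nonneg _) h1 s).trans ?_
        have hclip : 2 * clip Z ((h : ℝ) / M - centre z) = d⁻¹ := by
          rw [clip, ← hd', if_neg hd0.ne', min_eq_right
            (hZ ▸ one_div_le_one_div_of_le (by positivity) (by linarith))]
          field_simp
        rw [hclip, mul_pow, ← Real.rpow_natCast (d ^ _) s, ← Real.rpow_mul hd0.le,
          show -(1 / (k : ℝ)) * s = -Y + -1 by rw [hY]; field_simp; ring, Real.rpow_add hd0,
          Real.rpow_neg_one, ← mul_assoc]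
        exact mul_le_mul_of_nonneg_right (mul_le_mul_of_nonneg_left
          (Real.rpow_le_rpow_of_nonpos hδ0 hd.le (by linarith)) (by positivity)) (by positivity)
      rw [← mul_sum, ← mul_sum]
      refine (mul_le_mul_of_nonneg_left (mul_le_mul_of_nonneg_left
        ((sum_le_sum_of_subset_of_nonneg sdiff_subset fun i _ _ => clip_nonneg hZ0.le _).trans
          (sum_clip_grid_le (centre z) hZ0.le)) two_pos.le) (by positivity)).trans ?_
      have hZM : 5 * Z + 2 * M * (1 + Real.log M) ≤ (5 + 2 * cl) * M * l := by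
        have h1 : Z ≤ (M : ℝ) * 1 := by
          rw [hZ, hδ, show 1 / (2 * (R / (N : ℝ))) = N / (2 * R) by field_simp,
            div_le_iff₀ (by positivity)]
          have := mul_le_mul_of_nonneg_left hR1 hM0.le
          linarith
        have h2 := mul_le_mul_of_nonneg_left hlogM (show 0 ≤ 2 * (M : ℝ) by positivity)
        have h3 := mul_le_mul_of_nonneg_left hl1 hM0.le
        linarith
      have hsave : δ ^ (-Y) * l ≤ D := by
        rw [hδ, Real.rpow_neg (by positivity), Real.div_rpow (by linarith) hN0.le, hD, inv_div,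
          le_div_iff₀ hl0, div_mul_eq_mul_div, div_mul_eq_mul_div, div_le_iff₀ (by positivity)]
        have h1 : l * l ≤ R ^ Y := by
          calc l * l ≤ R ^ 2 := by rw [← sq]; exact pow_le_pow_left₀ hl0.le hRl 2
            _ ≤ R ^ Y := by
                rw [← Real.rpow_natCast R 2]
                exact Real.rpow_le_rpow_of_exponent_le hR1 (by simpa using hY2)
        calc (N : ℝ) ^ Y * l * l = (N : ℝ) ^ Y * (l * l) := by ring
          _ ≤ (N : ℝ) ^ Y * R ^ Y := mul_le_mul_of_nonneg_left h1 (by positivity)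
      calc 3 ^ s * δ ^ (-Y) * (2 * (5 * Z + 2 * M * (1 + Real.log M)))
          ≤ 3 ^ s * δ ^ (-Y) * (2 * ((5 + 2 * cl) * M * l)) := by gcongr
        _ = 3 ^ s * 2 * (5 + 2 * cl) * M * (δ ^ (-Y) * l) := by ring
        _ ≤ 3 ^ s * 2 * (5 + 2 * cl) * M * D := mul_le_mul_of_nonneg_left hsave (by positivity)
        _ = _ := by ring
    refine (norm_sum_le _ _).trans ((sum_le_sum fun z hz => ?_).trans
      ((sum_mul _ _ ((M : ℝ) * (3 ^ s * 2 * (5 + 2 * cl) * D))).ge.trans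
        ((mul_le_mul_of_nonneg_right (sum_norm_arcFactor_le (k := k) (by omega) hs6 N Q)
          (mul_nonneg hM0.le (mul_nonneg (by positivity) hD0))).trans
          (le_of_eq (by rw [hZ₀]; ring)))))
    rw [norm_mul]
    exact mul_le_mul_of_nonneg_left (hoff z hz) (norm_nonneg _)
  -- the arcs are apart
  have hsep : ((arcCentres Q : Set (Σ _ : ℕ, ℕ))).PairwiseDisjoint (arc M δ) := by
    intro z hz w hw hne
    rw [Function.onFun, disjoint_left]
    intro x hx hx'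
    rw [arc, mem_filter] at hx hx'
    have h1 := inv_mul_le_nearDist_centre (mem_coe.1 hz) (mem_coe.1 hw) hne
    have h2 := nearDist_sub_sub_le (centre z) (centre w) ((x : ℝ) / M)
    have hQ0 : (0 : ℝ) < Q := by
      rw [hQ, Nat.cast_pos, Nat.floor_pos]
      exact hR1
    have h3 : 2 * δ < 1 / ((Q : ℝ) * Q) := by
      rw [hδ, mul_div_assoc', div_lt_div_iff₀ hN0 (by positivity), one_mul]
      calc 2 * R * ((Q : ℝ) * Q) ≤ 2 * (R * (R * R)) := by
            rw [mul_assoc]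
            gcongr
        _ ≤ 2 * (K₀ * √(P : ℝ)) := by
            refine mul_le_mul_of_nonneg_left (le_of_eq_of_le ?_
              (hlpow (3 * K) (le_max_right _ _))) zero_le_two
            rw [hR, ← pow_add, ← pow_add]
            congr 1
            omega
        _ < √(P : ℝ) * √(P : ℝ) := by
            have : 0 < √(P : ℝ) := Real.sqrt_pos.2 (by linarith)
            nlinarith
        _ = P := Real.mul_self_sqrt (by linarith)
        _ ≤ N := le_trans (le_self_pow₀ hP1 (by omega)) hPNr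
    linarith
  have hdecomp : ∑ h ∈ range M, F h =
      ∑ h ∈ minor, F h + ∑ z ∈ arcCentres Q, ∑ h ∈ arc M δ z, F h := by
    rw [← sum_biUnion hsep, hminor, sum_sdiff]
    exact biUnion_subset.2 fun z _ => filter_subset _ _
  have hident : (M : ℂ) * primeRep k s Λ N -
      (M : ℂ) * WaringAsymptotic.weightConv (1 / (k : ℝ)) s N *
        ∑ z ∈ arcCentres Q, arcFactor k s N z =
      ∑ h ∈ minor, F h + ∑ z ∈ arcCentres Q, ∑ h ∈ arc M δ z, (F h - arcFactor k s N z * G z h) -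
        ∑ z ∈ arcCentres Q, arcFactor k s N z * ∑ h ∈ range M \ arc M δ z, G z h := by
    have h1 : ∀ z ∈ arcCentres Q,
        (M : ℂ) * WaringAsymptotic.weightConv (1 / (k : ℝ)) s N * arcFactor k s N z =
          ∑ h ∈ arc M δ z, arcFactor k s N z * G z h +
            arcFactor k s N z * ∑ h ∈ range M \ arc M δ z, G z h := by
      intro z _
      rw [← mul_sum, ← mul_add, add_comm (∑ h ∈ arc M δ z, _), sum_sdiff
        (show arc M δ z ⊆ range M from filter_subset _ _),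
        show ∑ h ∈ range M, G z h =
          (M : ℂ) * WaringAsymptotic.weightConv (1 / (k : ℝ)) s N by
          rw [hG]; exact sum_grid_conv (by omega) hN1 hM _]
      ring
    rw [← sum_grid_primeRep Λ (by omega) (by omega) hN1 hM hPN hNP, mul_sum, sum_congr rfl h1,
      sum_add_distrib,
      show ∑ h ∈ range M, powTwist k ((h : ℝ) / M) Λ P ^ s *
          eAdd (-((N : ℝ) * ((h : ℝ) / M))) = ∑ h ∈ range M, F h by rw [hF], hdecomp]
    simp only [sum_sub_distrib]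
    ring
  refine le_of_mul_le_mul_left ?_ hM0
  rw [← Complex.norm_natCast M, ← norm_mul, mul_sub, ← mul_assoc, ← sum_arcFactor, hident,
    Complex.norm_natCast]
  refine (norm_sub_le _ _).trans ((add_le_add ((norm_add_le _ _).trans (add_le_add p1 p3))
    p5).trans (le_of_eq ?_))
  ring

end FA.WaringGoldbach
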