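import Fermat.Agent.WaringGoldbach.Circle
import Fermat.Agent.ThreePrimes.Main

/-!
# The Waring-Goldbach problem

The asymptotic formula for `s ≥ k² + k + 3` powers of primes, the removal of the prime powers by
the moment, and the theorem: every large `N ≡ s` modulo `K (k)` is a sum of `s` `k`-th powers of
primes, and every large `N` a sum of fewer than `k² + k + 3 + K (k)` of them.
-/

set_option autoImplicit false

noncomputable section

namespace FA.WaringGoldbach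

open Finset FA.ThreePrimes ArithmeticFunction Filter Topology
open scoped Real

/-- `Γ (1 + 1/k) ^ s / Γ (s/k)`. -/
def repConst (k s : ℕ) : ℝ := Real.Gamma (1 + 1 / (k : ℝ)) ^ s / Real.Gamma ((s : ℝ) / k)

theorem repConst_pos {k s : ℕ} (hk : 1 ≤ k) (hs : 1 ≤ s) : 0 < repConst k s := by
  have h1 : (0 : ℝ) < k := Nat.cast_pos.2 hk
  have h2 : (0 : ℝ) < s := Nat.cast_pos.2 hs
  exact div_pos (pow_pos (Real.Gamma_pos_of_pos (by positivity)) s)
    (Real.Gamma_pos_of_pos (by positivity))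

theorem six_le_of_large {k s : ℕ} (hk : 2 ≤ k) (hs : k * (k + 1) + 3 ≤ s) : 6 ≤ s := by
  have := Nat.mul_le_mul hk (show 3 ≤ k + 1 by omega)
  omega

/-- **The asymptotic formula.** -/
theorem exists_primeRep_asymptotic {k s : ℕ} (hk : 2 ≤ k) (hs : k * (k + 1) + 3 ≤ s) {ε : ℝ}
    (hε : 0 < ε) : ∃ N₀ : ℕ, ∀ N : ℕ, N₀ ≤ N →
      |primeRep k s Λ N - primeSeries k s N * repConst k s * (N : ℝ) ^ ((s : ℝ) / k - 1)| ≤
        ε * (N : ℝ) ^ ((s : ℝ) / k - 1) := by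
  obtain ⟨K, N₁, C, hK, hC, hcirc⟩ := exists_circle_bound hk hs
  have hk0 : (0 : ℝ) < k := by exact_mod_cast (show 0 < k by omega)
  have hs6 := six_le_of_large hk hs
  have h3k : 3 * k ≤ s := WaringAsymptotic.three_mul_le_of_lt hk (by omega)
  have hX2 : 2 ≤ (s : ℝ) * (1 / (k : ℝ)) := by
    rw [mul_one_div, le_div_iff₀ hk0]
    exact_mod_cast (show 2 * k ≤ s by omega)
  obtain ⟨C₆, hC₆, hconv⟩ := WaringAsymptotic.exists_weightConv_asymptotic (c := 1 / (k : ℝ))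
    (by positivity) hX2
  simp only [mul_one_div] at hconv
  change ∀ N : ℕ, 1 ≤ N → |_ - repConst k s * _| ≤ _ at hconv
  obtain ⟨Z₀, hZ₀⟩ : ∃ Z₀ : ℝ, Z₀ = ∑' q, primeAbs k s q := ⟨_, rfl⟩
  have hZ₀0 : 0 ≤ Z₀ := hZ₀ ▸ tsum_nonneg (primeAbs_nonneg k s)
  obtain ⟨G, hG⟩ : ∃ G, G = repConst k s + C₆ := ⟨_, rfl⟩
  have hG0 : 0 < G := hG ▸ add_pos (repConst_pos (by omega) (by omega)) hC₆
  obtain ⟨Q₀, hQ₀⟩ :=
    exists_primeSeries_tail (k := k) (s := s) (by omega) hs6 (ε := ε / (4 * G)) (by positivity)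
  obtain ⟨L, hL⟩ : ∃ L : ℝ, L = max (4 * C / ε) (Q₀ + 1 : ℕ) := ⟨_, rfl⟩
  obtain ⟨T, hT⟩ : ∃ T : ℕ, T = max ⌈Real.exp L⌉₊ ⌈4 * Z₀ * C₆ / ε⌉₊ := ⟨_, rfl⟩
  refine ⟨max N₁ ((T + 1) ^ k), fun N hN => ?_⟩
  obtain ⟨P, hP⟩ : ∃ P, P = WaringAsymptotic.rootFloor k N := ⟨_, rfl⟩
  obtain ⟨hl1, hc⟩ := hcirc N P (le_trans (le_max_left _ _) hN) hP
  have hN3 : (T + 1) ^ k ≤ N := le_trans (le_max_right _ _) hN
  have hN1 : 1 ≤ N := le_trans (Nat.one_le_pow _ _ (by omega)) hN3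
  have hPN : P ^ k ≤ N := hP ▸ (WaringAsymptotic.rootFloor_spec (by omega) hN1).2.1
  have hTP : T + 1 ≤ P := by
    by_contra h
    have := Nat.pow_le_pow_left (show P + 1 ≤ T + 1 by omega) k
    have : N < (P + 1) ^ k := hP ▸ (WaringAsymptotic.rootFloor_spec (by omega) hN1).2.2
    omega
  have hNr : (1 : ℝ) ≤ N := by exact_mod_cast hN1
  obtain ⟨l, hl⟩ : ∃ l, l = Real.log P := ⟨_, rfl⟩
  rw [← hl] at hl1 hc
  have hlL : L ≤ l := by
    rw [hl, Real.le_log_iff_exp_le (by exact_mod_cast (show 0 < P by omega))]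
    refine (Nat.le_ceil _).trans (Nat.cast_le.2 (le_trans ?_ hTP))
    rw [hT]
    exact le_trans (le_max_left _ _) (Nat.le_succ _)
  obtain ⟨Y, hY⟩ : ∃ Y, Y = (N : ℝ) ^ ((s : ℝ) / k - 1) := ⟨_, rfl⟩
  rw [← hY] at hc ⊢
  have hY0 : 0 ≤ Y := hY ▸ by positivity
  obtain ⟨W, hW⟩ : ∃ W, W = (N : ℝ) ^ ((s : ℝ) / k - 2) := ⟨_, rfl⟩
  have hW0 : 0 ≤ W := hW ▸ by positivity
  have hYW : Y = N * W := by
    rw [hY, hW, mul_comm (N : ℝ), ← Real.rpow_add_one (by linarith)]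
    ring_nf
  obtain ⟨J, hJ⟩ : ∃ J, J = WaringAsymptotic.weightConv (1 / (k : ℝ)) s N := ⟨_, rfl⟩
  rw [← hJ] at hc
  have hJe := hconv N hN1
  rw [← hY, ← hW, ← hJ] at hJe
  obtain ⟨S, hS⟩ : ∃ S, S = ∑' q, primeTerm k s N q := ⟨_, rfl⟩
  obtain ⟨S₁, hS₁⟩ : ∃ S₁, S₁ = ∑ q ∈ Icc 1 ⌊l ^ K⌋₊, primeTerm k s N q := ⟨_, rfl⟩
  rw [← hS₁] at hc
  have hQ : Q₀ ≤ ⌊l ^ K⌋₊ := by
    refine Nat.le_floor ?_
    have h1 : ((Q₀ + 1 : ℕ) : ℝ) ≤ l := (hL ▸ le_max_right _ _ : _ ≤ L).trans hlL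
    push_cast at h1
    calc (Q₀ : ℝ) ≤ l := by linarith
      _ ≤ l ^ K := le_self_pow₀ hl1 (by omega)
  have htail := hQ₀ _ hQ N
  rw [← hS₁, ← hS] at htail
  have h1 : |primeRep k s Λ N - J * S₁.re| ≤ ε / 4 * Y := by
    refine le_trans ?_ ((Complex.abs_re_le_norm _).trans hc |>.trans ?_)
    · simp
    · rw [mul_div_assoc', div_le_iff₀ (by linarith)]
      have h2 : 4 * C / ε ≤ l := (hL ▸ le_max_left _ _ : _ ≤ L).trans hlL
      rw [div_le_iff₀ hε] at h2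
      nlinarith
  have hWY : W ≤ Y := hYW ▸ le_mul_of_one_le_left hW0 hNr
  have hJY : |J| ≤ G * Y := by
    have h2 := abs_le.1 hJe
    have h3 := mul_le_mul_of_nonneg_left hWY hC₆.le
    have h4 : 0 ≤ repConst k s * Y :=
      mul_nonneg (repConst_pos (by omega) (by omega)).le hY0
    rw [abs_le, hG]
    constructor <;> linarith
  have h2 : |J * S₁.re - J * S.re| ≤ ε / 4 * Y := by
    rw [← mul_sub, abs_mul]
    refine (mul_le_mul hJY (le_trans (le_of_eq (by simp)) ((Complex.abs_re_le_norm _).trans htail))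
      (abs_nonneg _) (by positivity)).trans (le_of_eq ?_)
    field_simp
  have hSre : |S.re| ≤ Z₀ := by
    refine (Complex.abs_re_le_norm S).trans ?_
    rw [hS, hZ₀]
    exact tsum_of_norm_bounded (summable_primeAbs (by omega) hs6).hasSum (norm_primeTerm_le k s N)
  have h3 : |J * S.re - repConst k s * Y * S.re| ≤ ε / 4 * Y := by
    rw [← sub_mul, abs_mul]
    refine (mul_le_mul hJe hSre (abs_nonneg _) (by positivity)).trans ?_
    have h4 : 4 * Z₀ * C₆ / ε ≤ N := by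
      refine (Nat.le_ceil _).trans (Nat.cast_le.2 ?_)
      refine le_trans ?_ ((Nat.le_self_pow (by omega) P).trans hPN)
      refine le_trans ?_ hTP
      rw [hT]
      exact le_trans (le_max_right _ _) (Nat.le_succ _)
    rw [div_le_iff₀ hε] at h4
    rw [hYW]
    have := mul_le_mul_of_nonneg_left h4 hW0
    linarith
  rw [primeSeries, ← hS,
    show S.re * repConst k s * Y = repConst k s * Y * S.re by ring]
  rw [abs_le] at h1 h2 h3 ⊢
  constructor <;> linarith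

/-- `Λ` on the primes. -/
def onPrimes (n : ℕ) : ℝ := if n.Prime then Λ n else 0

theorem onPrimes_nonneg (n : ℕ) : 0 ≤ onPrimes n := by
  unfold onPrimes
  split_ifs
  exacts [vonMangoldt_nonneg, le_rfl]

theorem onPrimes_le (n : ℕ) : onPrimes n ≤ Λ n := by
  unfold onPrimes
  split_ifs
  exacts [le_rfl, vonMangoldt_nonneg]

/-- **The prime powers are negligible.** -/
theorem exists_primeRep_sub_onPrimes {k s : ℕ} (hk : 2 ≤ k) (hs : k * (k + 1) + 3 ≤ s) :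
    ∃ (e : ℕ) (C : ℝ), 0 < C ∧ ∀ N : ℕ, 3 ≤ WaringAsymptotic.rootFloor k N →
      primeRep k s Λ N - primeRep k s onPrimes N ≤
        C * ((N : ℝ) ^ ((s : ℝ) / k - 1) *
          (Real.log (WaringAsymptotic.rootFloor k N) ^ e /
            √(WaringAsymptotic.rootFloor k N : ℝ))) := by
  obtain ⟨t, ht⟩ : ∃ t, t = VMC.tri k + 1 := ⟨_, rfl⟩
  have h2t : 2 * t = k * (k + 1) + 2 := by rw [ht, mul_add, VMC.two_mul_tri]
  obtain ⟨u, hu⟩ : ∃ u, s = (2 * t + u) + 1 := ⟨s - 2 * t - 1, by omega⟩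
  have hs6 := six_le_of_large hk hs
  obtain ⟨C₈, hC₈, hmom⟩ := exists_powerDiagonal_le hk (show k * (k + 1) < 2 * t by omega)
  refine ⟨2 * t + 1, 4 * s * 6 ^ u * C₈, by positivity, fun N hP3 => ?_⟩
  obtain ⟨P, hP⟩ : ∃ P, P = WaringAsymptotic.rootFloor k N := ⟨_, rfl⟩
  rw [← hP] at hP3 ⊢
  have hN1 : 1 ≤ N := by
    by_contra h
    obtain rfl : N = 0 := by omega
    simp [WaringAsymptotic.rootFloor] at hP
    omega
  have hPN : P ^ k ≤ N := hP ▸ (WaringAsymptotic.rootFloor_spec (by omega) hN1).2.1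
  have hNP : N < (P + 1) ^ k := hP ▸ (WaringAsymptotic.rootFloor_spec (by omega) hN1).2.2
  obtain ⟨M, hM⟩ : ∃ M, M = s * N := ⟨_, rfl⟩
  have hM0 : (0 : ℝ) < M :=
    Nat.cast_pos.2 (hM ▸ Nat.mul_pos (by omega) hN1)
  have htM : t * P ^ k < M :=
    hM ▸ lt_of_le_of_lt (Nat.mul_le_mul_left t hPN) (Nat.mul_lt_mul_of_pos_right (by omega) hN1)
  have hP1 : (3 : ℝ) ≤ P := by exact_mod_cast hP3
  obtain ⟨l, hl⟩ : ∃ l, l = Real.log P := ⟨_, rfl⟩
  rw [← hl]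
  have hl1 : 1 ≤ l := by
    rw [hl, Real.le_log_iff_exp_le (by linarith)]
    linarith [Real.exp_one_lt_d9]
  have hΛ : ∀ n ∈ Ioc 0 P, Λ n ≤ l := fun n hn => by
    rw [mem_Ioc] at hn
    exact hl ▸ vonMangoldt_le_log.trans
      (Real.log_le_log (Nat.cast_pos.2 hn.1) (Nat.cast_le.2 hn.2))
  have hmoment : ∀ f : ℕ → ℝ, (∀ n, 0 ≤ f n) → (∀ n, f n ≤ Λ n) →
      ∑ h ∈ range M, ‖powTwist k ((h : ℝ) / M) f P‖ ^ (2 * t) ≤
        M * (l ^ (2 * t) * (C₈ * ((P : ℝ) ^ (2 * t) / (P : ℝ) ^ k))) := by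
    intro f hf0 hf
    refine (sum_powTwist_pow_le (f := f) (B := l) (fun n hn => ?_) htM).trans
      (mul_le_mul_of_nonneg_left (mul_le_mul_of_nonneg_left ((hmom P (by omega)).trans
        (le_of_eq ?_)) (by positivity)) hM0.le)
    · rw [abs_of_nonneg (hf0 n)]
      exact (hf n).trans (hΛ n hn)
    · rw [show 2 * (t : ℝ) - k = ((2 * t : ℕ) : ℝ) - ((k : ℕ) : ℝ) by push_cast; ring,
        Real.rpow_sub (by linarith), Real.rpow_natCast, Real.rpow_natCast]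
  have hdiff : ∀ x : ℝ,
      ‖powTwist k x Λ P - powTwist k x onPrimes P‖ ≤ 2 * √(P : ℝ) * l := by
    intro x
    rw [powTwist, powTwist, ← sum_sub_distrib, hl]
    refine (norm_sum_le _ _).trans (le_of_eq_of_le (sum_congr rfl fun n _ => ?_)
      (sum_powerPart_le (N := P) (by omega)))
    rw [← sub_mul, norm_mul, norm_eAdd, mul_one, ← Complex.ofReal_sub, Complex.norm_real,
      Real.norm_eq_abs, abs_of_nonneg (sub_nonneg.2 (onPrimes_le n)), onPrimes, powerPart]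
    split_ifs <;> ring
  have key : ‖(M : ℂ) * primeRep k s Λ N - (M : ℂ) * primeRep k s onPrimes N‖ ≤
      s * (2 * √(P : ℝ) * l) * (6 * (P : ℝ)) ^ u *
        (2 * (M * (l ^ (2 * t) * (C₈ * ((P : ℝ) ^ (2 * t) / (P : ℝ) ^ k))))) := by
    rw [← sum_grid_primeRep Λ (by omega) (by omega) hN1 hM hPN hNP,
      ← sum_grid_primeRep onPrimes (by omega) (by omega) hN1 hM hPN hNP, ← sum_sub_distrib]
    refine (norm_sum_le _ _).trans ((sum_le_sum (g := fun h : ℕ =>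
      s * (2 * √(P : ℝ) * l) * (6 * (P : ℝ)) ^ u *
        (‖powTwist k ((h : ℝ) / M) Λ P‖ ^ (2 * t) +
          ‖powTwist k ((h : ℝ) / M) onPrimes P‖ ^ (2 * t)))
      fun h _ => ?_).trans ?_)
    · rw [← sub_mul, norm_mul, norm_eAdd, mul_one]
      obtain ⟨x, hx⟩ : ∃ x, x = powTwist k ((h : ℝ) / M) Λ P := ⟨_, rfl⟩
      obtain ⟨y, hy⟩ : ∃ y, y = powTwist k ((h : ℝ) / M) onPrimes P := ⟨_, rfl⟩
      rw [← hx, ← hy]
      have hx6 : ‖x‖ ≤ 6 * P :=
        hx ▸ norm_powTwist_le (fun n => vonMangoldt_nonneg) (fun _ => le_rfl) _ P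
      have hy6 : ‖y‖ ≤ 6 * P := hy ▸ norm_powTwist_le onPrimes_nonneg onPrimes_le _ P
      rw [hu]
      refine (WaringAsymptotic.norm_pow_sub_pow_le (le_max_left ‖x‖ ‖y‖)
        (le_max_right ‖x‖ ‖y‖) (2 * t + u)).trans ?_
      have hd : ‖x - y‖ ≤ 2 * √(P : ℝ) * l := hx ▸ hy ▸ hdiff _
      rw [pow_add]
      calc _ ≤ ((2 * t + u + 1 : ℕ) : ℝ) *
            ((‖x‖ ^ (2 * t) + ‖y‖ ^ (2 * t)) * (6 * (P : ℝ)) ^ u) * (2 * √(P : ℝ) * l) := by
            gcongr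
            · rcases max_cases ‖x‖ ‖y‖ with ⟨e, -⟩ | ⟨e, -⟩ <;> rw [e] <;>
                linarith [pow_nonneg (norm_nonneg x) (2 * t), pow_nonneg (norm_nonneg y) (2 * t)]
            · exact max_le hx6 hy6
        _ = _ := by ring
    · rw [← mul_sum, sum_add_distrib]
      refine mul_le_mul_of_nonneg_left ?_ (by positivity)
      have h1 := hmoment Λ (fun n => vonMangoldt_nonneg) fun n => le_rfl
      have h2 := hmoment onPrimes onPrimes_nonneg onPrimes_le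
      linarith
  rw [← mul_sub, norm_mul, Complex.norm_natCast, ← Complex.ofReal_sub, Complex.norm_real,
    Real.norm_eq_abs] at key
  refine (le_abs_self _).trans (le_of_mul_le_mul_left (key.trans ?_) hM0)
  have hPs : (P : ℝ) ^ s / (P : ℝ) ^ k ≤ (N : ℝ) ^ ((s : ℝ) / k - 1) := by
    refine le_trans (le_of_eq ?_) (WaringAsymptotic.pow_root_le ?_ hPN)
    · rw [← Real.rpow_natCast (P : ℝ) s, ← Real.rpow_natCast (P : ℝ) k,
        ← Real.rpow_sub (by linarith)]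
      congr 1
      have : (k : ℝ) ≠ 0 := Nat.cast_ne_zero.2 (by omega)
      field_simp
    · rw [sub_nonneg, le_div_iff₀ (by exact_mod_cast (show 0 < k by omega)), one_mul]
      have := Nat.le_mul_of_pos_right k (show 0 < k + 1 by omega)
      exact_mod_cast (show k ≤ s by omega)
  have hsq : √(P : ℝ) = (P : ℝ) / √(P : ℝ) := by rw [Real.div_sqrt]
  calc (s : ℝ) * (2 * √(P : ℝ) * l) * (6 * (P : ℝ)) ^ u *
        (2 * ((M : ℝ) * (l ^ (2 * t) * (C₈ * ((P : ℝ) ^ (2 * t) / (P : ℝ) ^ k)))))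
      = (M : ℝ) * (4 * s * 6 ^ u * C₈ *
          ((P : ℝ) ^ s / (P : ℝ) ^ k * (l ^ (2 * t + 1) / √(P : ℝ)))) := by
        nth_rewrite 1 [hsq]
        rw [show (P : ℝ) ^ s = (P : ℝ) ^ (2 * t) * (P : ℝ) ^ u * P by
          rw [hu, pow_add, pow_add, pow_one], mul_pow, pow_succ l]
        ring
    _ ≤ _ := by gcongr

/-- The count with primes only is large. -/
theorem exists_primeRep_onPrimes_ge {k s : ℕ} (hk : 2 ≤ k) (hs : k * (k + 1) + 3 ≤ s) :
    ∃ (c : ℝ) (N₀ : ℕ), 0 < c ∧ ∀ N, N₀ ≤ N → N ≡ s [MOD classModulus k] →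
      c * (N : ℝ) ^ ((s : ℝ) / k - 1) ≤ primeRep k s onPrimes N := by
  have hs6 := six_le_of_large hk hs
  obtain ⟨c₁, hc₁, hS⟩ := exists_primeSeries_pos (s := s) hk (by omega)
  obtain ⟨g, hg⟩ : ∃ g, g = c₁ * repConst k s := ⟨_, rfl⟩
  have hg0 : 0 < g := hg ▸ mul_pos hc₁ (repConst_pos (by omega) (by omega))
  obtain ⟨N₁, hasy⟩ := exists_primeRep_asymptotic hk hs (ε := g / 4) (by positivity)
  obtain ⟨e, C, hC, hsub⟩ := exists_primeRep_sub_onPrimes hk hs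
  obtain ⟨T, hT⟩ := eventually_atTop.1 (((isLittleO_log_rpow_rpow_atTop (s := (1 / 2 : ℝ))
    ((e : ℕ) : ℝ) (by norm_num)).bound (show 0 < g / (4 * C) by positivity)).natCast_atTop)
  refine ⟨g / 2, max N₁ ((max T 3) ^ k), by positivity, fun N hN hmod => ?_⟩
  obtain ⟨P, hP⟩ : ∃ P, P = WaringAsymptotic.rootFloor k N := ⟨_, rfl⟩
  have hN1 : 1 ≤ N := le_trans (Nat.one_le_pow _ _ (by omega)) (le_trans (le_max_right _ _) hN)
  have hTP : max T 3 ≤ P := by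
    by_contra h
    have := Nat.pow_le_pow_left (show P + 1 ≤ max T 3 by omega) k
    have : N < (P + 1) ^ k := hP ▸ (WaringAsymptotic.rootFloor_spec (by omega) hN1).2.2
    have := le_trans (le_max_right _ _) hN
    omega
  have hP3 : 3 ≤ P := le_trans (le_max_right _ _) hTP
  have hPr : (3 : ℝ) ≤ P := by exact_mod_cast hP3
  have hlog := hT P (le_trans (le_max_left _ _) hTP)
  rw [Real.norm_eq_abs, Real.norm_eq_abs, abs_of_nonneg (by positivity [Real.log_natCast_nonneg P]),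
    abs_of_nonneg (by positivity), Real.rpow_natCast, ← Real.sqrt_eq_rpow] at hlog
  obtain ⟨Y, hY⟩ : ∃ Y, Y = (N : ℝ) ^ ((s : ℝ) / k - 1) := ⟨_, rfl⟩
  have hY0 : 0 ≤ Y := hY ▸ by positivity
  rw [← hY]
  have h1 := (abs_le.1 (hasy N (le_trans (le_max_left _ _) hN))).1
  have h2 := hsub N (hP ▸ hP3)
  rw [← hP, ← hY] at h2
  rw [← hY] at h1
  have h3 : C * (Y * (Real.log P ^ e / √(P : ℝ))) ≤ g / 4 * Y := by
    have h5 : Real.log P ^ e / √(P : ℝ) ≤ g / (4 * C) := by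
      rw [div_le_iff₀ (Real.sqrt_pos.2 (by linarith))]
      exact hlog
    calc C * (Y * (Real.log P ^ e / √(P : ℝ))) ≤ C * (Y * (g / (4 * C))) := by gcongr
      _ = _ := by field_simp
  have h4 : g * Y ≤ primeSeries k s N * repConst k s * Y := by
    rw [hg]
    exact mul_le_mul_of_nonneg_right (mul_le_mul_of_nonneg_right (hS N hmod)
      (repConst_pos (by omega) (by omega)).le) hY0
  linarith

/-- **The Waring-Goldbach problem.** -/
theorem exists_prime_powers {k s : ℕ} (hk : 2 ≤ k) (hs : k * (k + 1) + 3 ≤ s) :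
    ∃ N₀ : ℕ, ∀ N, N₀ ≤ N → N ≡ s [MOD classModulus k] →
      ∃ p : Fin s → ℕ, (∀ i, (p i).Prime) ∧ ∑ i, p i ^ k = N := by
  obtain ⟨c, N₀, hc, h⟩ := exists_primeRep_onPrimes_ge hk hs
  refine ⟨max N₀ 1, fun N hN hmod => ?_⟩
  by_contra hno
  push Not at hno
  have h1 := h N (le_trans (le_max_left _ _) hN) hmod
  have h0 : primeRep k s onPrimes N = 0 := by
    refine sum_eq_zero fun z hz => ?_
    rw [mem_filter] at hz
    obtain ⟨i, hi⟩ : ∃ i, ¬ (z i).Prime := by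
      by_contra hall
      push Not at hall
      exact hno z hall hz.2
    exact prod_eq_zero (mem_univ i) (if_neg hi)
  rw [h0] at h1
  have : (1 : ℝ) ≤ N := by exact_mod_cast le_trans (le_max_right _ _) hN
  have : 0 < c * (N : ℝ) ^ ((s : ℝ) / k - 1) := by positivity
  linarith

/-- The number of representations. -/
theorem exists_prime_powers_count {k s : ℕ} (hk : 2 ≤ k) (hs : k * (k + 1) + 3 ≤ s) :
    ∃ (c : ℝ) (N₀ : ℕ), 0 < c ∧ ∀ N, N₀ ≤ N → N ≡ s [MOD classModulus k] →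
      c * ((N : ℝ) ^ ((s : ℝ) / k - 1) / Real.log N ^ s) ≤
        (((Fintype.piFinset fun _ : Fin s => Icc 1 N).filter
          fun z => (∀ i, (z i).Prime) ∧ ∑ i, z i ^ k = N).card : ℝ) := by
  obtain ⟨c, N₀, hc, h⟩ := exists_primeRep_onPrimes_ge hk hs
  refine ⟨c, max N₀ 2, hc, fun N hN hmod => ?_⟩
  have hl : 0 < Real.log N :=
    Real.log_pos (by exact_mod_cast (show 1 < N from le_trans (le_max_right _ _) hN))
  rw [mul_div_assoc', div_le_iff₀ (pow_pos hl s)]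
  refine (h N (le_trans (le_max_left _ _) hN) hmod).trans ?_
  rw [primeRep, ← nsmul_eq_mul, ← sum_filter_add_sum_filter_not _ (fun z => ∀ i, (z i).Prime),
    filter_filter]
  have h0 : ∀ z ∈ ((Fintype.piFinset fun _ : Fin s => Icc 1 N).filter
      fun z => ∑ i, z i ^ k = N).filter (fun z => ¬ ∀ i, (z i).Prime),
      ∏ i, onPrimes (z i) = 0 := fun z hz => by
    obtain ⟨i, hi⟩ := not_forall.1 (mem_filter.1 hz).2
    exact prod_eq_zero (mem_univ i) (if_neg hi)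
  rw [sum_eq_zero h0, add_zero]
  simp only [and_comm]
  refine sum_le_card_nsmul _ _ _ fun z hz => ?_
  rw [mem_filter, Fintype.mem_piFinset] at hz
  calc ∏ i, onPrimes (z i) ≤ ∏ _i : Fin s, Real.log N :=
        prod_le_prod (fun i _ => onPrimes_nonneg _) fun i _ =>
          (onPrimes_le _).trans (vonMangoldt_le_log.trans (Real.log_le_log
            (by exact_mod_cast (mem_Icc.1 (hz.1 i)).1) (Nat.cast_le.2 (mem_Icc.1 (hz.1 i)).2)))
    _ = _ := by simp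

theorem classModulus_pos (k : ℕ) : 0 < classModulus k :=
  prod_pos fun _ hp => pow_pos (mem_filter.1 hp).2.1.pos _

/-- **The basis.** -/
theorem exists_prime_powers_basis {k : ℕ} (hk : 2 ≤ k) : ∃ N₀ : ℕ, ∀ N, N₀ ≤ N →
    ∃ s < k * (k + 1) + 3 + classModulus k,
      ∃ p : Fin s → ℕ, (∀ i, (p i).Prime) ∧ ∑ i, p i ^ k = N := by
  obtain ⟨s₀, hs₀⟩ : ∃ s₀, s₀ = k * (k + 1) + 3 := ⟨_, rfl⟩
  choose N₀ h using fun i : ℕ => exists_prime_powers (s := s₀ + i) hk (by omega)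
  obtain ⟨K, hK⟩ : ∃ K, K = classModulus k := ⟨_, rfl⟩
  have hK0 : 0 < K := hK ▸ classModulus_pos k
  refine ⟨∑ i ∈ range K, N₀ i, fun N hN => ?_⟩
  obtain ⟨i, hi⟩ : ∃ i, i = (N + s₀ * (K - 1)) % K := ⟨_, rfl⟩
  have hiK : i < K := hi ▸ Nat.mod_lt _ hK0
  refine ⟨s₀ + i, by omega, h i N (le_trans (single_le_sum (fun j _ => Nat.zero_le (N₀ j))
    (mem_range.2 hiK)) hN) ?_⟩
  rw [← hK, ← ZMod.natCast_eq_natCast_iff, hi]
  push_cast [ZMod.natCast_mod, Nat.cast_sub (show 1 ≤ K from hK0)]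
  rw [ZMod.natCast_self]
  ring

end FA.WaringGoldbach
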