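import Fermat.Agent.HuaCubes.Moment
import Fermat.Agent.WaringGoldbach.Moment

/-!
# The bilinear sums with `k`-th powers

`|∑_{x ≤ n} e (α D x ^ k)| ^ 2 ^ (k - 1)` for `n ≤ M` is at most `(2 M) ^ (2 ^ (k - 1) - k)` times
a sum of `clip (M, k! α h₁ ⋯ D)`; on average over `D` this is small by Vinogradov's lemma and the
mean values of the divisor function, and with Hölder's inequality and the moment above the
critical exponent it bounds the bilinear sums `∑ f m g n e (α m ^ k n ^ k)`.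
-/

set_option autoImplicit false

noncomputable section

namespace FA.WaringGoldbach

open Finset FA.ThreePrimes FA.WaringAsymptotic
open scoped ComplexConjugate

/-- Logarithms of quantities bounded by a power of `P`. -/
theorem exists_logOne_le (c m : ℕ) : ∃ C : ℝ, 1 ≤ C ∧ ∀ P n : ℕ, n ≤ c * P ^ m →
    logOne n ≤ C * logOne P := by
  refine ⟨1 + c + m, by linarith [(c.cast_nonneg : (0 : ℝ) ≤ c), (m.cast_nonneg : (0 : ℝ) ≤ m)],
    fun P n h => ?_⟩
  have h1 := one_le_logOne P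
  rcases Nat.eq_zero_or_pos n with rfl | hn
  · have e : logOne 0 = 1 := by simp [logOne]
    rw [e]
    exact one_le_mul_of_one_le_of_one_le
      (by linarith [(c.cast_nonneg : (0 : ℝ) ≤ c), (m.cast_nonneg : (0 : ℝ) ≤ m)]) h1
  have hc : 0 < c := by
    rcases Nat.eq_zero_or_pos c with rfl | h'
    · simp at h; omega
    · exact h'
  have h2 : Real.log n ≤ Real.log c + m * Real.log P := by
    rcases Nat.eq_zero_or_pos P with rfl | hP
    · rcases Nat.eq_zero_or_pos m with rfl | hm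
      · simpa using Real.log_le_log (Nat.cast_pos.2 hn) (Nat.cast_le.2 (by simpa using h))
      · simp [zero_pow hm.ne'] at h; omega
    rw [← Real.log_pow, ← Real.log_mul (by positivity) (by positivity)]
    exact Real.log_le_log (Nat.cast_pos.2 hn) (by exact_mod_cast h)
  have h3 : Real.log c ≤ c := Real.log_le_self (Nat.cast_nonneg c)
  have h4 : 0 ≤ Real.log P := Real.log_natCast_nonneg P
  have h5 : (0 : ℝ) ≤ c * Real.log P := mul_nonneg (Nat.cast_nonneg c) h4
  have h6 : (0 : ℝ) ≤ m := Nat.cast_nonneg m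
  unfold logOne at *
  linarith

/-- The differenced sum for `α D x ^ (j + 1)`. -/
def diffSum (j : ℕ) (α : ℝ) (M : ℕ) (D : ℤ) : ℝ :=
  ∑ h ∈ steps j M, clip M (α * ((((j + 1).factorial : ℤ) * (∏ i, h i) * D : ℤ) : ℝ))

theorem diffSum_nonneg (j : ℕ) (α : ℝ) (M : ℕ) (D : ℤ) : 0 ≤ diffSum j α M D :=
  sum_nonneg fun _ _ => clip_nonneg (Nat.cast_nonneg M) _

/-- **Weyl's inequality.** -/
theorem norm_waringSum_pow_le {j n M : ℕ} (hn : n ≤ M) (α : ℝ) (D : ℤ) :
    ‖waringSum (j + 1) n (α * D)‖ ^ 2 ^ j ≤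
      (2 * (M : ℝ)) ^ (2 ^ j - (j + 1)) * diffSum j α M D := by
  rcases Nat.eq_zero_or_pos M with rfl | hM
  · obtain rfl : n = 0 := by omega
    have e : waringSum (j + 1) 0 (α * D) = 0 := by simp [waringSum]
    rw [e, norm_zero, zero_pow (Nat.two_pow_pos j).ne']
    exact mul_nonneg (by positivity) (diffSum_nonneg _ _ _ _)
  have h := weyl_differencing j (hasLead_pow (α * D) (j + 1)) hM 0 n (by omega)
  rw [← waringSum_eq_int] at h
  refine h.trans (le_of_eq ?_)
  rw [diffSum]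
  refine congrArg _ (sum_congr rfl fun y _ => congrArg _ ?_)
  push_cast
  ring

/-- **The pairs `(h, D)` with `k! h₁ ⋯ D ≠ 0`.** -/
theorem sum_clip_pairs_le {j M N : ℕ} (α : ℝ) (S : Finset ((Fin j → ℤ) × ℤ))
    (hS : ∀ t ∈ S, t.1 ∈ steps j M ∧ (((j + 1).factorial : ℤ) * (∏ i, t.1 i) * t.2) ≠ 0 ∧
      (((j + 1).factorial : ℤ) * (∏ i, t.1 i) * t.2).natAbs ≤ N) :
    ∑ t ∈ S, clip M (α * ((((j + 1).factorial : ℤ) * (∏ i, t.1 i) * t.2 : ℤ) : ℝ)) ≤
      2 ^ (j + 1) * (√(∑ n ∈ Ioc 0 N, HuaCubes.tauPow (2 * (j + 1)) n) *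
        √((M : ℝ) * ∑ n ∈ Ioc 0 N, clip M (α * n))) := by
  classical
  have hc : ∀ x, 0 ≤ clip (M : ℝ) x := fun x => clip_nonneg (Nat.cast_nonneg M) x
  rw [← sum_fiberwise_of_maps_to
    (g := fun t => (((j + 1).factorial : ℤ) * (∏ i, t.1 i) * t.2).natAbs) (t := Ioc 0 N)
    fun t ht => by
      have := hS t ht
      rw [mem_Ioc]
      omega]
  refine (sum_le_sum
    (g := fun n => 2 ^ (j + 1) * (HuaCubes.tauPow (j + 1) n * clip M (α * n))) fun n hn => ?_).trans
    ?_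
  · rw [mem_Ioc] at hn
    refine (sum_le_card_nsmul _ _ (clip M (α * n)) fun t ht => le_of_eq ?_).trans ?_
    · rw [mem_filter] at ht
      rcases Int.natAbs_eq (((j + 1).factorial : ℤ) * (∏ i, t.1 i) * t.2) with e | e
      · rw [e, ht.2, Int.cast_natCast]
      · rw [e, ht.2, Int.cast_neg, Int.cast_natCast, mul_neg, ThreePrimes.clip_neg]
    rw [nsmul_eq_mul, ← mul_assoc]
    refine mul_le_mul_of_nonneg_right ?_ (hc _)
    refine le_trans (Nat.cast_le.2 (card_le_card (t := (HuaCubes.signedDivisors n).biUnion fun D =>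
      ((steps j M).filter fun h => (j + 1).factorial * D.natAbs * (∏ i, h i).natAbs = n).image
        fun h => (h, D)) fun t ht => ?_)) ?_
    · rw [mem_filter] at ht
      have hdvd : t.2.natAbs ∣ n := ht.2 ▸ Int.natAbs_dvd_natAbs.2 (dvd_mul_left _ _)
      refine mem_biUnion.2 ⟨t.2, HuaCubes.mem_signedDivisors hn.1.ne' hdvd,
        mem_image.2 ⟨t.1, mem_filter.2 ⟨(hS t ht.1).1, ?_⟩, rfl⟩⟩
      rw [← ht.2, Int.natAbs_mul, Int.natAbs_mul, Int.natAbs_natCast]
      ring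
    · rw [HuaCubes.tauPow, ← mul_pow]
      refine (Nat.cast_le.2 (card_biUnion_le.trans (sum_le_card_nsmul _ _
        ((2 * n.divisors.card) ^ j) fun D _ => card_image_le.trans
          (card_steps_fibre_le hn.1.ne')))).trans ?_
      · rw [smul_eq_mul, pow_succ']
        push_cast
        exact mul_le_mul_of_nonneg_right (by exact_mod_cast HuaCubes.card_signedDivisors_le n)
          (by positivity)
  · rw [← mul_sum]
    refine mul_le_mul_of_nonneg_left ((Real.sum_mul_le_sqrt_mul_sqrt _ _ _).trans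
      (mul_le_mul (Real.sqrt_le_sqrt (le_of_eq (sum_congr rfl fun n _ => ?_)))
        (Real.sqrt_le_sqrt ?_) (Real.sqrt_nonneg _) (Real.sqrt_nonneg _))) (by positivity)
    · rw [HuaCubes.tauPow, HuaCubes.tauPow, ← pow_mul, mul_comm]
    · rw [mul_sum]
      refine sum_le_sum fun n _ => ?_
      rw [sq]
      exact mul_le_mul_of_nonneg_right (clip_le _ _) (hc _)

/-- **The Weyl bounds on average.** -/
theorem exists_sum_diffSum_le {j : ℕ} (hj : 1 ≤ j) : ∃ (e : ℕ) (C : ℝ), 0 < C ∧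
    ∀ (q : ℕ) [NeZero q] (a : ℤ) (α : ℝ), IsUnit (a : ZMod q) →
      |α - a / q| ≤ 1 / (q : ℝ) ^ 2 → ∀ M X : ℕ, 1 ≤ M → 1 ≤ X →
      ∀ S : Finset ℤ, (∀ D ∈ S, D.natAbs ≤ X) → ∀ l : ℝ, 1 + Real.log q ≤ l →
        logOne ((j + 1).factorial * M ^ j * X) ≤ l →
        ∑ D ∈ S, diffSum j α M D ≤ C * ((M : ℝ) ^ j * S.card +
          (M : ℝ) ^ (j + 1) * (S.filter fun D => D = 0).card +
          l ^ e * √((((j + 1).factorial * M ^ j * X : ℕ) : ℝ) * M *
            ((((j + 1).factorial * M ^ j * X : ℕ) : ℝ) * M / q +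
              (((j + 1).factorial * M ^ j * X : ℕ) : ℝ) + M + q))) := by
  obtain ⟨i, rfl⟩ : ∃ i, j = i + 1 := ⟨j - 1, by omega⟩
  refine ⟨2 ^ (2 * (i + 1 + 1)), ((i + 1 : ℕ) : ℝ) * 2 ^ (i + 1) + 2 ^ (i + 1 + 1) * 6,
    by positivity, fun q _ a α ha hα M X hM hX S hS l hlq hlN => ?_⟩
  classical
  obtain ⟨N, hN⟩ : ∃ N, N = (i + 1 + 1).factorial * M ^ (i + 1) * X := ⟨_, rfl⟩
  rw [← hN] at hlN ⊢
  have hl1 : 1 ≤ l := (one_le_logOne N).trans hlN
  have hN1 : 1 ≤ N := hN ▸ Nat.mul_pos (Nat.mul_pos (Nat.factorial_pos _) (pow_pos hM _)) hX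
  have hc : ∀ x, 0 ≤ clip (M : ℝ) x := fun x => clip_nonneg (Nat.cast_nonneg M) x
  simp only [diffSum]
  rw [sum_comm, ← sum_product' (f := fun (h : Fin (i + 1) → ℤ) D =>
      clip M (α * ((((i + 1 + 1).factorial : ℤ) * (∏ l, h l) * D : ℤ) : ℝ))),
    ← sum_filter_add_sum_filter_not _
      (fun t : (Fin (i + 1) → ℤ) × ℤ => ((i + 1 + 1).factorial : ℤ) * (∏ l, t.1 l) * t.2 = 0)]
  obtain ⟨A, hA⟩ : ∃ A, A = √((N : ℝ) * M * ((N : ℝ) * M / q + N + M + q)) := ⟨_, rfl⟩
  rw [← hA]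
  have hA0 : 0 ≤ A := hA ▸ Real.sqrt_nonneg _
  obtain ⟨Z, hZ⟩ : ∃ Z : ℝ, Z = ((S.filter fun D => D = 0).card : ℝ) := ⟨_, rfl⟩
  rw [← hZ]
  have hZ0 : 0 ≤ Z := hZ ▸ Nat.cast_nonneg _
  refine le_trans (add_le_add
    (b := ((i + 1 : ℕ) : ℝ) * 2 ^ i * ((M : ℝ) ^ (i + 1) * S.card) +
      2 ^ (i + 1) * ((M : ℝ) ^ (i + 1 + 1) * Z))
    (d := 2 ^ (i + 1 + 1) * 6 * (l ^ (2 ^ (2 * (i + 1 + 1))) * A)) ?_ ?_) ?_
  · refine (sum_le_card_nsmul _ _ (M : ℝ) fun t _ => clip_le _ _).trans ?_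
    rw [nsmul_eq_mul]
    refine (mul_le_mul_of_nonneg_right (Nat.cast_le.2 (card_le_card
      (t := ((steps (i + 1) M).filter fun h => ∏ l, h l = 0) ×ˢ S ∪
        steps (i + 1) M ×ˢ (S.filter fun D => D = 0)) fun t ht => ?_))
      (Nat.cast_nonneg M)).trans ?_
    · simp only [mem_filter, mem_product, mul_eq_zero] at ht
      simp only [mem_union, mem_product, mem_filter]
      rcases ht.2 with (h | h) | h
      · exact absurd h (Int.natCast_ne_zero.2 (Nat.factorial_ne_zero _))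
      · exact Or.inl ⟨⟨ht.1.1, h⟩, ht.1.2⟩
      · exact Or.inr ⟨ht.1.1, ht.1.2, h⟩
    · refine (mul_le_mul_of_nonneg_right (Nat.cast_le.2 (card_union_le _ _))
        (Nat.cast_nonneg M)).trans ?_
      simp only [card_product]
      push_cast
      have h1 : (((steps (i + 1) M).filter fun h => ∏ l, h l = 0).card : ℝ) ≤
          ((i + 1 : ℕ) : ℝ) * (2 * (M : ℝ)) ^ i := by
        exact_mod_cast (by simpa using card_steps_zero_le (j := i + 1) hM)
      have h2 : ((steps (i + 1) M).card : ℝ) ≤ (2 * (M : ℝ)) ^ (i + 1) := by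
        rw [steps, Fintype.card_piFinset_const, Int.card_Ioo]
        push_cast
        refine pow_le_pow_left₀ (Nat.cast_nonneg _) ?_ _
        exact_mod_cast (show ((M : ℤ) - -(M : ℤ) - 1).toNat ≤ 2 * M by omega)
      rw [← hZ, add_mul]
      refine le_trans (add_le_add
        (mul_le_mul_of_nonneg_right (mul_le_mul_of_nonneg_right h1 (Nat.cast_nonneg _))
          (Nat.cast_nonneg M))
        (mul_le_mul_of_nonneg_right (mul_le_mul_of_nonneg_right h2 hZ0) (Nat.cast_nonneg M)))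
        (le_of_eq ?_)
      push_cast
      ring
  · refine (sum_clip_pairs_le (N := N) α _ fun t ht => ?_).trans ?_
    · simp only [mem_filter, mem_product] at ht
      refine ⟨ht.1.1, ht.2, ?_⟩
      rw [Int.natAbs_mul, Int.natAbs_mul, Int.natAbs_natCast, hN,
        show (∏ l, t.1 l).natAbs = ∏ l, (t.1 l).natAbs from map_prod Int.natAbsHom t.1 univ]
      refine Nat.mul_le_mul (Nat.mul_le_mul_left _ ((prod_le_pow_card _ _ M fun l _ => ?_).trans
        (by simp))) (hS _ ht.1.2)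
      have := mem_Ioo.1 (Fintype.mem_piFinset.1 ht.1.1 l)
      omega
    · rw [mul_assoc (2 ^ (i + 1 + 1) : ℝ)]
      refine mul_le_mul_of_nonneg_left ?_ (by positivity)
      rw [← mul_assoc, hA, ← Real.sqrt_mul (sum_nonneg fun n _ => HuaCubes.tauPow_nonneg _ _),
        ← Real.sqrt_sq (show 0 ≤ 6 * l ^ (2 ^ (2 * (i + 1 + 1))) by positivity),
        ← Real.sqrt_mul (by positivity)]
      refine Real.sqrt_le_sqrt ?_
      obtain ⟨e, he⟩ : ∃ e, e = 2 ^ (2 * (i + 1 + 1)) := ⟨_, rfl⟩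
      rw [← he]
      have h1 : ∑ n ∈ Ioc 0 N, HuaCubes.tauPow (2 * (i + 1 + 1)) n ≤ N * l ^ e :=
        (HuaCubes.sum_tauPow_le _ N).trans (mul_le_mul_of_nonneg_left ((pow_le_pow_left₀
          (zero_le_one.trans (one_le_logOne N)) hlN _).trans
          (pow_le_pow_right₀ hl1 (by omega))) (Nat.cast_nonneg N))
      have hsub : Ioc 0 N ⊆ range (N + 1) := fun n hn => by
        rw [mem_Ioc] at hn
        rw [mem_range]
        omega
      have hN1' : (1 : ℝ) ≤ N := by exact_mod_cast hN1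
      have h2 : ∑ n ∈ Ioc 0 N, clip M (α * n) ≤ 30 * l * ((N : ℝ) * M / q + N + M + q) := by
        refine (sum_le_sum_of_subset_of_nonneg hsub fun n _ _ => hc _).trans ?_
        have h := sum_clip_range_le ha hα 0 (Nat.cast_nonneg M : (0 : ℝ) ≤ M) (N + 1)
        simp only [zero_add] at h
        refine h.trans ?_
        have hq : (0 : ℝ) < q := Nat.cast_pos.2 (NeZero.pos q)
        have hq1 : ((N + 1 : ℕ) : ℝ) / q + 1 ≤ 2 * (N / q) + 1 := by
          push_cast
          rw [mul_div_assoc']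
          gcongr
          linarith
        calc ((((N + 1 : ℕ) : ℝ) / q + 1) * (5 * M + 2 * q * (1 + Real.log q)))
            ≤ (2 * (N / q) + 1) * (5 * M + 2 * q * l) := by
              gcongr
          _ = 10 * ((N : ℝ) * M / q) + 4 * l * N + 5 * M + 2 * l * q := by field_simp; ring
          _ ≤ _ := by
              have e1 : 0 ≤ (N : ℝ) * M / q * (l - 1) := mul_nonneg (by positivity) (by linarith)
              have e2 : 0 ≤ (M : ℝ) * (l - 1) := mul_nonneg (by positivity) (by linarith)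
              have e3 : 0 ≤ (N : ℝ) * l := by positivity
              have e4 : 0 ≤ (q : ℝ) * l := by positivity
              have e5 : 0 ≤ (N : ℝ) * M / q * l := by positivity
              have e6 : 0 ≤ (M : ℝ) * l := by positivity
              linarith
      refine (mul_le_mul h1 (mul_le_mul_of_nonneg_left h2 (Nat.cast_nonneg M))
        (mul_nonneg (Nat.cast_nonneg M) (sum_nonneg fun n _ => hc _)) (by positivity)).trans ?_
      have he1 : 1 ≤ e := he ▸ Nat.one_le_two_pow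
      calc (N : ℝ) * l ^ e * (M * (30 * l * ((N : ℝ) * M / q + N + M + q)))
          = 30 * l ^ (e + 1) * ((N : ℝ) * M * ((N : ℝ) * M / q + N + M + q)) := by ring
        _ ≤ 36 * l ^ (e * 2) * ((N : ℝ) * M * ((N : ℝ) * M / q + N + M + q)) := by
            gcongr
            · norm_num
            · omega
        _ = _ := by ring
  · have a1 : 0 ≤ (M : ℝ) ^ (i + 1) * S.card := by positivity
    have a2 : 0 ≤ (M : ℝ) ^ (i + 1 + 1) * Z := by positivity
    have a3 : 0 ≤ l ^ (2 ^ (2 * (i + 1 + 1))) * A := by positivity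
    have b1 : (0 : ℝ) ≤ ((i + 1 : ℕ) : ℝ) * 2 ^ i := by positivity
    have b2 : (1 : ℝ) ≤ ((i + 1 : ℕ) : ℝ) := by exact_mod_cast Nat.succ_pos i
    have b3 : (2 : ℝ) ^ (i + 1) ≤ ((i + 1 : ℕ) : ℝ) * 2 ^ (i + 1) :=
      le_mul_of_one_le_left (by positivity) b2
    rw [mul_add _ ((M : ℝ) ^ (i + 1) * S.card + _), mul_add _ ((M : ℝ) ^ (i + 1) * S.card)]
    refine add_le_add (add_le_add (mul_le_mul_of_nonneg_right ?_ a1)
      (mul_le_mul_of_nonneg_right ?_ a2)) (mul_le_mul_of_nonneg_right ?_ a3)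
    · rw [pow_succ (2 : ℝ) i]
      have : 0 ≤ (2 : ℝ) ^ (i + 1 + 1) * 6 := by positivity
      linarith
    · have : 0 ≤ (2 : ℝ) ^ (i + 1 + 1) * 6 := by positivity
      linarith
    · have : 0 ≤ ((i + 1 : ℕ) : ℝ) * 2 ^ (i + 1) := by positivity
      linarith

end FA.WaringGoldbach
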